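import Fermat.Agent.QInt.BoundedDenominators

/-!
# QInt M10c (algebraic part): bounded denominators

A rational power series `P` which is integral over, and in the fraction field of, a ring of complex
power series all of whose `ℚ`-linear projections have bounded denominators, has bounded
denominators.
-/

set_option autoImplicit false

namespace Fermat.Agent.QInt

open PowerSeries

/-- Apply a `ℚ`-linear functional coefficientwise. -/
noncomputable def lamPS (lam : ℂ →ₗ[ℚ] ℚ) (A : PowerSeries ℂ) : PowerSeries ℚ :=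
  PowerSeries.mk fun n => lam (coeff n A)

@[simp] lemma coeff_lamPS (lam : ℂ →ₗ[ℚ] ℚ) (A : PowerSeries ℂ) (n : ℕ) :
    coeff n (lamPS lam A) = lam (coeff n A) := by
  simp [lamPS]

lemma lamPS_zero (lam : ℂ →ₗ[ℚ] ℚ) : lamPS lam 0 = 0 := by
  ext n; simp

lemma lamPS_add (lam : ℂ →ₗ[ℚ] ℚ) (A B : PowerSeries ℂ) :
    lamPS lam (A + B) = lamPS lam A + lamPS lam B := by
  ext n; simp

lemma lamPS_sum (lam : ℂ →ₗ[ℚ] ℚ) {ι : Type*} (s : Finset ι) (A : ι → PowerSeries ℂ) :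
    lamPS lam (∑ i ∈ s, A i) = ∑ i ∈ s, lamPS lam (A i) := by
  ext n; simp

lemma lamPS_mul_map (lam : ℂ →ₗ[ℚ] ℚ) (A : PowerSeries ℂ) (R : PowerSeries ℚ) :
    lamPS lam (A * R.map (algebraMap ℚ ℂ)) = lamPS lam A * R := by
  ext n
  rw [coeff_lamPS, coeff_mul, coeff_mul, map_sum]
  refine Finset.sum_congr rfl fun p _ => ?_
  rw [coeff_map, coeff_lamPS]
  have : coeff p.1 A * (algebraMap ℚ ℂ) (coeff p.2 R) = (coeff p.2 R) • coeff p.1 A := by
    rw [Algebra.smul_def, mul_comm]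
  rw [this, map_smul, smul_eq_mul, mul_comm]

lemma lamPS_one (lam : ℂ →ₗ[ℚ] ℚ) (h : lam 1 = 1) : lamPS lam 1 = 1 := by
  ext n
  rw [coeff_lamPS, coeff_one, coeff_one]
  split_ifs <;> simp [h]

/-- All `ℚ`-linear projections of `A` have bounded denominators. -/
def IsL1 (A : PowerSeries ℂ) : Prop :=
  ∀ lam : ℂ →ₗ[ℚ] ℚ, ∃ D : ℕ, D ≠ 0 ∧ (D : PowerSeries ℚ) * lamPS lam A ∈ intSeries

lemma exists_lam_ne_zero {x : ℂ} (hx : x ≠ 0) : ∃ lam : ℂ →ₗ[ℚ] ℚ, lam x ≠ 0 := by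
  by_contra h
  push Not at h
  exact hx ((Module.forall_dual_apply_eq_zero_iff ℚ x).mp h)

lemma exists_lam_one : ∃ lam : ℂ →ₗ[ℚ] ℚ, lam 1 = 1 := by
  obtain ⟨lam, h⟩ := exists_lam_ne_zero (one_ne_zero : (1 : ℂ) ≠ 0)
  exact ⟨(lam 1)⁻¹ • lam, by simp [h]⟩

/-- A common denominator for a finite family. -/
lemma exists_common_denominator (s : Finset ℕ) (a : ℕ → PowerSeries ℚ)
    (h : ∀ l, ∃ D : ℕ, D ≠ 0 ∧ (D : PowerSeries ℚ) * a l ∈ intSeries) :
    ∃ M : ℕ, M ≠ 0 ∧ ∀ l ∈ s, (M : PowerSeries ℚ) * a l ∈ intSeries := by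
  classical
  choose D hD0 hD using h
  refine ⟨∏ l ∈ s, D l, Finset.prod_ne_zero_iff.mpr fun l _ => hD0 l, fun l hl => ?_⟩
  rw [← Finset.mul_prod_erase s D hl]
  push_cast
  have : (D l : PowerSeries ℚ) * (∏ x ∈ s.erase l, (D x : PowerSeries ℚ)) * a l =
      (∏ x ∈ s.erase l, (D x : PowerSeries ℚ)) * ((D l : PowerSeries ℚ) * a l) := by ring
  rw [this]
  exact Subring.mul_mem _ (Subring.prod_mem _ fun x _ => natCast_mem _ _) (hD l)

theorem bounded_denominator_alg (P : PowerSeries ℚ) (μ : ℕ) (c : ℕ → PowerSeries ℂ)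
    (hc0 : c 0 = 1) (hc : ∀ l, IsL1 (c l))
    (hrel : ∑ l ∈ Finset.range (μ + 1), c l * (P.map (algebraMap ℚ ℂ)) ^ (μ - l) = 0)
    (Dd : PowerSeries ℂ) (hD0 : Dd ≠ 0) (hD : IsL1 Dd) (μ' : ℕ) (y : ℕ → PowerSeries ℂ)
    (hy : ∀ m, IsL1 (y m)) (Θ : PowerSeries ℚ) (hΘ : Θ ∈ intSeries)
    (hexp : Dd * P.map (algebraMap ℚ ℂ) =
      ∑ m ∈ Finset.range μ', y m * (Θ.map (algebraMap ℚ ℂ)) ^ m) :
    ∃ M : ℕ, M ≠ 0 ∧ (M : PowerSeries ℚ) * P ∈ intSeries := by
  classical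
  -- Step 1: integrality
  obtain ⟨lam₁, hlam₁⟩ := exists_lam_one
  set a : ℕ → PowerSeries ℚ := fun l => lamPS lam₁ (c l) with ha
  have ha0 : a 0 = 1 := by simp only [ha, hc0]; exact lamPS_one lam₁ hlam₁
  have hrel1 : ∑ l ∈ Finset.range (μ + 1), a l * P ^ (μ - l) = 0 := by
    have := congrArg (lamPS lam₁) hrel
    rw [lamPS_sum, lamPS_zero] at this
    rw [← this]
    refine Finset.sum_congr rfl fun l _ => ?_
    rw [← map_pow, lamPS_mul_map]
  obtain ⟨M, hM0, hM⟩ := exists_common_denominator (Finset.range (μ + 1)) a (fun l => hc l lam₁)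
  set g : PowerSeries ℚ := (M : PowerSeries ℚ) * P with hg
  have haM : ∀ l ≤ μ, a l * (M : PowerSeries ℚ) ^ l ∈ intSeries := by
    intro l hl
    rcases Nat.eq_zero_or_pos l with rfl | hpos
    · rw [ha0, pow_zero, mul_one]; exact Subring.one_mem _
    · obtain ⟨j, rfl⟩ : ∃ j, l = j + 1 := ⟨l - 1, by omega⟩
      have : a (j + 1) * (M : PowerSeries ℚ) ^ (j + 1) =
          (M : PowerSeries ℚ) ^ j * ((M : PowerSeries ℚ) * a (j + 1)) := by ring
      rw [this]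
      exact Subring.mul_mem _ (Subring.pow_mem _ (natCast_mem _ _) _)
        (hM _ (Finset.mem_range.mpr (by omega)))
  have hrel2 : ∑ l ∈ Finset.range (μ + 1), a l * (M : PowerSeries ℚ) ^ l * g ^ (μ - l) = 0 := by
    have h1 : ∀ l ∈ Finset.range (μ + 1), a l * (M : PowerSeries ℚ) ^ l * g ^ (μ - l) =
        (M : PowerSeries ℚ) ^ μ * (a l * P ^ (μ - l)) := by
      intro l hl
      have hl' : l ≤ μ := Nat.lt_succ_iff.mp (Finset.mem_range.mp hl)
      have : (M : PowerSeries ℚ) ^ μ = (M : PowerSeries ℚ) ^ l * (M : PowerSeries ℚ) ^ (μ - l) := by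
        rw [← pow_add, Nat.add_sub_cancel' hl']
      rw [this, hg, mul_pow]; ring
    rw [Finset.sum_congr rfl h1, ← Finset.mul_sum, hrel1, mul_zero]
  have hCmem : ∀ i, ∃ v : PowerSeries ℤ,
      a (μ - i) * (M : PowerSeries ℚ) ^ (μ - i) = v.map (Int.castRingHom ℚ) := by
    intro i
    obtain ⟨v, hv⟩ := haM (μ - i) (Nat.sub_le _ _)
    exact ⟨v, hv.symm⟩
  choose C hC using hCmem
  have hrel3 : g ^ μ + ∑ i ∈ Finset.range μ, (C i).map (Int.castRingHom ℚ) * g ^ i = 0 := by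
    rw [Finset.sum_range_succ', ha0] at hrel2
    simp only [pow_zero, mul_one, one_mul, Nat.sub_zero] at hrel2
    rw [add_comm, ← hrel2]
    congr 1
    rw [← Finset.sum_range_reflect]
    refine Finset.sum_congr rfl fun l hl => ?_
    have hl' : l < μ := Finset.mem_range.mp hl
    rw [← hC]
    have h1 : μ - (μ - 1 - l) = l + 1 := by omega
    have h2 : μ - 1 - l = μ - (l + 1) := by omega
    rw [h1, h2]
  -- Step 2: fraction
  obtain ⟨n0, hn0⟩ : ∃ n, coeff n Dd ≠ 0 := by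
    by_contra h
    push Not at h
    exact hD0 (PowerSeries.ext fun n => by simpa using h n)
  obtain ⟨lam₂, hlam₂⟩ := exists_lam_ne_zero hn0
  have hLD0 : lamPS lam₂ Dd ≠ 0 := by
    intro h
    apply hlam₂
    have := congrArg (coeff n0) h
    simpa using this
  have hexp1 : lamPS lam₂ Dd * P = ∑ m ∈ Finset.range μ', lamPS lam₂ (y m) * Θ ^ m := by
    have := congrArg (lamPS lam₂) hexp
    rw [lamPS_sum, lamPS_mul_map] at this
    rw [this]
    refine Finset.sum_congr rfl fun m _ => ?_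
    rw [← map_pow, lamPS_mul_map]
  obtain ⟨K₁, hK₁0, hK₁⟩ := hD lam₂
  obtain ⟨K₂, hK₂0, hK₂⟩ := exists_common_denominator (Finset.range μ')
    (fun m => lamPS lam₂ (y m)) (fun m => hy m lam₂)
  have hEmem : ((K₁ * K₂ : ℕ) : PowerSeries ℚ) * lamPS lam₂ Dd ∈ intSeries := by
    push_cast
    have : (K₁ : PowerSeries ℚ) * (K₂ : PowerSeries ℚ) * lamPS lam₂ Dd =
        (K₂ : PowerSeries ℚ) * ((K₁ : PowerSeries ℚ) * lamPS lam₂ Dd) := by ring
    rw [this]
    exact Subring.mul_mem _ (natCast_mem _ _) hK₁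
  obtain ⟨E, hE⟩ := hEmem
  have hK0 : ((K₁ * K₂ : ℕ) : PowerSeries ℚ) ≠ 0 := by
    intro h
    have h1 := congrArg (constantCoeff (R := ℚ)) h
    rw [map_natCast, map_zero] at h1
    exact mul_ne_zero hK₁0 hK₂0 (by exact_mod_cast h1)
  have hE0 : E ≠ 0 := by
    rintro rfl
    rw [map_zero] at hE
    exact mul_ne_zero hK0 hLD0 hE.symm
  have hEg : ∃ u : PowerSeries ℤ, E.map (Int.castRingHom ℚ) * g = u.map (Int.castRingHom ℚ) := by
    have hmem : E.map (Int.castRingHom ℚ) * g ∈ intSeries := by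
      have h1 : E.map (Int.castRingHom ℚ) * g = (M : PowerSeries ℚ) * (K₁ : PowerSeries ℚ) *
          ∑ m ∈ Finset.range μ', ((K₂ : PowerSeries ℚ) * lamPS lam₂ (y m)) * Θ ^ m := by
        have h2 : ∑ m ∈ Finset.range μ', ((K₂ : PowerSeries ℚ) * lamPS lam₂ (y m)) * Θ ^ m =
            (K₂ : PowerSeries ℚ) * (lamPS lam₂ Dd * P) := by
          rw [hexp1, Finset.mul_sum]
          exact Finset.sum_congr rfl fun m _ => by ring
        have hE' : E.map (Int.castRingHom ℚ) = ((K₁ * K₂ : ℕ) : PowerSeries ℚ) * lamPS lam₂ Dd := hE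
        rw [h2, hE', hg]
        push_cast
        ring
      rw [h1]
      refine Subring.mul_mem _ (Subring.mul_mem _ (natCast_mem _ _) (natCast_mem _ _))
        (Subring.sum_mem _ fun m hm => Subring.mul_mem _ (hK₂ m hm) (Subring.pow_mem _ hΘ _))
    obtain ⟨u, hu⟩ := hmem
    exact ⟨u, hu.symm⟩
  obtain ⟨v, hv⟩ := mem_int_of_integral g E hE0 hEg μ C hrel3
  exact ⟨M, hM0, ⟨v, hv.symm⟩⟩

end Fermat.Agent.QInt
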