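import Fermat.Agent.QInt.AutC

/-!
# Descent: a finite-dimensional subspace of `ℕ → ℂ` stable under `Aut(ℂ)` is spanned by
rational vectors.
-/

namespace Fermat.Agent.QInt

open Module

/-- A finite dimensional space of sequences admits "pivot coordinates": finitely many indices
`n i` and vectors `c j ∈ W` with `c j (n i) = δ_ij`, such that a vector of `W` vanishing at all
the `n i` is zero. -/
theorem exists_pivots {K : Type} [Field K] (W : Submodule K (ℕ → K)) [FiniteDimensional K W] :
    ∃ (ι : Type) (_ : Fintype ι) (_ : DecidableEq ι) (n : ι → ℕ) (c : ι → (ℕ → K)),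
      (∀ j, c j ∈ W) ∧ (∀ i j, c j (n i) = if i = j then 1 else 0) ∧
      (∀ w ∈ W, (∀ i, w (n i) = 0) → w = 0) := by
  classical
  let φ : ℕ → Dual K W := fun m => (LinearMap.proj m).comp W.subtype
  have hspan : ⊤ ≤ Submodule.span K (Set.range φ) := by
    have h1 : (Submodule.span K (Set.range φ)).dualCoannihilator = ⊥ := by
      rw [eq_bot_iff]
      intro v hv
      rw [Submodule.mem_dualCoannihilator] at hv
      have : ∀ m, (v : ℕ → K) m = 0 := fun m => hv (φ m) (Submodule.subset_span ⟨m, rfl⟩)
      rw [Submodule.mem_bot]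
      exact Subtype.ext (funext this)
    have h2 := Subspace.dualCoannihilator_dualAnnihilator_eq
      (W := Submodule.span K (Set.range φ))
    rw [h1, Submodule.dualAnnihilator_bot] at h2
    exact h2.le
  let b := Basis.ofSpan hspan
  have hb : ∀ i, ∃ m, φ m = b i := fun i => Basis.ofSpan_subset hspan ⟨i, rfl⟩
  choose n hn using hb
  have : Fintype _ := FiniteDimensional.fintypeBasisIndex b
  let E : W →ₗ[K] (_ → K) := LinearMap.pi (fun i => b i)
  have hEinj : Function.Injective E := by
    rw [← LinearMap.ker_eq_bot, eq_bot_iff]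
    intro v hv
    rw [LinearMap.mem_ker] at hv
    rw [Submodule.mem_bot, ← Module.forall_dual_apply_eq_zero_iff K]
    intro f
    have hf : f ∈ Submodule.span K (Set.range b) := by rw [b.span_eq]; trivial
    induction hf using Submodule.span_induction with
    | mem x hx =>
      obtain ⟨i, rfl⟩ := hx
      exact congrFun hv i
    | zero => simp
    | add x y _ _ hx hy => simp [hx, hy]
    | smul a x _ hx => simp [hx]
  have hEsurj : Function.Surjective E := by
    refine (LinearMap.injective_iff_surjective_of_finrank_eq_finrank ?_).1 hEinj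
    rw [Module.finrank_fintype_fun_eq_card, ← Module.finrank_eq_card_basis b,
      Subspace.dual_finrank_eq]
  choose c hc using fun j => hEsurj (Pi.single j 1)
  refine ⟨_, inferInstance, inferInstance, n, fun j => (c j : ℕ → K), fun j => (c j).2, ?_, ?_⟩
  · intro i j
    have := congrFun (hc j) i
    simp only [E, LinearMap.pi_apply, ← hn i] at this
    rw [Pi.single_apply] at this
    exact this
  · intro w hw h0
    have : E ⟨w, hw⟩ = 0 := by
      funext i
      simp only [E, LinearMap.pi_apply, ← hn i]
      exact h0 i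
    have := hEinj (this.trans (map_zero E).symm)
    exact congrArg Subtype.val this

theorem span_rat_of_stable (W : Submodule ℂ (ℕ → ℂ)) [FiniteDimensional ℂ W]
    (hW : ∀ σ : ℂ ≃+* ℂ, ∀ w ∈ W, (fun n => σ (w n)) ∈ W) :
    W ≤ Submodule.span ℂ {w | w ∈ W ∧ ∀ n, ∃ r : ℚ, (r : ℂ) = w n} := by
  classical
  obtain ⟨ι, _, _, n, c, hcW, hcn, hinj⟩ := exists_pivots W
  have hrat : ∀ j m, ∃ r : ℚ, (r : ℂ) = c j m := by
    intro j m
    apply exists_rat_of_fixed
    intro σ
    have h1 : (fun m => σ (c j m)) - c j = 0 := by
      apply hinj _ (W.sub_mem (hW σ _ (hcW j)) (hcW j))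
      intro i
      simp only [Pi.sub_apply, hcn]
      split_ifs <;> simp
    have := congrFun h1 m
    simpa [sub_eq_zero] using this
  intro w hw
  have hw' : w = ∑ i, w (n i) • c i := by
    rw [← sub_eq_zero]
    apply hinj _ (W.sub_mem hw (W.sum_mem fun i _ => W.smul_mem _ (hcW i)))
    intro i
    simp [hcn, Finset.sum_apply]
  rw [hw']
  exact Submodule.sum_mem _ fun i _ => Submodule.smul_mem _ _
    (Submodule.subset_span ⟨hcW i, hrat i⟩)

end Fermat.Agent.QInt
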