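import Fermat.Agent.QInt.TwistFinal
import Fermat.Agent.QInt.Descent
import Fermat.Agent.QInt.DenomAlg
import Fermat.Prelude.Def_CuspForm_IntegralStructure
import Fermat.Prelude.Thm_CuspForm_intLattice_fg

/-!
# QInt M10: `S_k(Γ₀(N))` has an integral structure, for all `N ≥ 1` and all weights `k`
-/

set_option autoImplicit false

namespace Fermat.Agent.QInt

open UpperHalfPlane ModularForm CongruenceSubgroup Matrix.SpecialLinearGroup
open scoped MatrixGroups ModularForm Manifold

variable {N : ℕ} [NeZero N] {k : ℤ}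

/-- A cusp form as an element of `QH`. -/
noncomputable def toQH (f : CuspForm (Gamma0 N) k) : QH := ⟨f, (IsCF.of_form f).isMF.isQ le_rfl⟩

/-- The vector of `q`-expansion coefficients. -/
noncomputable def qVec (N : ℕ) [NeZero N] (k : ℤ) : CuspForm (Gamma0 N) k →ₗ[ℂ] (ℕ → ℂ) where
  toFun f n := ModularFormClass.qCoeff f n
  map_add' f g := by
    funext n
    have : toQH (f + g) = toQH f + toQH g := rfl
    have h := congrArg (fun x => (qMap x).coeff n) this
    simp only [map_add] at h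
    exact h
  map_smul' c f := by
    funext n
    have : toQH (c • f) = c • toQH f := rfl
    have h := congrArg (fun x => (qMap x).coeff n) this
    simp only [map_smul] at h
    exact h

theorem qVec_apply (f : CuspForm (Gamma0 N) k) (n : ℕ) :
    qVec N k f n = ModularFormClass.qCoeff f n := rfl

theorem qVec_injective : Function.Injective (qVec N k) := by
  intro f g h
  have h1 : toQH f = toQH g := by
    apply qMap_injective
    ext n
    exact congrFun h n
  exact DFunLike.coe_injective (congrArg Subtype.val h1)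

theorem finiteDimensional_cuspForm (N : ℕ) [NeZero N] (k : ℤ) :
    FiniteDimensional ℂ (CuspForm (Gamma0 N) k) := by
  let B := P2MW.S_CuspForm_intLattice_fg.W3WsD.sturmB N k
  let T : CuspForm (Gamma0 N) k →ₗ[ℂ] (Fin (B + 1) → ℂ) :=
    (LinearMap.funLeft ℂ ℂ (fun i : Fin (B + 1) => (i : ℕ))).comp (qVec N k)
  have hT : Function.Injective T := by
    intro f g h
    exact P2MW.S_CuspForm_intLattice_fg.W3WsD.trunc_injective N k h
  exact Module.Finite.of_injective T hT

/-- Step (B): `S_k(Γ₀(N))` is spanned by forms with rational coefficients. -/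
theorem span_rat (N : ℕ) [NeZero N] (k : ℤ) :
    (⊤ : Submodule ℂ (CuspForm (Gamma0 N) k)) ≤
      Submodule.span ℂ {f : CuspForm (Gamma0 N) k |
        ∀ n, ∃ r : ℚ, (r : ℂ) = ModularFormClass.qCoeff f n} := by
  have := finiteDimensional_cuspForm N k
  let W := LinearMap.range (qVec N k)
  have hW : ∀ σ : ℂ ≃+* ℂ, ∀ w ∈ W, (fun n => σ (w n)) ∈ W := by
    rintro σ _ ⟨f, rfl⟩
    obtain ⟨F, hF⟩ := exists_twist (σ : ℂ →+* ℂ) f
    exact ⟨F, funext hF⟩
  have h1 := span_rat_of_stable W hW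
  have h2 : Submodule.span ℂ {w | w ∈ W ∧ ∀ n, ∃ r : ℚ, (r : ℂ) = w n} ≤
      (Submodule.span ℂ {f : CuspForm (Gamma0 N) k |
        ∀ n, ∃ r : ℚ, (r : ℂ) = ModularFormClass.qCoeff f n}).map (qVec N k) := by
    rw [Submodule.span_le]
    rintro _ ⟨⟨f, rfl⟩, hr⟩
    exact ⟨f, Submodule.subset_span hr, rfl⟩
  intro f _
  obtain ⟨f', hf', hff'⟩ := h2 (h1 ⟨f, rfl⟩)
  rwa [← qVec_injective hff']

theorem isL1_of_levelOne {w : ℤ} {g : ℍ → ℂ} (hg : IsMF ⊤ w g) : IsL1 (qExpansion 1 g) := by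
  intro lam
  obtain ⟨D, G', hD, hint, heq⟩ := levelOne_map_rat lam hg.toLevelOne
  refine ⟨D, hD, ?_⟩
  rw [mem_intSeries_iff]
  intro n
  obtain ⟨m, hm⟩ := hint n
  refine ⟨m, ?_⟩
  have h1 : ((D : ℂ) * ((lam ((qExpansion 1 g).coeff n) : ℚ) : ℂ)) = (m : ℂ) := by
    rw [← hm, heq n]; rfl
  have h2 : (D : ℚ) * lam ((qExpansion 1 g).coeff n) = (m : ℚ) := by
    exact_mod_cast h1
  rw [← h2, ← nsmul_eq_mul, map_nsmul, coeff_lamPS, nsmul_eq_mul]

/-- Step (C): a form with rational coefficients has bounded denominators. -/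
theorem exists_int_multiple (f : CuspForm (Gamma0 N) k)
    (hf : ∀ n, ∃ r : ℚ, (r : ℂ) = ModularFormClass.qCoeff f n) :
    ∃ M : ℕ, M ≠ 0 ∧ ∀ n, ∃ m : ℤ, (M : ℂ) * ModularFormClass.qCoeff f n = m := by
  classical
  choose r hr using hf
  obtain ⟨θ, hθint, hstab⟩ := exists_theta N
  choose t ht using hθint
  have hfMF : IsMF (Gamma0 N) k f := (IsCF.of_form f).isMF
  have hθ : IsMF (Gamma0 N) 4 θ := IsMF.of_form θ
  obtain ⟨μ, c, hc, hc0, hrel, -⟩ := exists_integrality hfMF
  obtain ⟨μ', w, D, hD, hD0, hy⟩ := exists_expansion hθ hstab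
  obtain ⟨y, hyw, hyrel⟩ := hy k f hfMF
  let Fq : QH := ⟨f, hfMF.isQ le_rfl⟩
  let Θq : QH := ⟨θ, hθ.isQ le_rfl⟩
  let C : ℕ → QH := fun l => ⟨c l, (hc l).isQ_top⟩
  let Dq : QH := ⟨D, hD.isQ_top⟩
  let Y : ℕ → QH := fun m => ⟨y m, (hyw m).isQ_top⟩
  let P : PowerSeries ℚ := PowerSeries.mk r
  let Θ : PowerSeries ℚ := PowerSeries.mk fun n => (t n : ℚ)
  have hP : P.map (algebraMap ℚ ℂ) = qMap Fq := by
    ext n
    simp only [P, PowerSeries.coeff_map, PowerSeries.coeff_mk]
    exact hr n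
  have hΘ : Θ.map (algebraMap ℚ ℂ) = qMap Θq := by
    ext n
    simp only [Θ, PowerSeries.coeff_map, PowerSeries.coeff_mk]
    rw [qMap_apply, ht n]
    simp
  have hΘint : Θ ∈ intSeries := by
    rw [mem_intSeries_iff]
    intro n
    exact ⟨t n, by simp [Θ]⟩
  have hDF : Dq * Fq = ∑ m ∈ Finset.range μ', Y m * Θq ^ m := by
    apply Subtype.ext
    funext z
    simpa [Dq, Fq, Y, Θq, Finset.sum_apply] using hyrel z
  have hrelQ : ∑ l ∈ Finset.range (μ + 1), C l * Fq ^ (μ - l) = 0 := by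
    apply Subtype.ext
    funext z
    simpa [C, Fq, Finset.sum_apply] using hrel z
  have hDq0 : qMap Dq ≠ 0 := by
    intro h
    apply hD0
    have : Dq = 0 := qMap_injective (by rw [h, map_zero])
    exact congrArg Subtype.val this
  obtain ⟨M, hM0, hM⟩ := bounded_denominator_alg P μ (fun l => qMap (C l))
    (by
      have h1 : C 0 = 1 := Subtype.ext hc0
      show qMap (C 0) = 1
      rw [h1, map_one])
    (fun l => isL1_of_levelOne (hc l))
    (by
      have := congrArg qMap hrelQ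
      simp only [map_sum, map_mul, map_pow, map_zero] at this
      rw [hP]
      exact this)
    (qMap Dq) hDq0 (isL1_of_levelOne hD) μ' (fun m => qMap (Y m))
    (fun m => isL1_of_levelOne (hyw m)) Θ hΘint
    (by
      have := congrArg qMap hDF
      simp only [map_sum, map_mul, map_pow] at this
      rw [hP, hΘ]
      exact this)
  refine ⟨M, hM0, fun n => ?_⟩
  obtain ⟨m, hm⟩ := (mem_intSeries_iff _).mp hM n
  refine ⟨m, ?_⟩
  rw [← nsmul_eq_mul, map_nsmul, nsmul_eq_mul] at hm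
  simp only [P, PowerSeries.coeff_mk] at hm
  rw [← hr n]
  exact_mod_cast hm

/-- **Main theorem of QInt**: integral structure on `S_k(Γ₀(N))` for all `N ≥ 1`, `k ∈ ℤ`. -/
theorem hasIntegralStructure (N : ℕ) [NeZero N] (k : ℤ) : CuspForm.HasIntegralStructure N k := by
  unfold CuspForm.HasIntegralStructure
  rw [eq_top_iff]
  refine (span_rat N k).trans (Submodule.span_le.mpr ?_)
  intro f hf
  obtain ⟨M, hM0, hM⟩ := exists_int_multiple f hf
  have h1 : (M : ℂ) • f ∈ CuspForm.intLattice N k := by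
    apply Submodule.subset_span
    intro n
    obtain ⟨m, hm⟩ := hM n
    refine ⟨m, ?_⟩
    rw [← hm, ← qVec_apply, map_smul]
    exact rfl
  have h2 : f = (M : ℂ)⁻¹ • ((M : ℂ) • f) := by
    rw [smul_smul, inv_mul_cancel₀ (by exact_mod_cast hM0), one_smul]
  rw [h2]
  exact Submodule.smul_mem _ _ (Submodule.subset_span h1)

end Fermat.Agent.QInt
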