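import Mathlib
import Fermat.Prelude.Def_ModularForm_HeckeOperator
import Fermat.Prelude.Thm_CongruenceSubgroup_one_mem_strictPeriods_Gamma0
import Fermat.Prelude.Sol.S_ModularFormClass_isBoundedAt_heckeT
import Fermat.Prelude.Thm_ModularFormClass_qCoeff_heckeT
import Fermat.Prelude.Thm_ModularFormClass_qCoeff_heckeU
import Fermat.Prelude.Thm_ModularForm_periodic_heckeU_comp_ofComplex
import Fermat.Prelude.Thm_ModularForm_mdifferentiable_heckeU
import Fermat.Prelude.Thm_ModularForm_isBoundedAtImInfty_heckeU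

open UpperHalfPlane ModularForm CongruenceSubgroup Matrix.SpecialLinearGroup
open scoped MatrixGroups ModularForm Manifold

namespace Fermat.Agent.QInt.Theta

noncomputable section

/-- The function `N^3 E_4(N z)`. -/
def thetaFun (N : ℕ) : ℍ → ℂ := ⇑E₄ ∣[(4:ℤ)] heckeDiagMatrix N

lemma thetaFun_apply {N : ℕ} (hN : N ≠ 0) (τ : ℍ) :
    thetaFun N τ = (N:ℂ)^3 * E₄ (heckeDiagMatrix N • τ) := by
  simpa [thetaFun] using slash_heckeDiagMatrix_apply 4 hN E₄ τ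

/-- an explicit element of `SL(2,ℤ)` -/
def mkSL (a b c d : ℤ) (h : a * d - b * c = 1) : SL(2,ℤ) :=
  ⟨!![a, b; c, d], by rw [Matrix.det_fin_two_of]; exact h⟩

@[simp] lemma mkSL_00 (a b c d : ℤ) (h : a * d - b * c = 1) : mkSL a b c d h 0 0 = a := rfl
@[simp] lemma mkSL_01 (a b c d : ℤ) (h : a * d - b * c = 1) : mkSL a b c d h 0 1 = b := rfl
@[simp] lemma mkSL_10 (a b c d : ℤ) (h : a * d - b * c = 1) : mkSL a b c d h 1 0 = c := rfl
@[simp] lemma mkSL_11 (a b c d : ℤ) (h : a * d - b * c = 1) : mkSL a b c d h 1 1 = d := rfl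

lemma SL_det_eq (γ : SL(2,ℤ)) : γ 0 0 * γ 1 1 - γ 0 1 * γ 1 0 = 1 := by
  have := γ.det_coe
  rwa [Matrix.det_fin_two] at this

/-- conjugating an element of `Γ₀(N)` by `diag(N,1)`. -/
lemma exists_conj_of_mem_Gamma0 {N : ℕ} (hN : N ≠ 0) (γ : SL(2,ℤ)) (hγ : γ ∈ Gamma0 N) :
    ∃ γ' : SL(2,ℤ), heckeDiagMatrix N * mapGL ℝ γ = mapGL ℝ γ' * heckeDiagMatrix N := by
  rw [Gamma0_mem] at hγ
  obtain ⟨c', hc'⟩ : (N : ℤ) ∣ γ 1 0 := (ZMod.intCast_zmod_eq_zero_iff_dvd _ _).mp hγ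
  have hdet := SL_det_eq γ
  refine ⟨mkSL (γ 0 0) (N * γ 0 1) c' (γ 1 1) ?_, ?_⟩
  · rw [hc'] at hdet
    linarith
  · ext i j
    have h10 : ((γ 1 0 : ℤ) : ℝ) = N * c' := by rw [hc']; push_cast; ring
    fin_cases i <;> fin_cases j <;>
      simp [val_heckeDiagMatrix hN, Matrix.mul_apply, Fin.sum_univ_two, h10, mul_comm]

lemma E4_slash_SL (γ : SL(2,ℤ)) : ⇑E₄ ∣[(4:ℤ)] (mapGL ℝ γ) = ⇑E₄ :=
  SlashInvariantFormClass.slash_action_eq E₄ _ ⟨γ, rfl⟩

lemma thetaFun_slash_of_mem_Gamma0 {N : ℕ} (hN : N ≠ 0) (γ : SL(2,ℤ)) (hγ : γ ∈ Gamma0 N) :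
    thetaFun N ∣[(4:ℤ)] (mapGL ℝ γ) = thetaFun N := by
  obtain ⟨γ', h⟩ := exists_conj_of_mem_Gamma0 hN γ hγ
  rw [thetaFun, ← SlashAction.slash_mul, h, SlashAction.slash_mul, E4_slash_SL]

/-- `θ = N^3 E_4(N z)` as a modular form of weight 4 on `Γ₀(N)`. -/
def theta (N : ℕ) [NeZero N] : ModularForm ((Gamma0 N).map (mapGL ℝ)) 4 where
  toFun := thetaFun N
  slash_action_eq' := by
    rintro _ ⟨γ, hγ, rfl⟩
    exact thetaFun_slash_of_mem_Gamma0 (NeZero.ne N) γ hγ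
  holo' := (ModularFormClass.holo E₄).slash 4 _
  bdd_at_cusps' {c} hc := by
    rw [Subgroup.IsArithmetic.isCusp_iff_isCusp_SL2Z] at hc
    obtain ⟨g, hg⟩ :=
      P2MW.S_ModularFormClass_isBoundedAt_heckeT.ModularForm.S06W2.exists_heckeDiagMatrix_eq_map N
    show c.IsBoundedAt (⇑E₄ ∣[(4:ℤ)] heckeDiagMatrix N) 4
    rw [hg]
    exact P2MW.S_ModularFormClass_isBoundedAt_heckeT.ModularForm.S06W2.isBoundedAt_slash_ratCast
      E₄ g hc

@[simp] lemma coe_theta (N : ℕ) [NeZero N] : ⇑(theta N) = thetaFun N := rfl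


lemma E4_coeff_int (m : ℕ) : ∃ a : ℤ, (qExpansion 1 E₄).coeff m = a := by
  rw [EisensteinSeries.E_qExpansion_coeff (by norm_num) (by decide)]
  split_ifs
  · exact ⟨1, by simp⟩
  · refine ⟨240 * (ArithmeticFunction.sigma 3 m : ℤ), ?_⟩
    have : bernoulli 4 = -1/30 := by
      rw [bernoulli_eq_bernoulli'_of_ne_one (by norm_num), bernoulli'_four]
    rw [this]
    push_cast
    norm_num

lemma theta_coeff (N : ℕ) [NeZero N] (n : ℕ) :
    (qExpansion 1 (theta N)).coeff n =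
      if N ∣ n then (N : ℂ) ^ 3 * (qExpansion 1 E₄).coeff (n / N) else 0 := by
  have hN : N ≠ 0 := NeZero.ne N
  have hT := ModularFormClass.qCoeff_heckeT E₄ one_mem_strictPeriods_SL hN n
  have hU := ModularFormClass.qCoeff_heckeU E₄ one_mem_strictPeriods_SL hN n
  have hper : Function.Periodic (⇑E₄ ∘ UpperHalfPlane.ofComplex) 1 :=
    SlashInvariantFormClass.periodic_comp_ofComplex E₄ one_mem_strictPeriods_SL
  have hUan : AnalyticAt ℂ (cuspFunction 1 (heckeU 4 N ⇑E₄)) 0 :=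
    analyticAt_cuspFunction_zero one_pos (periodic_heckeU_comp_ofComplex hper 4 N)
      (mdifferentiable_heckeU (ModularFormClass.holo E₄) 4 N)
      (isBoundedAtImInfty_heckeU (ModularFormClass.bdd_at_infty E₄) 4 N)
  have hθan : AnalyticAt ℂ (cuspFunction 1 (thetaFun N)) 0 :=
    ModularFormClass.analyticAt_cuspFunction_zero (theta N) one_pos
      (one_mem_strictPeriods_Gamma0 N)
  have hadd : qExpansion 1 (heckeT 4 N ⇑E₄) =
      qExpansion 1 (heckeU 4 N ⇑E₄) + qExpansion 1 (thetaFun N) := by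
    rw [heckeT_eq_heckeU_add]
    exact qExpansion_add hUan hθan
  have := congrArg (fun p => PowerSeries.coeff n p) hadd
  simp only [map_add] at this
  simp only [ModularFormClass.qCoeff] at hT hU
  rw [hT, hU, coeffHeckeT_eq_coeffHeckeU_add] at this
  have h2 := add_left_cancel this
  rw [coe_theta, ← h2]
  simp [ModularFormClass.qCoeff]

lemma theta_coeff_int (N : ℕ) [NeZero N] (n : ℕ) :
    ∃ m : ℤ, (qExpansion 1 (theta N)).coeff n = m := by
  rw [theta_coeff]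
  split_ifs
  · obtain ⟨a, ha⟩ := E4_coeff_int (n / N)
    exact ⟨N ^ 3 * a, by rw [ha]; push_cast; ring⟩
  · exact ⟨0, by simp⟩


/-- Decomposition `diag(N,1) γ = γ' [[g,β],[0,e]]` with `g e = N`, `g ∣ c`. -/
lemma exists_decomp {N : ℕ} (hN : N ≠ 0) (γ : SL(2,ℤ)) :
    ∃ (γ' : SL(2,ℤ)) (g e : ℕ) (β : ℤ) (hge : (g:ℝ) * (e:ℝ) ≠ 0), g * e = N ∧ (g : ℤ) ∣ γ 1 0 ∧
      heckeDiagMatrix N * mapGL ℝ γ = mapGL ℝ γ' * upperTriangularGL g β e hge := by
  have hdet := SL_det_eq γ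
  set a := γ 0 0 with ha
  set b := γ 0 1 with hb
  set c := γ 1 0 with hc
  set d := γ 1 1 with hd
  set g : ℕ := Int.gcd N c with hg
  have hgpos : 0 < g := Int.gcd_pos_of_ne_zero_left _ (by exact_mod_cast hN)
  obtain ⟨e', he'⟩ : (g : ℤ) ∣ N := Int.gcd_dvd_left _ _
  obtain ⟨c₁, hc₁⟩ : (g : ℤ) ∣ c := Int.gcd_dvd_right _ _
  have hgz : (0:ℤ) < g := by exact_mod_cast hgpos
  have he'pos : 0 < e' := by
    have h1 : (0:ℤ) < N := by exact_mod_cast Nat.pos_of_ne_zero hN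
    rw [he'] at h1
    exact (mul_pos_iff_of_pos_left hgz).mp h1
  obtain ⟨e, rfl⟩ : ∃ e : ℕ, e' = e := ⟨e'.toNat, (Int.toNat_of_nonneg he'pos.le).symm⟩
  have hepos : 0 < e := by exact_mod_cast he'pos
  have hcop1 : IsCoprime (e : ℤ) c₁ := by
    rw [Int.isCoprime_iff_gcd_eq_one]
    have h := hg
    rw [he', hc₁, Int.gcd_mul_left, Int.natAbs_natCast] at h
    exact Nat.eq_of_mul_eq_mul_left hgpos (by omega)
  have hcop2 : IsCoprime a c₁ := ⟨d, -b * g, by rw [hc₁] at hdet; linear_combination hdet⟩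
  obtain ⟨u, v, huv⟩ := hcop1.mul_left hcop2
  have hge : (g:ℝ) * (e:ℝ) ≠ 0 := by positivity
  refine ⟨mkSL (e * a) (-v) c₁ u (by linear_combination huv), g, e, u * N * b + v * d, hge,
    by exact_mod_cast he'.symm, ⟨c₁, hc₁⟩, ?_⟩
  have h00 : (N:ℤ) * a = (e * a) * g := by rw [he']; ring
  have h10 : c = c₁ * g := by rw [hc₁]; ring
  have h01 : (N:ℤ) * b = (e * a) * (u * N * b + v * d) + (-v) * e := by
    rw [hc₁] at hdet
    rw [he']
    linear_combination (-(g * e * b : ℤ)) * huv - (e * v : ℤ) * hdet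
  have h11 : d = c₁ * (u * N * b + v * d) + u * e := by
    rw [hc₁] at hdet
    rw [he']
    linear_combination (-d) * huv + (u * e : ℤ) * hdet
  have h00' : (N:ℝ) * (a:ℝ) = (e * a) * g := by exact_mod_cast h00
  have h10' : (c:ℝ) = c₁ * g := by exact_mod_cast h10
  have h01' : (N:ℝ) * (b:ℝ) = (e * a) * (u * N * b + v * d) + (-v) * e := by exact_mod_cast h01
  have h11' : (d:ℝ) = c₁ * (u * N * b + v * d) + u * e := by exact_mod_cast h11
  ext i j
  fin_cases i <;> fin_cases j <;>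
    simp [val_heckeDiagMatrix hN, Matrix.mul_apply, Fin.sum_univ_two, ← ha, ← hb, ← hc, ← hd]
  · exact h00'
  · linarith [h01']
  · exact h10'
  · exact h11'


lemma tendsto_E4 : Filter.Tendsto (⇑E₄) atImInfty (nhds 1) := by
  have han := ModularFormClass.analyticAt_cuspFunction_zero E₄ one_pos one_mem_strictPeriods_SL
  have h0 : cuspFunction 1 E₄ 0 = 1 := by
    have := EisensteinSeries.E_qExpansion_coeff_zero (k := 4) (by norm_num) (by decide)
    simpa [qExpansion_coeff] using this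
  have hper : Function.Periodic (⇑E₄ ∘ UpperHalfPlane.ofComplex) 1 :=
    SlashInvariantFormClass.periodic_comp_ofComplex E₄ one_mem_strictPeriods_SL
  have hcomp : (cuspFunction 1 ⇑E₄ ∘ fun τ : ℍ ↦ Function.Periodic.qParam 1 τ) = ⇑E₄ := by
    funext τ
    simpa using eq_cuspFunction τ one_ne_zero hper
  have := han.continuousAt.tendsto.comp (qParam_tendsto_atImInfty one_pos)
  rwa [hcomp, h0] at this

lemma slash_upperTriangular_apply {g e : ℕ} (β : ℤ) (hge : (g:ℝ) * (e:ℝ) ≠ 0)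
    (f : ℍ → ℂ) (τ : ℍ) :
    (f ∣[(4:ℤ)] upperTriangularGL g β e hge) τ =
      f (upperTriangularGL g β e hge • τ) * ((g:ℂ) * (e:ℂ)) ^ 3 * ((e:ℂ) ^ 4)⁻¹ := by
  have hdet : ((upperTriangularGL g β e hge).det : ℝ) = g * e := by
    rw [Matrix.GeneralLinearGroup.val_det_apply, val_upperTriangularGL, Matrix.det_fin_two_of]
    ring
  have hpos : 0 < ((upperTriangularGL g β e hge).det : ℝ) := by
    rw [hdet]; positivity
  have hσ : UpperHalfPlane.σ (upperTriangularGL g β e hge) = .refl ℝ ℂ := by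
    rw [UpperHalfPlane.σ, if_pos hpos]
  have hden : UpperHalfPlane.denom (upperTriangularGL g β e hge) τ = e := by
    simp [UpperHalfPlane.denom]
  rw [ModularForm.slash_apply, hσ, hdet, hden]
  have habs : |(g:ℝ) * (e:ℝ)| = g * e := abs_of_nonneg (by positivity)
  rw [habs]
  simp only [ContinuousAlgEquiv.refl_apply]
  norm_num

lemma tendsto_E4_slash_upperTriangular {g e : ℕ} (β : ℤ) (hge : (g:ℝ) * (e:ℝ) ≠ 0) :
    Filter.Tendsto (⇑E₄ ∣[(4:ℤ)] upperTriangularGL g β e hge) atImInfty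
      (nhds (((g:ℂ) * (e:ℂ)) ^ 3 * ((e:ℂ) ^ 4)⁻¹)) := by
  have h1 : Filter.Tendsto (fun τ : ℍ => upperTriangularGL g β e hge • τ) atImInfty atImInfty :=
    tendsto_smul_atImInfty (by simp)
  have h2 := (tendsto_E4.comp h1).mul_const (((g:ℂ) * (e:ℂ)) ^ 3 * ((e:ℂ) ^ 4)⁻¹)
  rw [one_mul] at h2
  refine h2.congr fun τ => ?_
  rw [slash_upperTriangular_apply]
  simp [mul_assoc]

lemma heckeDiagMatrix_eq {N : ℕ} (hN : N ≠ 0) :
    heckeDiagMatrix N = upperTriangularGL (N:ℕ) (0:ℤ) (1:ℕ)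
      (by simpa using hN) := by
  ext i j
  fin_cases i <;> fin_cases j <;> simp [val_heckeDiagMatrix hN]

/-- The stabiliser of `θ` in `SL(2,ℤ)` is contained in `Γ₀(N)`. -/
theorem mem_Gamma0_of_theta_slash_eq (N : ℕ) [NeZero N] (γ : SL(2,ℤ))
    (h : ⇑(theta N) ∣[(4:ℤ)] γ = ⇑(theta N)) : γ ∈ Gamma0 N := by
  have hN : N ≠ 0 := NeZero.ne N
  obtain ⟨γ', g, e, β, hge, hgeN, hgc, hmat⟩ := exists_decomp hN γ
  have h1 : thetaFun N ∣[(4:ℤ)] (mapGL ℝ γ) = ⇑E₄ ∣[(4:ℤ)] upperTriangularGL g β e hge := by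
    rw [thetaFun, ← SlashAction.slash_mul, hmat, SlashAction.slash_mul, E4_slash_SL]
  have h2 : thetaFun N = ⇑E₄ ∣[(4:ℤ)] upperTriangularGL g β e hge := by
    rw [← h1]; exact h.symm
  have h3 : thetaFun N = ⇑E₄ ∣[(4:ℤ)] upperTriangularGL (N:ℕ) (0:ℤ) (1:ℕ) (by simpa using hN) := by
    rw [thetaFun, heckeDiagMatrix_eq hN]
  have t1 := tendsto_E4_slash_upperTriangular β hge
  have t2 := tendsto_E4_slash_upperTriangular (g := N) (e := 1) 0 (by simpa using hN)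
  rw [← h2] at t1
  rw [← h3] at t2
  have huniq := tendsto_nhds_unique t1 t2
  have hgeC : (g:ℂ) * (e:ℂ) = N := by exact_mod_cast hgeN
  have hNC : (N:ℂ) ≠ 0 := by exact_mod_cast hN
  rw [hgeC] at huniq
  have he4 : ((e:ℂ) ^ 4)⁻¹ = 1 := by
    have := mul_left_cancel₀ (pow_ne_zero 3 hNC) (by simpa using huniq : (N:ℂ)^3 * ((e:ℂ) ^ 4)⁻¹ = (N:ℂ)^3 * 1)
    exact this
  have he : e = 1 := by
    have h4 : (e:ℂ)^4 = 1 := by
      rw [inv_eq_one] at he4; exact he4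
    have h5 : e ^ 4 = 1 := by exact_mod_cast h4
    exact (Nat.pow_eq_one.mp h5).resolve_right (by norm_num)
  subst he
  rw [mul_one] at hgeN
  subst hgeN
  rw [Gamma0_mem]
  exact (ZMod.intCast_zmod_eq_zero_iff_dvd _ _).mpr hgc

end

end Fermat.Agent.QInt.Theta

namespace Fermat.Agent.QInt

open Theta in
/-- **QInt-M4.** A weight 4 form on `Γ₀(N)` with integral `q`-expansion whose stabiliser in
`SL(2,ℤ)` is exactly `Γ₀(N)`. -/
theorem exists_theta (N : ℕ) [NeZero N] :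
    ∃ θ : ModularForm ((Gamma0 N).map (mapGL ℝ)) 4,
      (∀ n, ∃ m : ℤ, (qExpansion 1 θ).coeff n = m) ∧
      ∀ γ : SL(2,ℤ), ⇑θ ∣[(4:ℤ)] γ = ⇑θ → γ ∈ Gamma0 N :=
  ⟨theta N, theta_coeff_int N, mem_Gamma0_of_theta_slash_eq N⟩

end Fermat.Agent.QInt
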