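import Fermat.Agent.QInt.Basic

/-!
# QInt M7: the analytic quotient lemma (A4)

If `u` is a modular form of weight `k + w` for `Γ`, `D ≠ 0` is a level one form of weight `w` and
`u / D` satisfies a monic equation whose coefficients are level one forms, then `u / D` is a
modular form of weight `k` for `Γ`.
-/

set_option autoImplicit false

namespace Fermat.Agent.QInt

open UpperHalfPlane ModularForm Filter Topology Set
open scoped MatrixGroups ModularForm Manifold

/-- Cauchy's root bound for a monic relation. -/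
theorem norm_le_of_monic_relation {μ : ℕ} {a : ℕ → ℂ} {x : ℂ} (ha0 : a 0 = 1)
    (h : ∑ l ∈ Finset.range (μ + 1), a l * x ^ (μ - l) = 0) :
    ‖x‖ ≤ ∑ l ∈ Finset.range (μ + 1), ‖a l‖ := by
  have h1 : (1 : ℝ) ≤ ∑ l ∈ Finset.range (μ + 1), ‖a l‖ := by
    have := Finset.single_le_sum (f := fun l => ‖a l‖) (fun i _ => norm_nonneg _)
      (Finset.mem_range.mpr (Nat.succ_pos μ))
    simpa [ha0] using this
  by_cases hx : ‖x‖ ≤ 1
  · exact hx.trans h1
  push Not at hx
  rw [Finset.sum_range_succ'] at h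
  simp only [ha0, one_mul, Nat.sub_zero] at h
  rw [Finset.sum_range_succ']
  cases μ with
  | zero => simp at h
  | succ m =>
    have hxm : 0 < ‖x‖ ^ m := pow_pos (by linarith) m
    have h2 : x ^ (m + 1) = -∑ l ∈ Finset.range (m + 1), a (l + 1) * x ^ (m + 1 - (l + 1)) := by
      linear_combination h
    have h3 : ‖x‖ ^ (m + 1) ≤ (∑ l ∈ Finset.range (m + 1), ‖a (l + 1)‖) * ‖x‖ ^ m := by
      rw [← norm_pow, h2, norm_neg, Finset.sum_mul]
      refine (norm_sum_le _ _).trans (Finset.sum_le_sum fun l _ => ?_)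
      rw [norm_mul, norm_pow]
      refine mul_le_mul_of_nonneg_left ?_ (norm_nonneg _)
      exact pow_le_pow_right₀ hx.le (by omega)
    rw [pow_succ, mul_comm] at h3
    have h4 := le_of_mul_le_mul_right (by linarith [h3] : ‖x‖ * ‖x‖ ^ m ≤ _ * ‖x‖ ^ m) hxm
    linarith [norm_nonneg (a 0)]

/-- The zeros of a nonzero holomorphic function on `ℍ` are isolated. -/
theorem eventually_ne_zero_of_mdiff {D : ℍ → ℂ} (hD : MDiff D) (hD0 : D ≠ 0) (z₀ : ℍ) :
    ∀ᶠ w in 𝓝[≠] (z₀ : ℂ), 0 < w.im ∧ (D ∘ ofComplex) w ≠ 0 := by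
  have hDa : AnalyticOnNhd ℂ (D ∘ ofComplex) {z | 0 < z.im} :=
    (UpperHalfPlane.mdifferentiable_iff.mp hD).analyticOnNhd isOpen_upperHalfPlaneSet
  have hU : ∀ᶠ w in 𝓝[≠] (z₀ : ℂ), 0 < w.im :=
    Filter.Eventually.filter_mono nhdsWithin_le_nhds
      (isOpen_upperHalfPlaneSet.mem_nhds z₀.im_pos)
  rcases (hDa z₀ z₀.im_pos).eventually_eq_zero_or_eventually_ne_zero with h | h
  · exfalso
    apply hD0
    have hconv : IsPreconnected {z : ℂ | 0 < z.im} :=
      (convex_halfSpace_im_gt 0).isPreconnected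
    have := hDa.eqOn_zero_of_preconnected_of_eventuallyEq_zero hconv z₀.im_pos h
    ext z
    have h2 := this z.im_pos
    simpa using h2
  · exact hU.and h

/-- A continuous function on `ℍ` vanishing off the zero set of a nonzero holomorphic function
vanishes. -/
theorem eq_zero_of_forall_ne {D : ℍ → ℂ} (hD : MDiff D) (hD0 : D ≠ 0) {G : ℍ → ℂ}
    (hG : Continuous G) (h : ∀ z, D z ≠ 0 → G z = 0) : G = 0 := by
  ext z₀
  have h1 : ∀ᶠ w in 𝓝[≠] (z₀ : ℂ), (G ∘ ofComplex) w = 0 := by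
    filter_upwards [eventually_ne_zero_of_mdiff hD hD0 z₀] with w hw
    exact h _ hw.2
  have h2 : Tendsto (G ∘ ofComplex) (𝓝[≠] (z₀ : ℂ)) (𝓝 (G z₀)) := by
    have : ContinuousAt (G ∘ ofComplex) (z₀ : ℂ) := by
      refine ContinuousAt.comp ?_ (mdifferentiableAt_ofComplex z₀.im_pos).continuousAt
      exact hG.continuousAt
    have h3 := this.tendsto
    simp only [Function.comp_apply, ofComplex_apply] at h3
    exact h3.mono_left nhdsWithin_le_nhds
  have h3 : Tendsto (G ∘ ofComplex) (𝓝[≠] (z₀ : ℂ)) (𝓝 0) :=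
    tendsto_const_nhds.congr' (h1.mono fun _ hw => hw.symm)
  exact tendsto_nhds_unique h2 h3

/-- Removable singularities: a locally bounded quotient of holomorphic functions on `ℍ` is
holomorphic. -/
theorem exists_holo_quotient {u D : ℍ → ℂ} (hu : MDiff u) (hD : MDiff D) (hD0 : D ≠ 0)
    {B : ℍ → ℝ} (hB : Continuous B) (hbound : ∀ z, D z ≠ 0 → ‖u z / D z‖ ≤ B z) :
    ∃ F : ℍ → ℂ, MDiff F ∧ F * D = u := by
  set g : ℂ → ℂ := fun w => (u ∘ ofComplex) w / (D ∘ ofComplex) w with hg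
  set Fh : ℂ → ℂ := fun w => limUnder (𝓝[≠] w) g with hFh
  have hud : DifferentiableOn ℂ (u ∘ ofComplex) {z | 0 < z.im} :=
    UpperHalfPlane.mdifferentiable_iff.mp hu
  have hDd : DifferentiableOn ℂ (D ∘ ofComplex) {z | 0 < z.im} :=
    UpperHalfPlane.mdifferentiable_iff.mp hD
  -- `g` is differentiable where `D ≠ 0`
  have hgd : ∀ w : ℂ, 0 < w.im → (D ∘ ofComplex) w ≠ 0 → DifferentiableAt ℂ g w := by
    intro w hw hw0
    exact ((hud w hw).differentiableAt (isOpen_upperHalfPlaneSet.mem_nhds hw)).div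
      ((hDd w hw).differentiableAt (isOpen_upperHalfPlaneSet.mem_nhds hw)) hw0
  have hFg : ∀ w : ℂ, 0 < w.im → (D ∘ ofComplex) w ≠ 0 → Fh w = g w := by
    intro w hw hw0
    exact ((hgd w hw hw0).continuousAt.tendsto.mono_left nhdsWithin_le_nhds).limUnder_eq
  have hFd : ∀ z₀ : ℍ, DifferentiableAt ℂ Fh (z₀ : ℂ) := by
    intro z₀
    have h1 := eventually_nhdsWithin_iff.mp (eventually_ne_zero_of_mdiff hD hD0 z₀)
    have h2 : ∀ᶠ w in 𝓝 (z₀ : ℂ), B (ofComplex w) < B z₀ + 1 := by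
      have hc : ContinuousAt (B ∘ ofComplex) (z₀ : ℂ) :=
        ContinuousAt.comp hB.continuousAt (mdifferentiableAt_ofComplex z₀.im_pos).continuousAt
      have h3 := hc.tendsto
      simp only [Function.comp_apply, ofComplex_apply] at h3
      exact h3.eventually (gt_mem_nhds (by linarith))
    obtain ⟨s, hs, hso, hzs⟩ := eventually_nhds_iff.mp (h1.and h2)
    have hsn : s ∈ 𝓝 (z₀ : ℂ) := hso.mem_nhds hzs
    have hdiff : DifferentiableOn ℂ g (s \ {(z₀ : ℂ)}) := by
      intro w hw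
      have := (hs w hw.1).1 hw.2
      exact (hgd w this.1 this.2).differentiableWithinAt
    have hbdd : BddAbove (norm ∘ g '' (s \ {(z₀ : ℂ)})) := by
      refine ⟨B z₀ + 1, ?_⟩
      rintro _ ⟨w, hw, rfl⟩
      have h3 := (hs w hw.1).1 hw.2
      have h4 := (hs w hw.1).2
      exact (hbound (ofComplex w) h3.2).trans h4.le
    have hH := Complex.differentiableOn_update_limUnder_of_bddAbove hsn hdiff hbdd
    refine (hH.differentiableAt hsn).congr_of_eventuallyEq ?_
    filter_upwards [hsn] with w hw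
    by_cases hwz : w = z₀
    · subst hwz
      simp [hFh]
    · have h3 := (hs w hw).1 hwz
      rw [Function.update_of_ne hwz, hFg w h3.1 h3.2]
  have hFm : MDiff (fun z : ℍ => Fh z) := by
    rw [UpperHalfPlane.mdifferentiable_iff]
    intro w hw
    have h1 : DifferentiableWithinAt ℂ Fh {z | 0 < z.im} w :=
      (hFd ⟨w, hw⟩).differentiableWithinAt
    refine h1.congr (fun y hy => ?_) ?_
    · simp [ofComplex_apply_of_im_pos hy]
    · simp [ofComplex_apply_of_im_pos hw]
  refine ⟨fun z : ℍ => Fh z, hFm, ?_⟩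
  have hzero : (fun z : ℍ => Fh z) * D - u = 0 := by
    refine eq_zero_of_forall_ne hD hD0 ((hFm.continuous.mul hD.continuous).sub hu.continuous) ?_
    intro z hz
    have hz' : (D ∘ ofComplex) (z : ℂ) ≠ 0 := by simpa using hz
    simp only [Pi.sub_apply, Pi.mul_apply]
    rw [hFg z z.im_pos hz']
    simp only [hg, Function.comp_apply, ofComplex_apply]
    field_simp
    ring
  exact sub_eq_zero.mp hzero

theorem pow_slash_SL2 (k : ℤ) (n : ℕ) (γ : SL(2, ℤ)) (F : ℍ → ℂ) :
    (F ^ n) ∣[k * n] γ = (F ∣[k] γ) ^ n := by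
  induction n with
  | zero =>
    simp only [pow_zero, Nat.cast_zero, mul_zero]
    exact is_invariant_const γ 1
  | succ n ih =>
    rw [pow_succ, pow_succ, ← ih, ← mul_slash_SL2]
    congr 1
    push_cast
    ring

/-- Dividing the homogeneous relation by `D ^ μ`. -/
theorem relation_div {μ : ℕ} {a : ℕ → ℂ} {d v : ℂ} (hd : d ≠ 0)
    (h : ∑ l ∈ Finset.range (μ + 1), a l * d ^ l * v ^ (μ - l) = 0) :
    ∑ l ∈ Finset.range (μ + 1), a l * (v / d) ^ (μ - l) = 0 := by
  have h1 : ∑ l ∈ Finset.range (μ + 1), a l * (v / d) ^ (μ - l) =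
      (∑ l ∈ Finset.range (μ + 1), a l * d ^ l * v ^ (μ - l)) / d ^ μ := by
    rw [Finset.sum_div]
    refine Finset.sum_congr rfl fun l hl => ?_
    have hl' : l ≤ μ := Nat.lt_succ_iff.mp (Finset.mem_range.mp hl)
    have h2 : d ^ μ = d ^ l * d ^ (μ - l) := by rw [← pow_add, Nat.add_sub_cancel' hl']
    rw [h2, div_pow]
    field_simp
  rw [h1, h, zero_div]

/-- Core of (A4). -/
theorem exists_quotient_aux {Γ : Subgroup SL(2, ℤ)} {k w : ℤ} {μ : ℕ} {u D : ℍ → ℂ}
    {c : ℕ → ℍ → ℂ} (hu : IsMF Γ (k + w) u) (hD : IsMF ⊤ w D) (hD0 : D ≠ 0)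
    (hc : ∀ l : ℕ, IsMF ⊤ (k * l) (c l)) (hc0 : c 0 = 1)
    (heq : ∑ l ∈ Finset.range (μ + 1), c l * D ^ l * u ^ (μ - l) = 0) :
    ∃ F : ℍ → ℂ, F * D = u ∧ MDiff F ∧ (∀ γ ∈ Γ, F ∣[k] γ = F) ∧
      ∀ γ : SL(2, ℤ), ∑ l ∈ Finset.range (μ + 1), c l * (F ∣[k] γ) ^ (μ - l) = 0 := by
  have hrel : ∀ z, D z ≠ 0 →
      ∑ l ∈ Finset.range (μ + 1), c l z * (u z / D z) ^ (μ - l) = 0 := by
    intro z hz
    refine relation_div hz ?_
    have := congrFun heq z
    simpa [Finset.sum_apply] using this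
  have hBc : Continuous fun z : ℍ => ∑ l ∈ Finset.range (μ + 1), ‖c l z‖ :=
    continuous_finsetSum _ fun l _ => (hc l).holo.continuous.norm
  obtain ⟨F, hFm, hFD⟩ := exists_holo_quotient hu.holo hD.holo hD0 hBc (fun z hz =>
    norm_le_of_monic_relation (a := fun l => c l z) (by simp [hc0]) (hrel z hz))
  have hFz : ∀ z, D z ≠ 0 → F z = u z / D z := by
    intro z hz
    rw [eq_div_iff hz]
    exact congrFun hFD z
  have hR : ∑ l ∈ Finset.range (μ + 1), c l * F ^ (μ - l) = 0 := by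
    refine eq_zero_of_forall_ne hD.holo hD0 ?_ ?_
    · have : Continuous fun z : ℍ => ∑ l ∈ Finset.range (μ + 1), (c l * F ^ (μ - l)) z :=
        continuous_finsetSum _ fun l _ =>
          (hc l).holo.continuous.mul (hFm.continuous.pow _)
      convert this using 1
      ext z
      simp [Finset.sum_apply]
    · intro z hz
      have := hrel z hz
      rw [← hFz z hz] at this
      simpa [Finset.sum_apply] using this
  refine ⟨F, hFD, hFm, ?_, ?_⟩
  · intro γ hγ
    have hcont : Continuous (F ∣[k] γ) := by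
      rw [SL_slash]
      exact (hFm.slash k _).continuous
    have h0 : F ∣[k] γ - F = 0 := by
      refine eq_zero_of_forall_ne hD.holo hD0 (hcont.sub hFm.continuous) ?_
      intro z hz
      have h1 : (F ∣[k] γ) * D = F * D := by
        calc (F ∣[k] γ) * D = (F ∣[k] γ) * (D ∣[w] γ) := by rw [hD.slash γ trivial]
          _ = (F * D) ∣[k + w] γ := (mul_slash_SL2 k w γ F D).symm
          _ = F * D := by rw [hFD, hu.slash γ hγ]
      have h2 := congrFun h1 z
      simp only [Pi.mul_apply] at h2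
      simp only [Pi.sub_apply]
      exact sub_eq_zero.mpr (mul_right_cancel₀ hz h2)
    exact sub_eq_zero.mp h0
  · intro γ
    have h1 : (∑ l ∈ Finset.range (μ + 1), c l * F ^ (μ - l)) ∣[k * μ] γ = 0 := by
      rw [hR]; exact SlashAction.zero_slash _ _
    rw [SlashAction.sum_slash] at h1
    rw [← h1]
    refine Finset.sum_congr rfl fun l hl => ?_
    have hl' : l ≤ μ := Nat.lt_succ_iff.mp (Finset.mem_range.mp hl)
    have hw : k * (μ : ℤ) = k * (l : ℤ) + k * ((μ - l : ℕ) : ℤ) := by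
      rw [Nat.cast_sub hl']; ring
    rw [hw, mul_slash_SL2, pow_slash_SL2, (hc l).slash γ trivial]

/-- A root of a monic relation with coefficients bounded at `i∞` is bounded at `i∞`. -/
theorem isBoundedAtImInfty_of_relation {μ : ℕ} {c : ℕ → ℍ → ℂ} {x : ℍ → ℂ} (hc0 : c 0 = 1)
    (hc : ∀ l : ℕ, IsBoundedAtImInfty (c l))
    (hx : ∑ l ∈ Finset.range (μ + 1), c l * x ^ (μ - l) = 0) : IsBoundedAtImInfty x := by
  have h1 : x =O[atImInfty] fun z : ℍ => ∑ l ∈ Finset.range (μ + 1), ‖c l z‖ := by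
    refine Asymptotics.IsBigO.of_bound 1 (Eventually.of_forall fun z => ?_)
    have h2 := congrFun hx z
    simp only [Finset.sum_apply, Pi.mul_apply, Pi.pow_apply, Pi.zero_apply] at h2
    have h3 := norm_le_of_monic_relation (a := fun l => c l z) (by simp [hc0]) h2
    rw [one_mul]
    exact h3.trans (le_abs_self _)
  exact h1.trans (Asymptotics.IsBigO.fun_sum fun l _ => (hc l).norm_left)

theorem isBoundedAtImInfty_pow {x : ℍ → ℂ} (hx : IsBoundedAtImInfty x) (n : ℕ) :
    IsBoundedAtImInfty (x ^ n) := by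
  induction n with
  | zero => rw [pow_zero]; exact Filter.const_boundedAtFilter atImInfty (1 : ℂ)
  | succ n ih => rw [pow_succ]; exact ih.mul hx

theorem isZeroAtImInfty_of_pow {x : ℍ → ℂ} {n : ℕ} (h : IsZeroAtImInfty (x ^ n)) :
    IsZeroAtImInfty x := by
  have h' : Tendsto (x ^ n) atImInfty (𝓝 0) := h
  show Tendsto x atImInfty (𝓝 0)
  rw [Metric.tendsto_nhds] at h' ⊢
  intro ε hε
  filter_upwards [h' (ε ^ n) (pow_pos hε n)] with z hz
  simp only [dist_zero_right, Pi.pow_apply, norm_pow] at hz ⊢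
  exact lt_of_pow_lt_pow_left₀ n hε.le hz

/-- A root of a monic relation whose lower coefficients vanish at `i∞` vanishes at `i∞`. -/
theorem isZeroAtImInfty_of_relation {μ : ℕ} {c : ℕ → ℍ → ℂ} {x : ℍ → ℂ} (hc0 : c 0 = 1)
    (hc : ∀ l : ℕ, 0 < l → IsZeroAtImInfty (c l))
    (hx : ∑ l ∈ Finset.range (μ + 1), c l * x ^ (μ - l) = 0) : IsZeroAtImInfty x := by
  have hb : IsBoundedAtImInfty x := by
    refine isBoundedAtImInfty_of_relation hc0 (fun l => ?_) hx
    rcases Nat.eq_zero_or_pos l with rfl | hl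
    · rw [hc0]; exact Filter.const_boundedAtFilter atImInfty (1 : ℂ)
    · exact (hc l hl).isBoundedAtImInfty
  rw [Finset.sum_range_succ'] at hx
  simp only [hc0, one_mul, Nat.sub_zero] at hx
  have h2 : x ^ μ = -∑ l ∈ Finset.range μ, c (l + 1) * x ^ (μ - (l + 1)) := by
    linear_combination hx
  refine isZeroAtImInfty_of_pow (n := μ) ?_
  rw [h2]
  have h3 : IsZeroAtImInfty (∑ l ∈ Finset.range μ, c (l + 1) * x ^ (μ - (l + 1))) := by
    generalize Finset.range μ = s
    classical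
    induction s using Finset.induction_on with
    | empty => rw [Finset.sum_empty]; exact Filter.zero_zeroAtFilter atImInfty
    | insert a s ha ih =>
      rw [Finset.sum_insert ha]
      exact ((hc (a + 1) (Nat.succ_pos a)).mul_boundedAtFilter
        (isBoundedAtImInfty_pow hb _)).add ih
  exact h3.neg

/-- **(A4)**: the statement of M7 (report 131). -/
theorem exists_quotient {Γ : Subgroup SL(2, ℤ)} {k w : ℤ} {μ : ℕ} {u D : ℍ → ℂ}
    {c : ℕ → ℍ → ℂ} (hu : IsMF Γ (k + w) u) (hD : IsMF ⊤ w D) (hD0 : D ≠ 0)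
    (hc : ∀ l : ℕ, IsMF ⊤ (k * l) (c l)) (hc0 : c 0 = 1)
    (hrel : ∀ z, ∑ l ∈ Finset.range (μ + 1), c l z * D z ^ l * u z ^ (μ - l) = 0) :
    ∃ F : ℍ → ℂ, IsMF Γ k F ∧ (∀ z, F z * D z = u z) ∧
      ((∀ l : ℕ, 1 ≤ l → IsCF ⊤ (k * l) (c l)) → IsCF Γ k F) := by
  have heq : ∑ l ∈ Finset.range (μ + 1), c l * D ^ l * u ^ (μ - l) = 0 := by
    ext z
    simpa [Finset.sum_apply] using hrel z
  obtain ⟨F, hFD, hFm, hFs, hFr⟩ := exists_quotient_aux hu hD hD0 hc hc0 heq
  refine ⟨F, ⟨hFs, hFm, fun γ => isBoundedAtImInfty_of_relation hc0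
    (fun l => by simpa using (hc l).bdd 1) (hFr γ)⟩, fun z => congrFun hFD z, fun hcc => ?_⟩
  exact ⟨hFs, hFm, fun γ => isZeroAtImInfty_of_relation hc0
    (fun l hl => by simpa using (hcc l hl).zero 1) (hFr γ)⟩

end Fermat.Agent.QInt
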