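import Mathlib

/-!
# The fixed field of `Aut(ℂ)` is `ℚ`
-/

namespace Fermat.Agent.QInt

open Cardinal Polynomial

/-- Two uncountable algebraically closed fields of the same cardinality which are faithful
algebras over a countable ring `R` are isomorphic as `R`-algebras. -/
theorem nonempty_algEquiv_of_card {R K L : Type} [CommRing R] [Nontrivial R]
    [Field K] [Field L] [Algebra R K] [Algebra R L] [IsAlgClosed K] [IsAlgClosed L]
    [FaithfulSMul R K] [FaithfulSMul R L] (hR : #R ≤ ℵ₀) (hK : ℵ₀ < #K) (hKL : #K = #L) :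
    ∃ σ : K ≃+* L, ∀ r : R, σ (algebraMap R K r) = algebraMap R L r := by
  obtain ⟨s, hs⟩ := exists_isTranscendenceBasis R K
  obtain ⟨t, ht⟩ := exists_isTranscendenceBasis R L
  have h1 : #K = #s := IsAlgClosed.cardinal_eq_cardinal_transcendence_basis_of_aleph0_lt' _ hs hR hK
  have h2 : #L = #t :=
    IsAlgClosed.cardinal_eq_cardinal_transcendence_basis_of_aleph0_lt' _ ht hR (hKL ▸ hK)
  have h3 : #s = #t := by rw [← h1, ← h2, hKL]
  obtain ⟨e⟩ := Cardinal.eq.1 h3
  let := IsAlgClosed.isAlgClosure_of_transcendence_basis _ hs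
  let := IsAlgClosed.isAlgClosure_of_transcendence_basis _ ht
  let e' : Algebra.adjoin R (Set.range ((↑) : s → K)) ≃ₐ[R]
      Algebra.adjoin R (Set.range ((↑) : t → L)) :=
    hs.1.aevalEquiv.symm.trans ((MvPolynomial.renameEquiv R e).trans ht.1.aevalEquiv)
  refine ⟨IsAlgClosure.equivOfEquiv K L e'.toRingEquiv, fun r => ?_⟩
  rw [IsScalarTower.algebraMap_apply R (Algebra.adjoin R (Set.range ((↑) : s → K))) K,
    IsAlgClosure.equivOfEquiv_algebraMap]
  rw [IsScalarTower.algebraMap_apply R (Algebra.adjoin R (Set.range ((↑) : t → L))) L]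
  congr 1
  exact e'.commutes r

theorem exists_ringEquiv_of_injective {R : Type} [CommRing R] [Nontrivial R] [Countable R]
    (φ₁ φ₂ : R →+* ℂ) (h₁ : Function.Injective φ₁) (h₂ : Function.Injective φ₂) :
    ∃ σ : ℂ ≃+* ℂ, ∀ r : R, σ (φ₁ r) = φ₂ r := by
  have hC : ℵ₀ < #ℂ := by rw [Cardinal.mk_complex]; exact Cardinal.aleph0_lt_continuum
  exact @nonempty_algEquiv_of_card R ℂ ℂ _ _ _ _ φ₁.toAlgebra φ₂.toAlgebra _ _
    ((@faithfulSMul_iff_algebraMap_injective R ℂ _ _ φ₁.toAlgebra).2 h₁)
    ((@faithfulSMul_iff_algebraMap_injective R ℂ _ _ φ₂.toAlgebra).2 h₂)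
    Cardinal.mk_le_aleph0 hC rfl

theorem countable_polynomial_rat : Countable ℚ[X] := by
  rw [← Cardinal.mk_le_aleph0_iff]
  exact (Polynomial.cardinalMk_le_max).trans (by simp)

theorem exists_rat_of_fixed (z : ℂ) (h : ∀ σ : ℂ ≃+* ℂ, σ z = z) : ∃ r : ℚ, (r : ℂ) = z := by
  have hcount := countable_polynomial_rat
  by_cases hz : IsAlgebraic ℚ z
  · -- algebraic case
    have hint : IsIntegral ℚ z := hz.isIntegral
    by_contra hne
    have hirr : Irreducible (minpoly ℚ z) := minpoly.irreducible hint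
    have : Fact (Irreducible (minpoly ℚ z)) := ⟨hirr⟩
    -- another root
    obtain ⟨z', hz', hzz'⟩ : ∃ z' : ℂ, aeval z' (minpoly ℚ z) = 0 ∧ z' ≠ z := by
      by_contra hcon
      push Not at hcon
      have hsep : (minpoly ℚ z).Separable := hirr.separable
      have hcard := Polynomial.card_rootSet_eq_natDegree (K := ℂ) hsep
        (IsAlgClosed.splits _)
      have hsub : (minpoly ℚ z).rootSet ℂ ⊆ {z} := by
        intro w hw
        rw [Polynomial.mem_rootSet] at hw
        exact hcon w hw.2
      have hle : Fintype.card ((minpoly ℚ z).rootSet ℂ) ≤ 1 := by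
        have := Set.ncard_le_ncard hsub (Set.finite_singleton z)
        rw [Set.ncard_singleton, Set.ncard_eq_toFinset_card'] at this
        simpa using this
      have hdeg : (minpoly ℚ z).natDegree = 1 := by
        have := minpoly.natDegree_pos hint
        omega
      have := minpoly.mem_range_of_degree_eq_one ℚ z
        (by rw [Polynomial.degree_eq_natDegree hirr.ne_zero, hdeg]; rfl)
      obtain ⟨r, hr⟩ := this
      exact hne ⟨r, by simpa using hr⟩
    have e1 : (minpoly ℚ z).eval₂ (algebraMap ℚ ℂ) z = 0 := by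
      simpa [aeval_def] using minpoly.aeval ℚ z
    have e2 : (minpoly ℚ z).eval₂ (algebraMap ℚ ℂ) z' = 0 := by
      simpa [aeval_def] using hz'
    have : Countable (AdjoinRoot (minpoly ℚ z)) := by
      unfold AdjoinRoot
      exact Quotient.countable
    obtain ⟨σ, hσ⟩ := exists_ringEquiv_of_injective
      (AdjoinRoot.lift (algebraMap ℚ ℂ) z e1) (AdjoinRoot.lift (algebraMap ℚ ℂ) z' e2)
      (RingHom.injective _) (RingHom.injective _)
    have := hσ (AdjoinRoot.root _)
    rw [AdjoinRoot.lift_root, AdjoinRoot.lift_root] at this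
    exact hzz' (by rw [← this, h σ])
  · -- transcendental case
    exfalso
    have hz1 : Transcendental ℚ (z + 1) := by
      intro hcon
      apply hz
      have := hcon.sub (isAlgebraic_one (R := ℚ) (A := ℂ))
      simpa using this
    obtain ⟨σ, hσ⟩ := exists_ringEquiv_of_injective (R := ℚ[X])
      (aeval z : ℚ[X] →ₐ[ℚ] ℂ).toRingHom (aeval (z + 1) : ℚ[X] →ₐ[ℚ] ℂ).toRingHom
      (transcendental_iff_injective.1 hz) (transcendental_iff_injective.1 hz1)
    have := hσ X
    simp [h σ] at this

end Fermat.Agent.QInt
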