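import Mathlib
import Fermat.Prelude.Def_FLTPrelim_Modularity
import Fermat.Prelude.Thm_CongruenceSubgroup_one_mem_strictPeriods_Gamma0

/-!
# QInt: basic predicates

`IsMF Γ k g`: the function `g : ℍ → ℂ` is (the underlying function of) a modular form of weight `k`
for the finite index subgroup `Γ ≤ SL(2,ℤ)`; `IsCF` the same for cusp forms.
-/

set_option autoImplicit false

namespace Fermat.Agent.QInt

open UpperHalfPlane ModularForm CongruenceSubgroup Matrix.SpecialLinearGroup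
open scoped MatrixGroups ModularForm Manifold

/-- `g` is a modular form of weight `k` for `Γ ≤ SL(2,ℤ)` (function level predicate). -/
structure IsMF (Γ : Subgroup SL(2, ℤ)) (k : ℤ) (g : ℍ → ℂ) : Prop where
  slash : ∀ γ ∈ Γ, g ∣[k] γ = g
  holo : MDiff g
  bdd : ∀ γ : SL(2, ℤ), IsBoundedAtImInfty (g ∣[k] γ)

/-- `g` is a cusp form of weight `k` for `Γ ≤ SL(2,ℤ)` (function level predicate). -/
structure IsCF (Γ : Subgroup SL(2, ℤ)) (k : ℤ) (g : ℍ → ℂ) : Prop where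
  slash : ∀ γ ∈ Γ, g ∣[k] γ = g
  holo : MDiff g
  zero : ∀ γ : SL(2, ℤ), IsZeroAtImInfty (g ∣[k] γ)

variable {Γ : Subgroup SL(2, ℤ)} {k k₁ k₂ : ℤ} {g g₁ g₂ : ℍ → ℂ}

theorem IsCF.isMF (h : IsCF Γ k g) : IsMF Γ k g :=
  ⟨h.slash, h.holo, fun γ => (h.zero γ).isBoundedAtImInfty⟩

theorem IsMF.mono {Γ' : Subgroup SL(2, ℤ)} (hΓ : Γ' ≤ Γ) (h : IsMF Γ k g) : IsMF Γ' k g :=
  ⟨fun γ hγ => h.slash γ (hΓ hγ), h.holo, h.bdd⟩

theorem IsCF.mono {Γ' : Subgroup SL(2, ℤ)} (hΓ : Γ' ≤ Γ) (h : IsCF Γ k g) : IsCF Γ' k g :=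
  ⟨fun γ hγ => h.slash γ (hΓ hγ), h.holo, h.zero⟩

theorem IsMF.of_form [Γ.FiniteIndex] (G : ModularForm (Γ.map (mapGL ℝ)) k) : IsMF Γ k G where
  slash γ hγ := by
    rw [SL_slash]
    exact SlashInvariantFormClass.slash_action_eq G _ (Subgroup.mem_map_of_mem _ hγ)
  holo := ModularFormClass.holo G
  bdd γ := ModularFormClass.bdd_at_infty_slash G γ

theorem IsCF.of_form [Γ.FiniteIndex] (G : CuspForm (Γ.map (mapGL ℝ)) k) : IsCF Γ k G where
  slash γ hγ := by
    rw [SL_slash]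
    exact SlashInvariantFormClass.slash_action_eq G _ (Subgroup.mem_map_of_mem _ hγ)
  holo := CuspFormClass.holo G
  zero γ := CuspFormClass.zero_at_infty_slash G γ

/-- The modular form attached to a function satisfying `IsMF`. -/
noncomputable def IsMF.toForm [Γ.FiniteIndex] (h : IsMF Γ k g) : ModularForm (Γ.map (mapGL ℝ)) k where
  toFun := g
  slash_action_eq' γ hγ := by
    obtain ⟨γ', hγ', rfl⟩ := Subgroup.mem_map.mp hγ
    exact h.slash γ' hγ'
  holo' := h.holo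
  bdd_at_cusps' {c} hc := by
    rw [Subgroup.IsArithmetic.isCusp_iff_isCusp_SL2Z] at hc
    rw [OnePoint.isBoundedAt_iff_forall_SL2Z hc]
    exact fun γ _ => h.bdd γ

@[simp] theorem IsMF.coe_toForm [Γ.FiniteIndex] (h : IsMF Γ k g) : ⇑h.toForm = g := rfl

/-- The cusp form attached to a function satisfying `IsCF`. -/
noncomputable def IsCF.toForm [Γ.FiniteIndex] (h : IsCF Γ k g) : CuspForm (Γ.map (mapGL ℝ)) k where
  toFun := g
  slash_action_eq' γ hγ := by
    obtain ⟨γ', hγ', rfl⟩ := Subgroup.mem_map.mp hγ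
    exact h.slash γ' hγ'
  holo' := h.holo
  zero_at_cusps' {c} hc := by
    rw [Subgroup.IsArithmetic.isCusp_iff_isCusp_SL2Z] at hc
    rw [OnePoint.isZeroAt_iff_forall_SL2Z hc]
    exact fun γ _ => h.zero γ

@[simp] theorem IsCF.coe_toForm [Γ.FiniteIndex] (h : IsCF Γ k g) : ⇑h.toForm = g := rfl

theorem IsMF.of_levelOne (G : ModularForm 𝒮ℒ k) : IsMF ⊤ k G where
  slash γ _ := by
    rw [SL_slash]
    exact SlashInvariantFormClass.slash_action_eq G _ ⟨γ, rfl⟩
  holo := ModularFormClass.holo G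
  bdd γ := ModularFormClass.bdd_at_infty_slash G γ

theorem IsCF.of_levelOne (G : CuspForm 𝒮ℒ k) : IsCF ⊤ k G where
  slash γ _ := by
    rw [SL_slash]
    exact SlashInvariantFormClass.slash_action_eq G _ ⟨γ, rfl⟩
  holo := CuspFormClass.holo G
  zero γ := CuspFormClass.zero_at_infty_slash G γ

/-- The level one modular form attached to a function satisfying `IsMF ⊤`. -/
noncomputable def IsMF.toLevelOne (h : IsMF ⊤ k g) : ModularForm 𝒮ℒ k where
  toFun := g
  slash_action_eq' γ hγ := by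
    obtain ⟨γ', rfl⟩ := hγ
    exact h.slash γ' trivial
  holo' := h.holo
  bdd_at_cusps' {c} hc := by
    rw [OnePoint.isBoundedAt_iff_forall_SL2Z hc]
    exact fun γ _ => h.bdd γ

@[simp] theorem IsMF.coe_toLevelOne (h : IsMF ⊤ k g) : ⇑h.toLevelOne = g := rfl

/-- The level one cusp form attached to a function satisfying `IsCF ⊤`. -/
noncomputable def IsCF.toLevelOne (h : IsCF ⊤ k g) : CuspForm 𝒮ℒ k where
  toFun := g
  slash_action_eq' γ hγ := by
    obtain ⟨γ', rfl⟩ := hγ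
    exact h.slash γ' trivial
  holo' := h.holo
  zero_at_cusps' {c} hc := by
    rw [OnePoint.isZeroAt_iff_forall_SL2Z hc]
    exact fun γ _ => h.zero γ

@[simp] theorem IsCF.coe_toLevelOne (h : IsCF ⊤ k g) : ⇑h.toLevelOne = g := rfl

theorem IsMF.congr_weight (h : IsMF Γ k₁ g) (hk : k₁ = k₂) : IsMF Γ k₂ g := hk ▸ h

theorem IsCF.congr_weight (h : IsCF Γ k₁ g) (hk : k₁ = k₂) : IsCF Γ k₂ g := hk ▸ h

theorem IsMF.zero : IsMF Γ k 0 :=
  ⟨fun γ _ => SlashAction.zero_slash _ _, mdifferentiable_const, fun γ => by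
    rw [SlashAction.zero_slash]; exact zero_form_isBoundedAtImInfty⟩

theorem IsCF.zero' : IsCF Γ k 0 :=
  ⟨fun γ _ => SlashAction.zero_slash _ _, mdifferentiable_const, fun γ => by
    rw [SlashAction.zero_slash]; exact Filter.zero_zeroAtFilter _⟩

theorem IsMF.add (h₁ : IsMF Γ k g₁) (h₂ : IsMF Γ k g₂) : IsMF Γ k (g₁ + g₂) :=
  ⟨fun γ hγ => by rw [SlashAction.add_slash, h₁.slash γ hγ, h₂.slash γ hγ],
    h₁.holo.add h₂.holo, fun γ => by
      rw [SlashAction.add_slash]; exact (h₁.bdd γ).add (h₂.bdd γ)⟩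

theorem IsCF.add (h₁ : IsCF Γ k g₁) (h₂ : IsCF Γ k g₂) : IsCF Γ k (g₁ + g₂) :=
  ⟨fun γ hγ => by rw [SlashAction.add_slash, h₁.slash γ hγ, h₂.slash γ hγ],
    h₁.holo.add h₂.holo, fun γ => by
      rw [SlashAction.add_slash]; exact (h₁.zero γ).add (h₂.zero γ)⟩

theorem IsMF.smul (c : ℂ) (h : IsMF Γ k g) : IsMF Γ k (c • g) :=
  ⟨fun γ hγ => by rw [SL_smul_slash, h.slash γ hγ],
    h.holo.const_smul c, fun γ => by
      rw [SL_smul_slash]; exact (h.bdd γ).const_smul_left c⟩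

theorem IsCF.smul (c : ℂ) (h : IsCF Γ k g) : IsCF Γ k (c • g) :=
  ⟨fun γ hγ => by rw [SL_smul_slash, h.slash γ hγ],
    h.holo.const_smul c, fun γ => by
      rw [SL_smul_slash]; exact (h.zero γ).smul c⟩

theorem IsMF.neg (h : IsMF Γ k g) : IsMF Γ k (-g) := by
  simpa using h.smul (-1)

theorem IsMF.sub (h₁ : IsMF Γ k g₁) (h₂ : IsMF Γ k g₂) : IsMF Γ k (g₁ - g₂) := by
  rw [sub_eq_add_neg]; exact h₁.add h₂.neg

theorem IsMF.mul (h₁ : IsMF Γ k₁ g₁) (h₂ : IsMF Γ k₂ g₂) : IsMF Γ (k₁ + k₂) (g₁ * g₂) :=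
  ⟨fun γ hγ => by rw [mul_slash_SL2, h₁.slash γ hγ, h₂.slash γ hγ],
    h₁.holo.mul h₂.holo, fun γ => by
      rw [mul_slash_SL2]; exact (h₁.bdd γ).mul (h₂.bdd γ)⟩

theorem IsCF.mul_isMF (h₁ : IsCF Γ k₁ g₁) (h₂ : IsMF Γ k₂ g₂) : IsCF Γ (k₁ + k₂) (g₁ * g₂) :=
  ⟨fun γ hγ => by rw [mul_slash_SL2, h₁.slash γ hγ, h₂.slash γ hγ],
    h₁.holo.mul h₂.holo, fun γ => by
      rw [mul_slash_SL2]; exact (h₁.zero γ).mul_boundedAtFilter (h₂.bdd γ)⟩

theorem IsMF.const (c : ℂ) : IsMF Γ 0 (fun _ => c) :=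
  ⟨fun γ _ => is_invariant_const γ c, mdifferentiable_const, fun γ => by
    have : (fun _ : ℍ => c) ∣[(0 : ℤ)] γ = fun _ => c := is_invariant_const γ c
    rw [this]; exact Filter.const_boundedAtFilter _ c⟩

theorem IsMF.one : IsMF Γ 0 1 := IsMF.const 1

theorem IsMF.pow (h : IsMF Γ k g) (n : ℕ) : IsMF Γ (k * n) (g ^ n) := by
  induction n with
  | zero => simpa using IsMF.one
  | succ n ih =>
    rw [pow_succ]
    exact (ih.mul h).congr_weight (by push_cast; ring)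

theorem IsMF.sum {ι : Type*} (s : Finset ι) {G : ι → ℍ → ℂ} (h : ∀ i ∈ s, IsMF Γ k (G i)) :
    IsMF Γ k (∑ i ∈ s, G i) := by
  classical
  induction s using Finset.induction_on with
  | empty => simpa using IsMF.zero
  | insert a s ha ih =>
    rw [Finset.sum_insert ha]
    exact (h a (Finset.mem_insert_self a s)).add
      (ih fun i hi => h i (Finset.mem_insert_of_mem hi))

theorem IsCF.sum {ι : Type*} (s : Finset ι) {G : ι → ℍ → ℂ} (h : ∀ i ∈ s, IsCF Γ k (G i)) :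
    IsCF Γ k (∑ i ∈ s, G i) := by
  classical
  induction s using Finset.induction_on with
  | empty => simpa using IsCF.zero'
  | insert a s ha ih =>
    rw [Finset.sum_insert ha]
    exact (h a (Finset.mem_insert_self a s)).add
      (ih fun i hi => h i (Finset.mem_insert_of_mem hi))

theorem IsMF.prod {ι : Type*} (s : Finset ι) {G : ι → ℍ → ℂ} {w : ι → ℤ}
    (h : ∀ i ∈ s, IsMF Γ (w i) (G i)) : IsMF Γ (∑ i ∈ s, w i) (∏ i ∈ s, G i) := by
  classical
  induction s using Finset.induction_on with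
  | empty => simpa using IsMF.one
  | insert a s ha ih =>
    rw [Finset.prod_insert ha, Finset.sum_insert ha]
    exact (h a (Finset.mem_insert_self a s)).mul
      (ih fun i hi => h i (Finset.mem_insert_of_mem hi))

end Fermat.Agent.QInt
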