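import Mathlib

/-!
# `ℤ⟦X⟧` is (completely) integrally closed inside `ℚ⟦X⟧`

Module M9 of the QInt plan.
-/

set_option autoImplicit false

namespace Fermat.Agent.QInt

open PowerSeries

/-- The subring of `ℚ⟦X⟧` of power series with integer coefficients. -/
noncomputable def intSeries : Subring (PowerSeries ℚ) :=
  (PowerSeries.map (Int.castRingHom ℚ)).range

lemma mem_intSeries_iff (g : PowerSeries ℚ) :
    g ∈ intSeries ↔ ∀ n, ∃ m : ℤ, coeff n g = (m : ℚ) := by
  constructor
  · rintro ⟨v, rfl⟩ n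
    exact ⟨coeff n v, by simp⟩
  · intro h
    choose m hm using h
    refine ⟨PowerSeries.mk m, ?_⟩
    ext n
    simp [hm]

/-- A rational number `r` such that `d * r ^ m` is an integer for all `m` (with `d ≠ 0`)
is an integer. -/
lemma rat_isInt_of_forall_pow (d : ℤ) (hd : d ≠ 0) (r : ℚ)
    (h : ∀ m : ℕ, ∃ z : ℤ, (d : ℚ) * r ^ m = (z : ℚ)) : ∃ z : ℤ, r = (z : ℚ) := by
  -- write r = a / b
  have hb : (r.den : ℤ) ≠ 0 := by exact_mod_cast r.den_nz
  have key : ∀ m : ℕ, (r.den : ℤ) ^ m ∣ d := by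
    intro m
    obtain ⟨z, hz⟩ := h m
    have hcop : IsCoprime ((r.den : ℤ) ^ m) (r.num ^ m) := by
      apply IsCoprime.pow
      have := r.reduced
      rw [Int.isCoprime_iff_gcd_eq_one, Int.gcd_comm]
      simpa [Int.gcd, Nat.Coprime] using this
    have h1 : (d : ℚ) * (r.num : ℚ) ^ m = (z : ℚ) * (r.den : ℚ) ^ m := by
      have hden : (r.den : ℚ) ≠ 0 := by exact_mod_cast r.den_nz
      have hr : r * (r.den : ℚ) = (r.num : ℚ) := Rat.mul_den_eq_num r
      rw [← hz, ← hr, mul_pow]
      ring
    have h2 : d * r.num ^ m = z * (r.den : ℤ) ^ m := by exact_mod_cast h1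
    have h3 : (r.den : ℤ) ^ m ∣ d * r.num ^ m := ⟨z, by rw [h2]; ring⟩
    exact hcop.dvd_of_dvd_mul_right h3
  have hden1 : r.den = 1 := by
    by_contra hne
    have h2 : 2 ≤ r.den := by
      have := r.den_pos
      omega
    have hlt : d.natAbs < 2 ^ d.natAbs := Nat.lt_two_pow_self
    have hdvd := key d.natAbs
    have hle : ((r.den : ℤ) ^ d.natAbs).natAbs ≤ d.natAbs :=
      Nat.le_of_dvd (Int.natAbs_pos.mpr hd) (Int.natAbs_dvd_natAbs.mpr hdvd)
    rw [Int.natAbs_pow, Int.natAbs_natCast] at hle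
    have : 2 ^ d.natAbs ≤ r.den ^ d.natAbs := Nat.pow_le_pow_left h2 _
    omega
  exact ⟨r.num, by
    conv_lhs => rw [← Rat.num_div_den r]
    simp [hden1]⟩

/-- Complete integral closedness of `ℤ⟦X⟧` in `ℚ⟦X⟧`. -/
theorem mem_intSeries_of_forall_pow (g D : PowerSeries ℚ) (hD0 : D ≠ 0) (hD : D ∈ intSeries)
    (h : ∀ m : ℕ, D * g ^ m ∈ intSeries) : g ∈ intSeries := by
  rw [mem_intSeries_iff]
  intro N
  induction N using Nat.strong_induction_on with
  | _ N ih =>
    -- the integral truncation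
    choose! a ha using ih
    set t : PowerSeries ℚ := PowerSeries.mk fun i => if i < N then coeff i g else 0 with ht
    have htA : t ∈ intSeries := by
      rw [mem_intSeries_iff]
      intro i
      by_cases hi : i < N
      · exact ⟨a i, by simp [ht, hi, ha i hi]⟩
      · exact ⟨0, by simp [ht, hi]⟩
    -- g - t is divisible by X^N
    have hdiv : (X : PowerSeries ℚ) ^ N ∣ g - t := by
      rw [X_pow_dvd_iff]
      intro m hm
      simp [ht, hm]
    obtain ⟨g', hg'⟩ := hdiv
    have hg'0 : constantCoeff g' = coeff N g := by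
      have h1 : coeff (0 + N) (X ^ N * g') = coeff 0 g' := coeff_X_pow_mul g' N 0
      rw [← hg'] at h1
      simp [ht] at h1
      exact h1.symm
    -- D * (g - t)^m is integral
    have hDm : ∀ m : ℕ, D * (g - t) ^ m ∈ intSeries := by
      intro m
      rw [sub_eq_add_neg, add_pow, Finset.mul_sum]
      refine Subring.sum_mem _ fun j _ => ?_
      have : D * (g ^ j * (-t) ^ (m - j) * (m.choose j : PowerSeries ℚ)) =
          (D * g ^ j) * ((-t) ^ (m - j) * (m.choose j : PowerSeries ℚ)) := by ring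
      rw [this]
      exact Subring.mul_mem _ (h j)
        (Subring.mul_mem _ (Subring.pow_mem _ (Subring.neg_mem _ htA) _) (natCast_mem _ _))
    -- D = X^d * D' with nonzero constant coefficient
    obtain ⟨D', hD'⟩ := X_pow_order_dvd (φ := D)
    set d := D.order.toNat with hd
    have hD'0 : constantCoeff D' = coeff d D := by
      have h1 : coeff (0 + d) (X ^ d * D') = coeff 0 D' := coeff_X_pow_mul D' d 0
      rw [← hD'] at h1
      rw [← coeff_zero_eq_constantCoeff_apply, ← h1, zero_add]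
    have hDd : coeff d D ≠ 0 := by
      have := coeff_order (φ := D) hD0
      simpa [hd] using this
    obtain ⟨e, he⟩ := (mem_intSeries_iff D).mp hD d
    have he0 : e ≠ 0 := by
      rintro rfl
      exact hDd (by simpa using he)
    refine rat_isInt_of_forall_pow e he0 _ fun m => ?_
    obtain ⟨z, hz⟩ := (mem_intSeries_iff _).mp (hDm m) (0 + (d + N * m))
    refine ⟨z, ?_⟩
    rw [← hz, hg', hD']
    have : X ^ d * D' * (X ^ N * g') ^ m = X ^ (d + N * m) * (D' * g' ^ m) := by
      rw [mul_pow, ← pow_mul, pow_add]; ring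
    rw [this, coeff_X_pow_mul, coeff_zero_eq_constantCoeff_apply, map_mul, map_pow, hD'0, hg'0, he]

/-- Module M9: a rational power series in the fraction field of `ℤ⟦X⟧` which is integral over
`ℤ⟦X⟧` has integer coefficients. -/
theorem mem_int_of_integral (g : PowerSeries ℚ) (E : PowerSeries ℤ) (hE : E ≠ 0)
    (hEg : ∃ u : PowerSeries ℤ, E.map (Int.castRingHom ℚ) * g = u.map (Int.castRingHom ℚ))
    (n : ℕ) (c : ℕ → PowerSeries ℤ)
    (hc : g ^ n + ∑ i ∈ Finset.range n, (c i).map (Int.castRingHom ℚ) * g ^ i = 0) :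
    ∃ v : PowerSeries ℤ, g = v.map (Int.castRingHom ℚ) := by
  set E' : PowerSeries ℚ := E.map (Int.castRingHom ℚ) with hE'
  have hE'mem : E' ∈ intSeries := ⟨E, rfl⟩
  have hE'0 : E' ≠ 0 := by
    intro h0
    apply hE
    have hinj : Function.Injective (PowerSeries.map (Int.castRingHom ℚ)) :=
      PowerSeries.map_injective _ (RingHom.injective_int _)
    exact hinj (by rw [map_zero]; exact h0)
  have hEgmem : E' * g ∈ intSeries := by
    obtain ⟨u, hu⟩ := hEg
    exact ⟨u, hu.symm⟩
  -- E'^n * g^i integral for i ≤ n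
  have hlow : ∀ i ≤ n, E' ^ n * g ^ i ∈ intSeries := by
    intro i hi
    have : E' ^ n * g ^ i = E' ^ (n - i) * (E' * g) ^ i := by
      rw [mul_pow, ← mul_assoc, ← pow_add, Nat.sub_add_cancel hi]
    rw [this]
    exact Subring.mul_mem _ (Subring.pow_mem _ hE'mem _) (Subring.pow_mem _ hEgmem _)
  -- all powers of g are intSeries-combinations of g^i, i < n
  have hspan : ∀ m : ℕ, ∃ b : ℕ → PowerSeries ℚ, (∀ i, b i ∈ intSeries) ∧
      g ^ m = ∑ i ∈ Finset.range n, b i * g ^ i := by
    have hgn : g ^ n = ∑ i ∈ Finset.range n, (-(c i).map (Int.castRingHom ℚ)) * g ^ i := by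
      rw [eq_comm, ← sub_eq_zero, ← neg_eq_zero]
      rw [← hc]
      simp only [neg_mul, Finset.sum_neg_distrib]
      ring
    intro m
    induction m with
    | zero =>
      rcases Nat.eq_zero_or_pos n with hn | hn
      · subst hn
        simp at hc
      · refine ⟨fun i => if i = 0 then 1 else 0, fun i => ?_, ?_⟩
        · by_cases hi : i = 0 <;> simp [hi]
        · rw [Finset.sum_eq_single 0]
          · simp
          · intro j _ hj; simp [hj]
          · intro h0; exact absurd (Finset.mem_range.mpr hn) h0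
    | succ m ih =>
      obtain ⟨b, hb, hbm⟩ := ih
      rcases Nat.eq_zero_or_pos n with hn | hn
      · subst hn
        simp at hc
      obtain ⟨k, rfl⟩ : ∃ k, n = k + 1 := ⟨n - 1, by omega⟩
      -- g^(m+1) = ∑_{i<k+1} b i g^(i+1) = ∑_{i<k} b i g^(i+1) + b k g^(k+1)
      refine ⟨fun i => (if i = 0 then 0 else b (i - 1)) +
          b k * (-(c i).map (Int.castRingHom ℚ)), fun i => ?_, ?_⟩
      · refine Subring.add_mem _ ?_ (Subring.mul_mem _ (hb k) (Subring.neg_mem _ ⟨c i, rfl⟩))
        by_cases hi : i = 0 <;> simp [hi, hb]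
      · rw [pow_succ, hbm, Finset.sum_mul, Finset.sum_range_succ]
        simp only [add_mul, Finset.sum_add_distrib]
        congr 1
        · rw [Finset.sum_range_succ']
          simp [mul_assoc, pow_succ]
        · rw [mul_assoc, ← pow_succ, hgn, Finset.mul_sum]
          refine Finset.sum_congr rfl fun i _ => ?_
          ring
  have hall : ∀ m : ℕ, E' ^ n * g ^ m ∈ intSeries := by
    intro m
    obtain ⟨b, hb, hbm⟩ := hspan m
    rw [hbm, Finset.mul_sum]
    refine Subring.sum_mem _ fun i hi => ?_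
    have : E' ^ n * (b i * g ^ i) = b i * (E' ^ n * g ^ i) := by ring
    rw [this]
    exact Subring.mul_mem _ (hb i) (hlow i (Finset.mem_range.mp hi).le)
  obtain ⟨v, hv⟩ := mem_intSeries_of_forall_pow g (E' ^ n) (pow_ne_zero _ hE'0)
    (Subring.pow_mem _ hE'mem _) hall
  exact ⟨v, hv.symm⟩

end Fermat.Agent.QInt
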