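import Fermat.Agent.QInt.Basic

/-!
# QInt M6: the discriminant trick

If `θ` is a modular form for `Γ` whose stabiliser in `SL(2,ℤ)` is exactly `Γ`, then there is a
nonzero level one form `D` such that for every modular form `f` for `Γ`,
`D * f = ∑_{m < μ} y_m θ^m` with level one forms `y_m`.
-/

set_option autoImplicit false

namespace Fermat.Agent.QInt

open UpperHalfPlane ModularForm CongruenceSubgroup Matrix.SpecialLinearGroup
open scoped MatrixGroups ModularForm Manifold

variable {Γ : Subgroup SL(2, ℤ)} {k k₁ k₂ : ℤ}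

/-- An `SL(2,ℤ)`-equivariant family of holomorphic functions, bounded at `i∞`, indexed by the
cosets of `Γ`. -/
structure IsFam (Γ : Subgroup SL(2, ℤ)) (k : ℤ) (F : SL(2, ℤ) ⧸ Γ → ℍ → ℂ) : Prop where
  slash : ∀ (h : SL(2, ℤ)) (q : SL(2, ℤ) ⧸ Γ), F q ∣[k] h = F (h⁻¹ • q)
  holo : ∀ q, MDiff (F q)
  bdd : ∀ q, IsBoundedAtImInfty (F q)

/-- The family of conjugates of `f`. -/
noncomputable def conjFam (Γ : Subgroup SL(2, ℤ)) (k : ℤ) (f : ℍ → ℂ) :
    SL(2, ℤ) ⧸ Γ → ℍ → ℂ :=
  fun q => f ∣[k] (q.out)⁻¹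

theorem conjFam_mk {f : ℍ → ℂ} (hf : ∀ γ ∈ Γ, f ∣[k] γ = f) (g : SL(2, ℤ)) :
    conjFam Γ k f (g : SL(2, ℤ) ⧸ Γ) = f ∣[k] g⁻¹ := by
  obtain ⟨h, hh⟩ := QuotientGroup.mk_out_eq_mul Γ g
  unfold conjFam
  rw [hh, mul_inv_rev, SlashAction.slash_mul, hf _ (inv_mem h.2)]

theorem IsMF.isFam {f : ℍ → ℂ} (hf : IsMF Γ k f) : IsFam Γ k (conjFam Γ k f) where
  slash h q := by
    induction q using QuotientGroup.induction_on with
    | H g =>
      rw [conjFam_mk hf.slash, ← SlashAction.slash_mul, MulAction.Quotient.smul_coe,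
        conjFam_mk hf.slash]
      simp [mul_inv_rev]
  holo q := by
    unfold conjFam
    rw [SL_slash]
    exact hf.holo.slash k _
  bdd q := hf.bdd _

theorem IsFam.congr_weight {F : SL(2, ℤ) ⧸ Γ → ℍ → ℂ} (h : IsFam Γ k₁ F) (hk : k₁ = k₂) :
    IsFam Γ k₂ F := hk ▸ h

theorem IsFam.mul {F G : SL(2, ℤ) ⧸ Γ → ℍ → ℂ} (hF : IsFam Γ k₁ F) (hG : IsFam Γ k₂ G) :
    IsFam Γ (k₁ + k₂) (fun q => F q * G q) where
  slash h q := by rw [mul_slash_SL2, hF.slash, hG.slash]
  holo q := (hF.holo q).mul (hG.holo q)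
  bdd q := (hF.bdd q).mul (hG.bdd q)

theorem IsFam.one : IsFam Γ 0 (fun _ => 1) where
  slash h _ := is_invariant_one h
  holo _ := mdifferentiable_const
  bdd _ := Filter.const_boundedAtFilter _ 1

theorem IsFam.pow {F : SL(2, ℤ) ⧸ Γ → ℍ → ℂ} (hF : IsFam Γ k F) (n : ℕ) :
    IsFam Γ (k * n) (fun q => F q ^ n) := by
  induction n with
  | zero => simpa using IsFam.one
  | succ n ih =>
    simp only [pow_succ]
    exact (ih.mul hF).congr_weight (by push_cast; ring)

theorem IsFam.sum [Fintype (SL(2, ℤ) ⧸ Γ)] {F : SL(2, ℤ) ⧸ Γ → ℍ → ℂ} (hF : IsFam Γ k F) :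
    IsMF ⊤ k (∑ q, F q) := by
  have hinv : ∀ h : SL(2, ℤ), (∑ q, F q) ∣[k] h = ∑ q, F q := by
    intro h
    rw [SlashAction.sum_slash]
    simp only [hF.slash]
    exact Equiv.sum_comp (MulAction.toPerm h⁻¹) F
  refine ⟨fun h _ => hinv h, ?_, fun h => ?_⟩
  · exact MDifferentiable.sum fun q _ => hF.holo q
  · rw [hinv h]
    classical
    have : ∀ s : Finset (SL(2, ℤ) ⧸ Γ), IsBoundedAtImInfty (∑ q ∈ s, F q) := by
      intro s
      induction s using Finset.induction_on with
      | empty => simpa using zero_form_isBoundedAtImInfty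
      | insert a s ha ih =>
        rw [Finset.sum_insert ha]
        exact (hF.bdd a).add ih
    exact this _

/-- The determinant of a matrix of level one forms whose `(i,j)` entry has weight `a i + b j`. -/
theorem IsMF.det {n : Type*} [Fintype n] [DecidableEq n] {a b : n → ℤ}
    {M : Matrix n n (ℍ → ℂ)} (hM : ∀ i j, IsMF Γ (a i + b j) (M i j)) :
    IsMF Γ (∑ i, a i + ∑ i, b i) M.det := by
  rw [Matrix.det_apply]
  refine IsMF.sum _ fun σ _ => ?_
  have h1 : IsMF Γ (∑ i, a i + ∑ i, b i) (∏ i, M (σ i) i) := by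
    refine (IsMF.prod Finset.univ (w := fun i => a (σ i) + b i) fun i _ => hM (σ i) i).congr_weight ?_
    rw [Finset.sum_add_distrib, Equiv.sum_comp σ a]
  rcases Int.units_eq_one_or (Equiv.Perm.sign σ) with h | h
  · rw [h, one_smul]; exact h1
  · rw [h, Units.neg_smul, one_smul]; exact h1.neg

/-- The entries of the adjugate of a matrix of level one forms whose `(i,j)` entry has weight
`a i + b j`. -/
theorem IsMF.adjugate {n : Type*} [Fintype n] [DecidableEq n] {a b : n → ℤ}
    {M : Matrix n n (ℍ → ℂ)} (hM : ∀ i j, IsMF Γ (a i + b j) (M i j)) (i j : n) :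
    IsMF Γ (∑ r, a r + ∑ r, b r - a j - b i) (M.adjugate i j) := by
  rw [Matrix.adjugate_apply]
  have key : ∀ r c, IsMF Γ (Function.update a j (-b i) r + b c)
      ((M.updateRow j (Pi.single i 1)) r c) := by
    intro r c
    by_cases hr : r = j
    · subst hr
      rw [Matrix.updateRow_self, Function.update_self]
      by_cases hc : c = i
      · subst hc
        rw [Pi.single_eq_same]
        exact IsMF.one.congr_weight (by ring)
      · rw [Pi.single_eq_of_ne hc]
        exact IsMF.zero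
    · rw [Matrix.updateRow_ne hr, Function.update_of_ne hr]
      exact hM r c
  refine (IsMF.det key).congr_weight ?_
  have : ∑ r, Function.update a j (-b i) r = ∑ r, a r - a j - b i := by
    rw [Finset.sum_update_of_mem (Finset.mem_univ j), ← Finset.sum_erase_eq_sub (Finset.mem_univ j)]
    simp [Finset.sdiff_singleton_eq_erase]
    ring
  rw [this]; ring

/-- Pure linear algebra: `V * adj(Vᵀ V) * Vᵀ = det(Vᵀ V)`. -/
theorem mulVec_adjugate_transpose_mul {n R : Type*} [Fintype n] [DecidableEq n] [CommRing R]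
    (V : Matrix n n R) (F : n → R) :
    V.mulVec ((V.transpose * V).adjugate.mulVec (V.transpose.mulVec F)) =
      (V.transpose * V).det • F := by
  rw [Matrix.mulVec_mulVec, Matrix.mulVec_mulVec, Matrix.adjugate_mul_distrib, Matrix.det_mul,
    Matrix.det_transpose]
  have : V * (V.adjugate * V.transpose.adjugate) * V.transpose = (V.det * V.det) • 1 := by
    rw [Matrix.mul_assoc, Matrix.mul_assoc, Matrix.adjugate_mul, Matrix.det_transpose,
      Matrix.mul_smul, Matrix.mul_one, Matrix.mul_smul, Matrix.mul_adjugate, smul_smul]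
  rw [this, Matrix.smul_mulVec, Matrix.one_mulVec]

theorem exists_expansion [Γ.FiniteIndex] {w₀ : ℤ} {θ : ℍ → ℂ} (hθ : IsMF Γ w₀ θ)
    (hstab : ∀ γ : SL(2, ℤ), θ ∣[w₀] γ = θ → γ ∈ Γ) :
    ∃ (μ : ℕ) (w : ℤ) (D : ℍ → ℂ), IsMF ⊤ w D ∧ D ≠ 0 ∧
      ∀ (k : ℤ) (f : ℍ → ℂ), IsMF Γ k f → ∃ y : ℕ → ℍ → ℂ,
        (∀ m : ℕ, IsMF ⊤ (w + k - w₀ * (m : ℤ)) (y m)) ∧
        ∀ z, D z * f z = ∑ m ∈ Finset.range μ, y m z * θ z ^ m := by
  classical
  have : Fintype (SL(2, ℤ) ⧸ Γ) := Fintype.ofFinite _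
  set μ := Fintype.card (SL(2, ℤ) ⧸ Γ) with hμ
  let e : SL(2, ℤ) ⧸ Γ ≃ Fin μ := Fintype.equivFin _
  have hfam := hθ.isFam
  let t : Fin μ → (ℍ → ℂ) := fun i => conjFam Γ w₀ θ (e.symm i)
  let V : Matrix (Fin μ) (Fin μ) (ℍ → ℂ) := Matrix.vandermonde t
  let H := V.transpose * V
  let a : Fin μ → ℤ := fun i => w₀ * (i : ℕ)
  have hH : ∀ i j, IsMF ⊤ (a i + a j) (H i j) := by
    intro i j
    have h1 := ((hfam.pow (i : ℕ)).mul (hfam.pow (j : ℕ))).sum
    have h2 : H i j = ∑ q, conjFam Γ w₀ θ q ^ (i : ℕ) * conjFam Γ w₀ θ q ^ (j : ℕ) := by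
      simp only [H, V, Matrix.mul_apply, Matrix.transpose_apply, Matrix.vandermonde_apply, t]
      exact Equiv.sum_comp e.symm
        (fun q => conjFam Γ w₀ θ q ^ (i : ℕ) * conjFam Γ w₀ θ q ^ (j : ℕ))
    rw [h2]; exact h1
  have htinj : Function.Injective t := by
    intro i j hij
    have hinj : ∀ q q' : SL(2, ℤ) ⧸ Γ, conjFam Γ w₀ θ q = conjFam Γ w₀ θ q' → q = q' := by
      intro q q' hqq
      induction q using QuotientGroup.induction_on with
      | H g =>
        induction q' using QuotientGroup.induction_on with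
        | H g' =>
          rw [conjFam_mk hθ.slash, conjFam_mk hθ.slash] at hqq
          have h3 : θ ∣[w₀] (g⁻¹ * g') = θ := by
            rw [SlashAction.slash_mul, hqq, ← SlashAction.slash_mul, inv_mul_cancel,
              SlashAction.slash_one]
          exact QuotientGroup.eq.mpr (hstab _ h3)
    exact e.symm.injective (hinj _ _ hij)
  have htholo : ∀ i, MDiff (t i) := fun i => hfam.holo _
  have hV : V.det ≠ 0 := by
    simp only [V, Matrix.det_vandermonde]
    intro h0
    rw [UpperHalfPlane.prod_eq_zero_iff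
      (fun i _ => MDifferentiable.prod fun j _ => (htholo j).sub (htholo i))] at h0
    obtain ⟨i, -, h0⟩ := h0
    rw [UpperHalfPlane.prod_eq_zero_iff (fun j _ => (htholo j).sub (htholo i))] at h0
    obtain ⟨j, hj, h0⟩ := h0
    have := htinj (sub_eq_zero.mp h0)
    rw [Finset.mem_Ioi] at hj
    exact hj.ne' this
  have hVholo : MDiff V.det := by
    simp only [V, Matrix.det_vandermonde]
    exact MDifferentiable.prod fun i _ => MDifferentiable.prod fun j _ => (htholo j).sub (htholo i)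
  refine ⟨μ, ∑ i, a i + ∑ i, a i, H.det, IsMF.det hH, ?_, ?_⟩
  · simp only [H, Matrix.det_mul, Matrix.det_transpose]
    intro h0
    rcases (UpperHalfPlane.mul_eq_zero_iff hVholo hVholo).mp h0 with h | h <;> exact hV h
  · intro k f hf
    have hffam := hf.isFam
    let F : Fin μ → (ℍ → ℂ) := fun i => conjFam Γ k f (e.symm i)
    let b := V.transpose.mulVec F
    have hb : ∀ j, IsMF ⊤ (a j + k) (b j) := by
      intro j
      have h1 := ((hfam.pow (j : ℕ)).mul hffam).sum
      have h2 : b j = ∑ q, conjFam Γ w₀ θ q ^ (j : ℕ) * conjFam Γ k f q := by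
        simp only [b, V, F, Matrix.mulVec, dotProduct, Matrix.transpose_apply,
          Matrix.vandermonde_apply, t]
        exact Equiv.sum_comp e.symm
          (fun q => conjFam Γ w₀ θ q ^ (j : ℕ) * conjFam Γ k f q)
      rw [h2]; exact h1
    let y' := H.adjugate.mulVec b
    have hy' : ∀ m, IsMF ⊤ (∑ i, a i + ∑ i, a i + k - a m) (y' m) := by
      intro m
      simp only [y', Matrix.mulVec, dotProduct]
      refine IsMF.sum _ fun j _ => ?_
      exact ((IsMF.adjugate hH m j).mul (hb j)).congr_weight (by ring)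
    have hmain : V.mulVec y' = H.det • F := mulVec_adjugate_transpose_mul V F
    refine ⟨fun m => if h : m < μ then y' ⟨m, h⟩ else 0, fun m => ?_, fun z => ?_⟩
    · by_cases h : m < μ
      · show IsMF ⊤ _ (if h : m < μ then y' ⟨m, h⟩ else 0)
        rw [dif_pos h]
        exact hy' ⟨m, h⟩
      · show IsMF ⊤ _ (if h : m < μ then y' ⟨m, h⟩ else 0)
        rw [dif_neg h]
        exact IsMF.zero
    · have h1 := congrFun (congrFun hmain (e ((1 : SL(2, ℤ)) : SL(2, ℤ) ⧸ Γ))) z
      have hF1 : F (e ((1 : SL(2, ℤ)) : SL(2, ℤ) ⧸ Γ)) = f := by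
        simp only [F, Equiv.symm_apply_apply]
        rw [conjFam_mk hf.slash, inv_one, SlashAction.slash_one]
      have ht1 : t (e ((1 : SL(2, ℤ)) : SL(2, ℤ) ⧸ Γ)) = θ := by
        simp only [t, Equiv.symm_apply_apply]
        rw [conjFam_mk hθ.slash, inv_one, SlashAction.slash_one]
      simp only [Pi.smul_apply, hF1, smul_eq_mul, Pi.mul_apply] at h1
      rw [← h1]
      simp only [V, Matrix.mulVec, dotProduct, Matrix.vandermonde_apply, ht1, Finset.sum_apply,
        Pi.mul_apply, Pi.pow_apply]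
      rw [Finset.sum_range]
      refine Finset.sum_congr rfl fun m _ => ?_
      simp only [Fin.is_lt, dif_pos, Fin.eta]
      ring

end Fermat.Agent.QInt
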