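import Fermat.Agent.QInt.Basic

/-!
# QInt M6: expansion of a form of level `Γ` in powers of a primitive element `θ`,
with level one coefficients (Gram/Vandermonde/Cramer trick).
-/

set_option autoImplicit false

namespace Fermat.Agent.QInt

open Matrix Finset

namespace Gram

section Algebra

variable {R S : Type*} [CommRing R] [CommRing S] {μ : ℕ}

/-- The Gram matrix of power sums `∑ i, a i ^ (m + n)`. -/
def gram (a : Fin μ → R) : Matrix (Fin μ) (Fin μ) R :=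
  Matrix.of fun m n => ∑ i, a i ^ ((m : ℕ) + (n : ℕ))

/-- The vector of mixed power sums `∑ i, a i ^ m * b i`. -/
def tvec (a b : Fin μ → R) : Fin μ → R := fun m => ∑ i, a i ^ (m : ℕ) * b i

/-- Cramer solution vector. -/
def yvec (a b : Fin μ → R) : Fin μ → R := (gram a).adjugate *ᵥ tvec a b

/-- The discriminant `det (gram a)`. -/
def disc (a : Fin μ → R) : R := (gram a).det

theorem gram_eq (a : Fin μ → R) : gram a = (vandermonde a)ᵀ * vandermonde a := by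
  ext m n
  simp [gram, Matrix.mul_apply, vandermonde_apply, pow_add]

theorem tvec_eq (a b : Fin μ → R) : tvec a b = (vandermonde a)ᵀ *ᵥ b := by
  ext m
  simp [tvec, Matrix.mulVec, dotProduct, vandermonde_apply]

theorem disc_eq (a : Fin μ → R) : disc a = (vandermonde a).det ^ 2 := by
  rw [disc, gram_eq, det_mul, det_transpose, sq]

theorem vandermonde_mulVec_yvec (a b : Fin μ → R) :
    vandermonde a *ᵥ yvec a b = disc a • b := by
  rw [yvec, tvec_eq, gram_eq, adjugate_mul_distrib, mulVec_mulVec, mulVec_mulVec, disc_eq]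
  have : vandermonde a * ((vandermonde a).adjugate * (vandermonde a)ᵀ.adjugate * (vandermonde a)ᵀ)
      = ((vandermonde a).det ^ 2) • (1 : Matrix (Fin μ) (Fin μ) R) := by
    rw [Matrix.mul_assoc, adjugate_mul, ← Matrix.mul_assoc, mul_adjugate, det_transpose,
      smul_mul_smul_comm, Matrix.one_mul, sq]
  rw [Matrix.mul_assoc (vandermonde a), this, smul_mulVec, one_mulVec]

theorem sum_pow_mul_yvec (a b : Fin μ → R) (i : Fin μ) :
    ∑ m : Fin μ, yvec a b m * a i ^ (m : ℕ) = disc a * b i := by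
  have := congrFun (vandermonde_mulVec_yvec a b) i
  simp only [Matrix.mulVec, dotProduct, vandermonde_apply, Pi.smul_apply, smul_eq_mul] at this
  rw [← this]
  exact Finset.sum_congr rfl fun m _ => mul_comm _ _

theorem gram_perm (a : Fin μ → R) (π : Equiv.Perm (Fin μ)) : gram (a ∘ π) = gram a := by
  ext m n
  simp only [gram, Matrix.of_apply, Function.comp_apply]
  exact Equiv.sum_comp π fun i => a i ^ ((m : ℕ) + (n : ℕ))

theorem tvec_perm (a b : Fin μ → R) (π : Equiv.Perm (Fin μ)) :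
    tvec (a ∘ π) (b ∘ π) = tvec a b := by
  ext m
  simp only [tvec, Function.comp_apply]
  exact Equiv.sum_comp π fun i => a i ^ (m : ℕ) * b i

theorem yvec_perm (a b : Fin μ → R) (π : Equiv.Perm (Fin μ)) :
    yvec (a ∘ π) (b ∘ π) = yvec a b := by
  rw [yvec, yvec, gram_perm, tvec_perm]

theorem disc_perm (a : Fin μ → R) (π : Equiv.Perm (Fin μ)) : disc (a ∘ π) = disc a := by
  rw [disc, disc, gram_perm]

/-- the diagonal scaling matrix -/
def lam (μ : ℕ) (c : R) : Matrix (Fin μ) (Fin μ) R := diagonal fun m => c ^ (m : ℕ)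

theorem det_lam_sq (c : R) : (lam μ c).det ^ 2 = c ^ (μ * (μ - 1)) := by
  rw [lam, det_diagonal, Finset.prod_pow_eq_pow_sum, ← pow_mul, Fin.sum_univ_eq_sum_range (fun i => i),
    Finset.sum_range_id_mul_two]

theorem gram_smul (c : R) (a : Fin μ → R) : gram (c • a) = lam μ c * gram a * lam μ c := by
  ext m n
  simp only [gram, lam, Matrix.of_apply, Pi.smul_apply, smul_eq_mul, mul_diagonal, diagonal_mul,
    Finset.mul_sum, Finset.sum_mul]
  refine Finset.sum_congr rfl fun i _ => ?_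
  rw [mul_pow, pow_add c]
  ring

theorem tvec_smul (c d : R) (a b : Fin μ → R) :
    tvec (c • a) (d • b) = d • (lam μ c *ᵥ tvec a b) := by
  ext m
  simp only [tvec, lam, Pi.smul_apply, smul_eq_mul, mulVec_diagonal, Finset.mul_sum]
  refine Finset.sum_congr rfl fun i _ => ?_
  rw [mul_pow]
  ring

theorem disc_smul (c : R) (a : Fin μ → R) : disc (c • a) = c ^ (μ * (μ - 1)) * disc a := by
  rw [disc, gram_smul, det_mul, det_mul, disc, ← det_lam_sq]
  ring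

theorem lam_mulVec_yvec_smul (c d : R) (a b : Fin μ → R) :
    lam μ c *ᵥ yvec (c • a) (d • b) = (d * c ^ (μ * (μ - 1))) • yvec a b := by
  rw [yvec, gram_smul, tvec_smul, adjugate_mul_distrib, adjugate_mul_distrib, mulVec_smul,
    mulVec_smul, mulVec_mulVec, mulVec_mulVec, yvec, ← det_lam_sq]
  have : lam μ c * ((lam μ c).adjugate * ((gram a).adjugate * (lam μ c).adjugate) * lam μ c)
      = ((lam μ c).det ^ 2) • (gram a).adjugate := by
    rw [Matrix.mul_assoc, Matrix.mul_assoc, adjugate_mul, ← Matrix.mul_assoc, mul_adjugate,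
      Matrix.mul_smul, Matrix.mul_one, smul_mul_smul_comm, Matrix.one_mul, sq]
  rw [Matrix.mul_assoc (lam μ c), this, smul_mulVec, smul_smul]

theorem pow_mul_yvec_smul (c d : R) (a b : Fin μ → R) (m : Fin μ) :
    c ^ (m : ℕ) * yvec (c • a) (d • b) m = d * c ^ (μ * (μ - 1)) * yvec a b m := by
  have := congrFun (lam_mulVec_yvec_smul c d a b) m
  simpa only [lam, mulVec_diagonal, Pi.smul_apply, smul_eq_mul] using this

theorem gram_map (φ : R →+* S) (a : Fin μ → R) : gram (φ ∘ a) = (gram a).map φ := by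
  ext m n
  simp [gram]

theorem tvec_map (φ : R →+* S) (a b : Fin μ → R) : tvec (φ ∘ a) (φ ∘ b) = φ ∘ tvec a b := by
  ext m
  simp [tvec]

theorem disc_map (φ : R →+* S) (a : Fin μ → R) : disc (φ ∘ a) = φ (disc a) := by
  rw [disc, disc, gram_map, RingHom.map_det]
  rfl

theorem yvec_map (φ : R →+* S) (a b : Fin μ → R) (m : Fin μ) :
    yvec (φ ∘ a) (φ ∘ b) m = φ (yvec a b m) := by
  rw [yvec, yvec, RingHom.map_mulVec, gram_map, tvec_map]
  congr 2
  exact (RingHom.map_adjugate φ (gram a)).symm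

end Algebra

end Gram

open UpperHalfPlane ModularForm Matrix.SpecialLinearGroup
open scoped MatrixGroups ModularForm Manifold

section Conj

variable {Γ : Subgroup SL(2, ℤ)} {k : ℤ} {f : ℍ → ℂ}

/-- The conjugate of `f` attached to a coset. -/
noncomputable def cj (Γ : Subgroup SL(2, ℤ)) (k : ℤ) (f : ℍ → ℂ) (q : SL(2, ℤ) ⧸ Γ) : ℍ → ℂ :=
  f ∣[k] (q.out)⁻¹

theorem slash_eq_of_mul_inv_mem (hf : ∀ γ ∈ Γ, f ∣[k] γ = f) {a b : SL(2, ℤ)}
    (h : a * b⁻¹ ∈ Γ) : f ∣[k] a = f ∣[k] b := by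
  have hab : a = (a * b⁻¹) * b := by group
  rw [hab, SlashAction.slash_mul, hf _ h]

theorem cj_slash (hf : ∀ γ ∈ Γ, f ∣[k] γ = f) (γ : SL(2, ℤ)) (q : SL(2, ℤ) ⧸ Γ) :
    cj Γ k f q ∣[k] γ = cj Γ k f (γ⁻¹ • q) := by
  rw [cj, cj, ← SlashAction.slash_mul]
  apply slash_eq_of_mul_inv_mem hf
  rw [inv_inv]
  have h1 : (((γ⁻¹ * q.out : SL(2, ℤ)) : SL(2, ℤ) ⧸ Γ)) = (((γ⁻¹ • q).out : SL(2, ℤ)) : SL(2, ℤ) ⧸ Γ) := by
    rw [QuotientGroup.out_eq', ← smul_eq_mul, ← MulAction.Quotient.smul_coe, QuotientGroup.out_eq']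
  have := QuotientGroup.eq.mp h1
  simpa [mul_assoc] using this

theorem cj_one (hf : ∀ γ ∈ Γ, f ∣[k] γ = f) : cj Γ k f ((1 : SL(2, ℤ)) : SL(2, ℤ) ⧸ Γ) = f := by
  have h1 : ((((1 : SL(2, ℤ)) : SL(2, ℤ) ⧸ Γ).out : SL(2, ℤ)) : SL(2, ℤ) ⧸ Γ) = ((1 : SL(2, ℤ)) : SL(2, ℤ) ⧸ Γ) :=
    QuotientGroup.out_eq' _
  have h2 := QuotientGroup.eq.mp h1
  rw [mul_one] at h2
  exact hf _ h2

theorem cj_injective (hstab : ∀ γ : SL(2, ℤ), f ∣[k] γ = f → γ ∈ Γ) :
    Function.Injective (cj Γ k f) := by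
  intro q q' h
  have h1 : f ∣[k] (q.out⁻¹ * q'.out) = f := by
    rw [SlashAction.slash_mul]
    change cj Γ k f q ∣[k] q'.out = f
    rw [h, cj, ← SlashAction.slash_mul, inv_mul_cancel, SlashAction.slash_one]
  have h2 := QuotientGroup.eq.mpr (hstab _ h1)
  rwa [QuotientGroup.out_eq', QuotientGroup.out_eq'] at h2

theorem cj_apply_smul (hf : ∀ γ ∈ Γ, f ∣[k] γ = f) (γ : SL(2, ℤ)) (q : SL(2, ℤ) ⧸ Γ) (z : ℍ) :
    cj Γ k f q (γ • z) = denom γ z ^ k * cj Γ k f (γ⁻¹ • q) z := by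
  rw [← cj_slash hf, SL_slash_apply, mul_comm, mul_assoc, ← zpow_add₀ (denom_ne_zero γ z)]
  simp

/-- Holomorphic functions bounded at `i∞`. -/
def HB : Subalgebra ℂ (ℍ → ℂ) where
  carrier := {g | MDiff g ∧ IsBoundedAtImInfty g}
  mul_mem' ha hb := ⟨ha.1.mul hb.1, ha.2.mul hb.2⟩
  add_mem' ha hb := ⟨ha.1.add hb.1, ha.2.add hb.2⟩
  algebraMap_mem' c := ⟨mdifferentiable_const, Filter.const_boundedAtFilter _ c⟩

theorem IsMF.cj_mem_HB (h : IsMF Γ k f) (q : SL(2, ℤ) ⧸ Γ) : cj Γ k f q ∈ HB :=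
  ⟨h.holo.slash k _, h.bdd _⟩

end Conj

section Main

variable {Γ : Subgroup SL(2, ℤ)} {μ : ℕ} (e : Fin μ ≃ SL(2, ℤ) ⧸ Γ)

/-- The permutation of the index set induced by `γ⁻¹`. -/
noncomputable def idxPerm (γ : SL(2, ℤ)) : Equiv.Perm (Fin μ) :=
  (e.trans (MulAction.toPerm γ⁻¹)).trans e.symm

/-- The family of conjugates, indexed by `Fin μ`. -/
noncomputable def cjFam (k : ℤ) (f : ℍ → ℂ) : Fin μ → ℍ → ℂ := fun i => cj Γ k f (e i)

theorem cjFam_apply_smul {k : ℤ} {f : ℍ → ℂ} (hf : ∀ γ ∈ Γ, f ∣[k] γ = f) (γ : SL(2, ℤ)) (z : ℍ) :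
    (fun i => cjFam e k f i (γ • z)) =
      (denom γ z ^ k) • ((fun i => cjFam e k f i z) ∘ idxPerm e γ) := by
  ext i
  simp only [cjFam, idxPerm, Pi.smul_apply, Function.comp_apply, smul_eq_mul, Equiv.trans_apply,
    Equiv.apply_symm_apply, MulAction.toPerm_apply]
  exact cj_apply_smul hf γ (e i) z

theorem mem_HB_of_fam {a b : Fin μ → ℍ → ℂ} (ha : ∀ i, a i ∈ HB) (hb : ∀ i, b i ∈ HB)
    (m : Fin μ) : Gram.yvec a b m ∈ HB := by
  have h := Gram.yvec_map HB.val.toRingHom (fun i => (⟨a i, ha i⟩ : HB)) (fun i => ⟨b i, hb i⟩) m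
  have h' : Gram.yvec a b m = HB.val.toRingHom
      (Gram.yvec (fun i => (⟨a i, ha i⟩ : HB)) (fun i => ⟨b i, hb i⟩) m) := h
  rw [h']
  exact Subtype.property _

theorem disc_mem_HB_of_fam {a : Fin μ → ℍ → ℂ} (ha : ∀ i, a i ∈ HB) : Gram.disc a ∈ HB := by
  have h := Gram.disc_map HB.val.toRingHom (fun i => (⟨a i, ha i⟩ : HB))
  have h' : Gram.disc a = HB.val.toRingHom (Gram.disc (fun i => (⟨a i, ha i⟩ : HB))) := h
  rw [h']
  exact Subtype.property _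

theorem yvec_apply (a b : Fin μ → ℍ → ℂ) (m : Fin μ) (z : ℍ) :
    Gram.yvec a b m z = Gram.yvec (fun i => a i z) (fun i => b i z) m :=
  (Gram.yvec_map (Pi.evalRingHom (fun _ : ℍ => ℂ) z) a b m).symm

theorem disc_apply (a : Fin μ → ℍ → ℂ) (z : ℍ) :
    Gram.disc a z = Gram.disc (fun i => a i z) :=
  (Gram.disc_map (Pi.evalRingHom (fun _ : ℍ => ℂ) z) a).symm

theorem isMF_disc {w₀ : ℤ} {θ : ℍ → ℂ} (hθ : IsMF Γ w₀ θ) :
    IsMF ⊤ (w₀ * ((μ * (μ - 1) : ℕ) : ℤ)) (Gram.disc (cjFam e w₀ θ)) := by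
  have hmem := disc_mem_HB_of_fam (a := cjFam e w₀ θ) fun i => hθ.cj_mem_HB (e i)
  have hsl : ∀ γ : SL(2, ℤ), Gram.disc (cjFam e w₀ θ) ∣[w₀ * ((μ * (μ - 1) : ℕ) : ℤ)] γ
      = Gram.disc (cjFam e w₀ θ) := by
    intro γ
    ext z
    have hJ := denom_ne_zero γ z
    rw [SL_slash_apply, disc_apply, disc_apply, cjFam_apply_smul e hθ.slash, Gram.disc_smul,
      Gram.disc_perm, ← zpow_natCast, ← _root_.zpow_mul, mul_right_comm, ← zpow_add₀ hJ]
    simp
  exact ⟨fun γ _ => hsl γ, hmem.1, fun γ => by rw [hsl γ]; exact hmem.2⟩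

theorem isMF_yvec {w₀ k : ℤ} {θ f : ℍ → ℂ} (hθ : IsMF Γ w₀ θ) (hf : IsMF Γ k f) (m : Fin μ) :
    IsMF ⊤ (w₀ * ((μ * (μ - 1) : ℕ) : ℤ) + k - w₀ * (m : ℕ))
      (Gram.yvec (cjFam e w₀ θ) (cjFam e k f) m) := by
  have hmem := mem_HB_of_fam (a := cjFam e w₀ θ) (b := cjFam e k f)
    (fun i => hθ.cj_mem_HB (e i)) (fun i => hf.cj_mem_HB (e i)) m
  have hsl : ∀ γ : SL(2, ℤ), Gram.yvec (cjFam e w₀ θ) (cjFam e k f) m
      ∣[w₀ * ((μ * (μ - 1) : ℕ) : ℤ) + k - w₀ * (m : ℕ)] γ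
      = Gram.yvec (cjFam e w₀ θ) (cjFam e k f) m := by
    intro γ
    ext z
    have hJ := denom_ne_zero γ z
    set J := denom γ z with hJdef
    rw [SL_slash_apply, yvec_apply, yvec_apply, cjFam_apply_smul e hθ.slash,
      cjFam_apply_smul e hf.slash]
    have h := Gram.pow_mul_yvec_smul (J ^ w₀) (J ^ k)
      ((fun i => cjFam e w₀ θ i z) ∘ idxPerm e γ) ((fun i => cjFam e k f i z) ∘ idxPerm e γ) m
    rw [Gram.yvec_perm, ← zpow_natCast, ← _root_.zpow_mul, ← zpow_natCast (J ^ w₀), ← _root_.zpow_mul] at h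
    set X := Gram.yvec (J ^ w₀ • (fun i => cjFam e w₀ θ i z) ∘ idxPerm e γ)
      (J ^ k • (fun i => cjFam e k f i z) ∘ idxPerm e γ) m
    set Y := Gram.yvec (fun i => cjFam e w₀ θ i z) (fun i => cjFam e k f i z) m
    set w : ℤ := w₀ * ((μ * (μ - 1) : ℕ) : ℤ)
    calc X * J ^ (-(w + k - w₀ * (m : ℕ)))
        = (J ^ (w₀ * (m : ℕ)) * X) * J ^ (-(w + k)) := by
          rw [show -(w + k - w₀ * (m : ℕ)) = w₀ * (m : ℕ) + -(w + k) by ring, zpow_add₀ hJ]; ring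
      _ = (J ^ k * J ^ w * Y) * J ^ (-(w + k)) := by rw [h]
      _ = Y := by
          rw [← zpow_add₀ hJ, mul_right_comm, ← zpow_add₀ hJ,
            show k + w + -(w + k) = 0 by ring, zpow_zero, one_mul]
  exact ⟨fun γ _ => hsl γ, hmem.1, fun γ => by rw [hsl γ]; exact hmem.2⟩

theorem disc_ne_zero {w₀ : ℤ} {θ : ℍ → ℂ} (hθ : IsMF Γ w₀ θ)
    (hstab : ∀ γ : SL(2, ℤ), θ ∣[w₀] γ = θ → γ ∈ Γ) : Gram.disc (cjFam e w₀ θ) ≠ 0 := by
  intro h0
  have hd : ∀ i, MDiff (cjFam e w₀ θ i) := fun i => (hθ.cj_mem_HB (e i)).1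
  rw [Gram.disc_eq, det_vandermonde, sq, UpperHalfPlane.mul_eq_zero_iff, or_self,
    UpperHalfPlane.prod_eq_zero_iff] at h0
  · obtain ⟨i, -, hi⟩ := h0
    rw [UpperHalfPlane.prod_eq_zero_iff] at hi
    · obtain ⟨j, hj, hij⟩ := hi
      rw [sub_eq_zero] at hij
      have := e.injective (cj_injective hstab hij)
      rw [Finset.mem_Ioi] at hj
      exact absurd this hj.ne'
    · exact fun j _ => (hd j).sub (hd i)
  · exact fun i _ => MDifferentiable.prod fun j _ => (hd j).sub (hd i)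
  · exact MDifferentiable.prod fun i _ => MDifferentiable.prod fun j _ => (hd j).sub (hd i)
  · exact MDifferentiable.prod fun i _ => MDifferentiable.prod fun j _ => (hd j).sub (hd i)

end Main

/-- **M6**: expansion of level `Γ` forms in powers of a primitive element with level one
coefficients. -/
theorem exists_expansion {Γ : Subgroup SL(2, ℤ)} [Γ.FiniteIndex] {w₀ : ℤ} {θ : ℍ → ℂ}
    (hθ : IsMF Γ w₀ θ) (hstab : ∀ γ : SL(2, ℤ), θ ∣[w₀] γ = θ → γ ∈ Γ) :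
    ∃ (μ : ℕ) (w : ℤ) (D : ℍ → ℂ), IsMF ⊤ w D ∧ D ≠ 0 ∧ ∀ (k : ℤ) (f : ℍ → ℂ), IsMF Γ k f →
      ∃ y : ℕ → ℍ → ℂ, (∀ m : ℕ, IsMF ⊤ (w + k - w₀ * m) (y m)) ∧
        ∀ z, D z * f z = ∑ m ∈ Finset.range μ, y m z * θ z ^ m := by
  classical
  have : Finite (SL(2, ℤ) ⧸ Γ) := Subgroup.finite_quotient_of_finiteIndex
  set μ := Nat.card (SL(2, ℤ) ⧸ Γ) with hμ
  let e : Fin μ ≃ SL(2, ℤ) ⧸ Γ := (Finite.equivFin _).symm
  refine ⟨μ, w₀ * ((μ * (μ - 1) : ℕ) : ℤ), Gram.disc (cjFam e w₀ θ), isMF_disc e hθ,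
    disc_ne_zero e hθ hstab, fun k f hf => ?_⟩
  refine ⟨fun m => if h : m < μ then Gram.yvec (cjFam e w₀ θ) (cjFam e k f) ⟨m, h⟩ else 0,
    fun m => ?_, fun z => ?_⟩
  · by_cases h : m < μ
    · beta_reduce
      rw [dif_pos h]
      exact isMF_yvec e hθ hf ⟨m, h⟩
    · beta_reduce
      rw [dif_neg h]
      exact IsMF.zero
  · set i₀ : Fin μ := e.symm ((1 : SL(2, ℤ)) : SL(2, ℤ) ⧸ Γ) with hi₀
    have hθ0 : cjFam e w₀ θ i₀ = θ := by
      simp only [cjFam, hi₀, Equiv.apply_symm_apply]; exact cj_one hθ.slash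
    have hf0 : cjFam e k f i₀ = f := by
      simp only [cjFam, hi₀, Equiv.apply_symm_apply]; exact cj_one hf.slash
    have h := congrFun (Gram.sum_pow_mul_yvec (cjFam e w₀ θ) (cjFam e k f) i₀) z
    rw [hθ0, hf0] at h
    rw [Pi.mul_apply] at h
    rw [← h, Finset.sum_apply, ← Fin.sum_univ_eq_sum_range
      (fun m => (if h : m < μ then Gram.yvec (cjFam e w₀ θ) (cjFam e k f) ⟨m, h⟩ else 0) z * θ z ^ m)]
    refine Finset.sum_congr rfl fun m _ => ?_
    simp [m.2]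

end Fermat.Agent.QInt
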