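import Fermat.Agent.QInt.Basic

/-!
# QInt M5: integrality of a modular form over the ring of level one forms

Conjugates `conj k f q` (`q : SL(2,ℤ) ⧸ Γ`) of a `Γ`-invariant function, symmetric expressions in
the conjugates are of level one, and the monic equation satisfied by `f`.
-/

set_option autoImplicit false

namespace Fermat.Agent.QInt

open UpperHalfPlane ModularForm CongruenceSubgroup Matrix.SpecialLinearGroup
open scoped MatrixGroups ModularForm Manifold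

variable {Γ : Subgroup SL(2, ℤ)} {k : ℤ} {f : ℍ → ℂ}

/-- any translate of a modular form is a "modular form for the trivial group". -/
theorem IsMF.slash_bot (hf : IsMF Γ k f) (g : SL(2, ℤ)) : IsMF ⊥ k (f ∣[k] g) where
  slash γ hγ := by
    rw [Subgroup.mem_bot] at hγ
    rw [hγ, SlashAction.slash_one]
  holo := by
    rw [SL_slash]
    exact hf.holo.slash k _
  bdd γ := by
    rw [← SlashAction.slash_mul]
    exact hf.bdd _

theorem IsCF.slash_bot (hf : IsCF Γ k f) (g : SL(2, ℤ)) : IsCF ⊥ k (f ∣[k] g) where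
  slash γ hγ := by
    rw [Subgroup.mem_bot] at hγ
    rw [hγ, SlashAction.slash_one]
  holo := by
    rw [SL_slash]
    exact hf.holo.slash k _
  zero γ := by
    rw [← SlashAction.slash_mul]
    exact hf.zero _

/-- upgrade the group of invariance. -/
theorem IsMF.of_slash {Γ' : Subgroup SL(2, ℤ)} (hf : IsMF Γ k f) (h : ∀ γ ∈ Γ', f ∣[k] γ = f) :
    IsMF Γ' k f := ⟨h, hf.holo, hf.bdd⟩

theorem IsCF.of_slash {Γ' : Subgroup SL(2, ℤ)} (hf : IsCF Γ k f) (h : ∀ γ ∈ Γ', f ∣[k] γ = f) :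
    IsCF Γ' k f := ⟨h, hf.holo, hf.zero⟩

/-- The conjugates of `f`, indexed by `SL(2,ℤ) ⧸ Γ`: `conj Γ k f ⟦g⟧ = f ∣[k] g⁻¹`
(if `f` is `Γ`-invariant). -/
noncomputable def conj (Γ : Subgroup SL(2, ℤ)) (k : ℤ) (f : ℍ → ℂ) (q : SL(2, ℤ) ⧸ Γ) : ℍ → ℂ :=
  f ∣[k] (q.out)⁻¹

theorem conj_mk (hf : ∀ γ ∈ Γ, f ∣[k] γ = f) (g : SL(2, ℤ)) :
    conj Γ k f (g : SL(2, ℤ) ⧸ Γ) = f ∣[k] g⁻¹ := by
  unfold conj
  obtain ⟨δ, hδ⟩ := QuotientGroup.mk_out_eq_mul Γ g
  rw [hδ, mul_inv_rev, SlashAction.slash_mul, hf _ (inv_mem δ.2)]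

theorem conj_one (hf : ∀ γ ∈ Γ, f ∣[k] γ = f) :
    conj Γ k f ((1 : SL(2, ℤ)) : SL(2, ℤ) ⧸ Γ) = f := by
  rw [conj_mk hf, inv_one, SlashAction.slash_one]

theorem conj_slash (hf : ∀ γ ∈ Γ, f ∣[k] γ = f) (q : SL(2, ℤ) ⧸ Γ) (γ : SL(2, ℤ)) :
    conj Γ k f q ∣[k] γ = conj Γ k f (γ⁻¹ • q) := by
  induction q using QuotientGroup.induction_on with
  | H g =>
    rw [conj_mk hf, ← SlashAction.slash_mul, MulAction.Quotient.smul_coe, conj_mk hf, smul_eq_mul,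
      mul_inv_rev, inv_inv]

theorem IsMF.conj (hf : IsMF Γ k f) (q : SL(2, ℤ) ⧸ Γ) : IsMF ⊥ k (conj Γ k f q) :=
  hf.slash_bot _

theorem IsCF.conj (hf : IsCF Γ k f) (q : SL(2, ℤ) ⧸ Γ) : IsCF ⊥ k (conj Γ k f q) :=
  hf.slash_bot _

/-- slash of a finite product, `SL(2,ℤ)` version. -/
theorem prod_slash_SL2 {ι : Type*} (s : Finset ι) (F : ι → ℍ → ℂ) (γ : SL(2, ℤ)) :
    (∏ i ∈ s, F i) ∣[k * (s.card : ℤ)] γ = ∏ i ∈ s, F i ∣[k] γ := by
  classical
  induction s using Finset.induction_on with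
  | empty =>
    simp only [Finset.prod_empty, Finset.card_empty, Nat.cast_zero, mul_zero]
    exact is_invariant_one γ
  | insert a s ha ih =>
    rw [Finset.prod_insert ha, Finset.prod_insert ha, Finset.card_insert_of_notMem ha,
      show k * ((s.card + 1 : ℕ) : ℤ) = k + k * (s.card : ℤ) by push_cast; ring,
      mul_slash_SL2, ih]

theorem IsCF.prod_of_nonempty {ι : Type*} (s : Finset ι) (hs : s.Nonempty) {G : ι → ℍ → ℂ}
    {w : ι → ℤ} (h : ∀ i ∈ s, IsCF Γ (w i) (G i)) : IsCF Γ (∑ i ∈ s, w i) (∏ i ∈ s, G i) := by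
  classical
  obtain ⟨a, ha⟩ := hs
  rw [← Finset.insert_erase ha, Finset.prod_insert (Finset.notMem_erase a s),
    Finset.sum_insert (Finset.notMem_erase a s)]
  exact (h a ha).mul_isMF (IsMF.prod _ fun i hi => (h i (Finset.mem_of_mem_erase hi)).isMF)

section esymm

variable [Fintype (SL(2, ℤ) ⧸ Γ)]

/-- the `l`-th elementary symmetric function of the conjugates of `f`. -/
noncomputable def conjEsymm (Γ : Subgroup SL(2, ℤ)) [Fintype (SL(2, ℤ) ⧸ Γ)] (k : ℤ) (f : ℍ → ℂ)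
    (l : ℕ) : ℍ → ℂ :=
  ∑ s ∈ Finset.powersetCard l (Finset.univ : Finset (SL(2, ℤ) ⧸ Γ)), ∏ q ∈ s, conj Γ k f q

theorem conjEsymm_slash (hf : ∀ γ ∈ Γ, f ∣[k] γ = f) (l : ℕ) (γ : SL(2, ℤ)) :
    conjEsymm Γ k f l ∣[k * (l : ℤ)] γ = conjEsymm Γ k f l := by
  classical
  unfold conjEsymm
  rw [SlashAction.sum_slash]
  have h1 : ∀ s ∈ Finset.powersetCard l (Finset.univ : Finset (SL(2, ℤ) ⧸ Γ)),
      (∏ q ∈ s, conj Γ k f q) ∣[k * (l : ℤ)] γ
        = ∏ q ∈ s.map (MulAction.toPerm γ⁻¹).toEmbedding, conj Γ k f q := by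
    intro s hs
    rw [← (Finset.mem_powersetCard.mp hs).2, prod_slash_SL2, Finset.prod_map]
    exact Finset.prod_congr rfl fun q _ => conj_slash hf q γ
  rw [Finset.sum_congr rfl h1]
  conv_rhs => rw [← Finset.map_univ_equiv (MulAction.toPerm (γ⁻¹ : SL(2, ℤ)) :
    Equiv.Perm (SL(2, ℤ) ⧸ Γ)), Finset.powersetCard_map, Finset.sum_map]
  rfl

theorem IsMF.conjEsymm (hf : IsMF Γ k f) (l : ℕ) : IsMF ⊤ (k * (l : ℤ)) (conjEsymm Γ k f l) := by
  refine IsMF.of_slash (Γ := ⊥) ?_ fun γ _ => conjEsymm_slash hf.slash l γ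
  refine IsMF.sum _ fun s hs => ?_
  refine (IsMF.prod s (w := fun _ => k) fun q _ => hf.conj q).congr_weight ?_
  rw [Finset.sum_const, (Finset.mem_powersetCard.mp hs).2, nsmul_eq_mul, mul_comm]

theorem IsCF.conjEsymm (hf : IsCF Γ k f) (l : ℕ) (hl : 1 ≤ l) :
    IsCF ⊤ (k * (l : ℤ)) (conjEsymm Γ k f l) := by
  refine IsCF.of_slash (Γ := ⊥) ?_ fun γ _ => conjEsymm_slash hf.slash l γ
  refine IsCF.sum _ fun s hs => ?_
  have hc := (Finset.mem_powersetCard.mp hs).2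
  refine (IsCF.prod_of_nonempty s (Finset.card_pos.mp (by omega)) (w := fun _ => k)
    fun q _ => hf.conj q).congr_weight ?_
  rw [Finset.sum_const, hc, nsmul_eq_mul, mul_comm]

theorem conjEsymm_zero : conjEsymm Γ k f 0 = 1 := by
  simp [conjEsymm]

/-- the monic equation. -/
theorem sum_conjEsymm_mul_pow (hf : ∀ γ ∈ Γ, f ∣[k] γ = f) :
    ∑ l ∈ Finset.range (Fintype.card (SL(2, ℤ) ⧸ Γ) + 1),
      (-1) ^ l * (conjEsymm Γ k f l * f ^ (Fintype.card (SL(2, ℤ) ⧸ Γ) - l)) = 0 := by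
  classical
  have h := Multiset.prod_X_sub_X_eq_sum_esymm
    ((Finset.univ : Finset (SL(2, ℤ) ⧸ Γ)).val.map (conj Γ k f))
  have h2 := congrArg (Polynomial.eval f) h
  simp only [Multiset.map_map, Multiset.card_map, Finset.card_val, Finset.card_univ,
    Finset.esymm_map_val, Polynomial.eval_finsetSum, Polynomial.eval_mul, Polynomial.eval_pow,
    Polynomial.eval_neg, Polynomial.eval_one, Polynomial.eval_C, Polynomial.eval_X] at h2
  rw [show (∑ l ∈ Finset.range (Fintype.card (SL(2, ℤ) ⧸ Γ) + 1),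
      (-1) ^ l * (conjEsymm Γ k f l * f ^ (Fintype.card (SL(2, ℤ) ⧸ Γ) - l))) = _ from h2.symm]
  rw [Polynomial.eval_multiset_prod, Multiset.map_map]
  apply Multiset.prod_eq_zero
  rw [Multiset.mem_map]
  exact ⟨((1 : SL(2, ℤ)) : SL(2, ℤ) ⧸ Γ), Finset.mem_univ_val _, by simp [conj_one hf]⟩

end esymm

/-- **M5**: a modular form for a finite index subgroup is integral over level one forms. -/
theorem exists_integrality [Γ.FiniteIndex] (hf : IsMF Γ k f) :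
    ∃ (μ : ℕ) (c : ℕ → ℍ → ℂ), (∀ l : ℕ, IsMF ⊤ (k * l) (c l)) ∧ c 0 = 1 ∧
      (∀ z, ∑ l ∈ Finset.range (μ + 1), c l z * f z ^ (μ - l) = 0) ∧
      (IsCF Γ k f → ∀ l : ℕ, 1 ≤ l → IsCF ⊤ (k * l) (c l)) := by
  classical
  let _ : Fintype (SL(2, ℤ) ⧸ Γ) := Fintype.ofFinite _
  refine ⟨Fintype.card (SL(2, ℤ) ⧸ Γ), fun l => ((-1 : ℂ) ^ l) • conjEsymm Γ k f l,
    fun l => (hf.conjEsymm l).smul _, by simp [conjEsymm_zero], fun z => ?_,
    fun hc l hl => (hc.conjEsymm l hl).smul _⟩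
  have h := congrFun (sum_conjEsymm_mul_pow hf.slash) z
  simp only [Finset.sum_apply, Pi.mul_apply, Pi.pow_apply, Pi.neg_apply, Pi.one_apply,
    Pi.zero_apply] at h
  rw [← h]
  refine Finset.sum_congr rfl fun l _ => ?_
  simp only [Pi.smul_apply, smul_eq_mul]
  ring

end Fermat.Agent.QInt
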