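import Mathlib

set_option autoImplicit false

open UpperHalfPlane ModularForm EisensteinSeries
open scoped MatrixGroups Manifold

namespace Fermat.Agent.QInt

namespace LevelOne

/-- A complex power series with integer coefficients. -/
def IsIntPS (P : PowerSeries ℂ) : Prop := ∀ n, ∃ m : ℤ, P.coeff n = (m : ℂ)

lemma isIntPS_iff_mem_range (P : PowerSeries ℂ) :
    IsIntPS P ↔ P ∈ (PowerSeries.map (Int.castRingHom ℂ)).range := by
  constructor
  · intro h
    choose m hm using h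
    refine ⟨PowerSeries.mk m, ?_⟩
    ext n
    simp [hm]
  · rintro ⟨Q, rfl⟩ n
    exact ⟨Q.coeff n, by simp⟩

lemma IsIntPS.mul {P Q : PowerSeries ℂ} (hP : IsIntPS P) (hQ : IsIntPS Q) : IsIntPS (P * Q) := by
  rw [isIntPS_iff_mem_range] at *
  exact mul_mem hP hQ

lemma IsIntPS.add {P Q : PowerSeries ℂ} (hP : IsIntPS P) (hQ : IsIntPS Q) : IsIntPS (P + Q) := by
  rw [isIntPS_iff_mem_range] at *
  exact add_mem hP hQ

lemma IsIntPS.sub {P Q : PowerSeries ℂ} (hP : IsIntPS P) (hQ : IsIntPS Q) : IsIntPS (P - Q) := by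
  rw [isIntPS_iff_mem_range] at *
  exact sub_mem hP hQ

lemma IsIntPS.pow {P : PowerSeries ℂ} (hP : IsIntPS P) (n : ℕ) : IsIntPS (P ^ n) := by
  rw [isIntPS_iff_mem_range] at *
  exact pow_mem hP n

lemma IsIntPS.zero : IsIntPS 0 := fun _ => ⟨0, by simp⟩

lemma IsIntPS.one : IsIntPS 1 := by
  rw [isIntPS_iff_mem_range]
  exact one_mem _

lemma IsIntPS.int_smul {P : PowerSeries ℂ} (hP : IsIntPS P) (a : ℤ) : IsIntPS ((a : ℂ) • P) := by
  intro n
  obtain ⟨m, hm⟩ := hP n
  exact ⟨a * m, by simp [hm]⟩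

lemma isIntPS_E₄ : IsIntPS (qExpansion 1 E₄) := by
  intro n
  rw [E_qExpansion_coeff _ ⟨2, rfl⟩]
  split_ifs with h
  · exact ⟨1, by simp⟩
  · refine ⟨240 * (ArithmeticFunction.sigma 3 n : ℤ), ?_⟩
    norm_num [show bernoulli 4 = -1 / 30 by decide +kernel]

lemma isIntPS_E₆ : IsIntPS (qExpansion 1 E₆) := by
  intro n
  rw [E_qExpansion_coeff _ ⟨3, rfl⟩]
  split_ifs with h
  · exact ⟨1, by simp⟩
  · refine ⟨-504 * (ArithmeticFunction.sigma 5 n : ℤ), ?_⟩
    norm_num [show bernoulli 6 = 1 / 42 by decide +kernel]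

/-- `E₄³ - E₆²` as a level one form of weight 12. -/
noncomputable def F12 : ModularForm 𝒮ℒ 12 :=
  ModularForm.mcast (by decide) (E₄.pow 3) - ModularForm.mcast (by decide) (E₆.pow 2)

lemma F12_apply (z : ℍ) : F12 z = E₄ z ^ 3 - E₆ z ^ 2 := by
  simp only [F12, coe_mcast, coe_pow, sub_apply, Pi.pow_apply]

lemma F12_qExpansion : qExpansion 1 F12 = qExpansion 1 E₄ ^ 3 - qExpansion 1 E₆ ^ 2 := by
  simp only [F12, FunLike.coe_sub, coe_mcast,
    ModularForm.qExpansion_sub one_pos one_mem_strictPeriods_SL,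
    ModularForm.qExpansion_pow one_pos one_mem_strictPeriods_SL]

lemma isIntPS_F12 : IsIntPS (qExpansion 1 F12) := by
  rw [F12_qExpansion]
  exact (isIntPS_E₄.pow 3).sub (isIntPS_E₆.pow 2)

lemma F12_eq (z : ℍ) : F12 z = 1728 * ModularForm.discriminant z := by
  rw [F12_apply, discriminant_eq_E₄_cube_sub_E₆_sq]
  ring

/-- multiplication by `E₄³ - E₆² = 1728 Δ`. -/
noncomputable def mulF12 {k : ℤ} (h : ModularForm 𝒮ℒ (k - 12)) : ModularForm 𝒮ℒ k :=
  ModularForm.mcast (by ring) (F12.mul h)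

lemma mulF12_apply {k : ℤ} (h : ModularForm 𝒮ℒ (k - 12)) (z : ℍ) :
    mulF12 h z = F12 z * h z := rfl

lemma mulF12_qExpansion {k : ℤ} (h : ModularForm 𝒮ℒ (k - 12)) :
    qExpansion 1 (mulF12 h) = qExpansion 1 F12 * qExpansion 1 h := by
  rw [mulF12, coe_mcast, ModularForm.qExpansion_mul one_pos one_mem_strictPeriods_SL]

/-- level one forms with integral `q`-expansion -/
def intSet (k : ℤ) : Set (ModularForm 𝒮ℒ k) :=
  {h | ∀ n, ∃ m : ℤ, (qExpansion 1 h).coeff n = (m : ℂ)}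

lemma exists_smul_E_mem_intSet {k : ℕ} (hk : 3 ≤ k) (hk2 : Even k) :
    ∃ D : ℕ, D ≠ 0 ∧ ((D : ℂ) • E hk) ∈ intSet k := by
  set r : ℚ := -(2 * k / bernoulli k) with hr
  refine ⟨r.den, r.den_nz, fun n => ?_⟩
  rw [FunLike.coe_smul, ModularForm.qExpansion_smul one_pos one_mem_strictPeriods_SL,
    PowerSeries.coeff_smul, E_qExpansion_coeff hk hk2]
  split_ifs with h
  · exact ⟨r.den, by simp⟩
  · refine ⟨r.num * (ArithmeticFunction.sigma (k - 1) n : ℤ), ?_⟩
    have h1 : ((r.den : ℚ) : ℂ) * ((r : ℚ) : ℂ) = ((r.num : ℚ) : ℂ) := by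
      rw [← Rat.cast_mul, Rat.den_mul_eq_num]
    have h2 : ((r : ℚ) : ℂ) = -(2 * k / bernoulli k : ℂ) := by
      rw [hr]; push_cast; ring
    rw [← h2, smul_eq_mul, ← mul_assoc]
    push_cast at h1 ⊢
    rw [h1]

lemma mulF12_mem_intSet {k : ℤ} {h : ModularForm 𝒮ℒ (k - 12)} (hh : h ∈ intSet (k - 12)) :
    mulF12 h ∈ intSet k := by
  show IsIntPS _
  rw [mulF12_qExpansion]
  exact isIntPS_F12.mul hh

/-- `mulF12` as a linear map -/
noncomputable def mulF12ₗ (k : ℤ) : ModularForm 𝒮ℒ (k - 12) →ₗ[ℂ] ModularForm 𝒮ℒ k where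
  toFun := mulF12
  map_add' a b := by
    ext z
    simp only [mulF12_apply, add_apply]
    ring
  map_smul' c a := by
    ext z
    simp only [mulF12_apply, smul_apply, RingHom.id_apply, smul_eq_mul]
    ring

lemma aux_main (n : ℕ) : ∀ k : ℤ, k < n → ∀ g : ModularForm 𝒮ℒ k,
    g ∈ Submodule.span ℂ (intSet k) := by
  induction n with
  | zero =>
    intro k hk g
    have : g = 0 := rank_zero_iff_forall_zero.mp (levelOne_neg_weight_rank_zero (by simpa using hk)) g
    rw [this]; exact Submodule.zero_mem _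
  | succ n ih =>
    intro k hk g
    rcases lt_or_ge k n with hkn | hkn
    · exact ih k hkn g
    obtain rfl : k = n := by push_cast at hk; omega
    -- weight `n`
    rcases Nat.even_or_odd n with he | ho
    swap
    · rw [levelOne_odd_weight_eq_zero (by exact_mod_cast ho) g]; exact Submodule.zero_mem _
    rcases Nat.lt_or_ge n 3 with h3 | h3
    · have : n = 0 ∨ n = 2 := by
        obtain ⟨m, rfl⟩ := he; omega
      rcases this with rfl | rfl
      · -- weight zero: constants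
        obtain ⟨c, hc⟩ := ModularFormClass.levelOne_weight_zero_const g
        have h1 : g = c • (1 : ModularForm 𝒮ℒ 0) := by
          ext z
          simp [hc]
        rw [h1]
        refine Submodule.smul_mem _ _ (Submodule.subset_span ?_)
        show IsIntPS _
        have h2 : qExpansion 1 (⇑(1 : ModularForm 𝒮ℒ 0)) = 1 := ModularForm.qExpansion_one
        exact h2 ▸ IsIntPS.one
      · have : g = 0 := rank_zero_iff_forall_zero.mp levelOne_weight_two_rank_zero g
        rw [this]; exact Submodule.zero_mem _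
    · -- even weight `≥ 4`
      obtain ⟨D, hD0, hD⟩ := exists_smul_E_mem_intSet h3 he
      set c := (qExpansion 1 g).coeff 0 with hc
      set g1 : ModularForm 𝒮ℒ n := g - c • E h3 with hg1
      have h0 : (qExpansion 1 g1).coeff 0 = 0 :=
        (isCuspForm_iff_coeffZero_eq_zero _).mp
          (sub_smul_isCuspForm g (E h3) (E_qExpansion_coeff_zero h3 he))
      set h := CuspForm.discriminantEquiv (toCuspForm g1 h0) with hh
      have hmem : h ∈ Submodule.span ℂ (intSet ((n : ℤ) - 12)) := ih _ (by omega) h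
      have hg1' : g1 = (1 / 1728 : ℂ) • mulF12ₗ n h := by
        ext z
        have := discriminant_mul_discriminantEquiv_apply (toCuspForm g1 h0) z
        rw [toCuspForm_apply] at this
        show g1 z = (1 / 1728 : ℂ) * (F12 z * h z)
        rw [F12_eq, ← this]
        ring
      have hg : g = (c / D) • ((D : ℂ) • E h3) + (1 / 1728 : ℂ) • mulF12ₗ n h := by
        rw [← hg1', hg1, smul_smul, div_mul_cancel₀ _ (Nat.cast_ne_zero.mpr hD0)]
        abel
      rw [hg]
      refine Submodule.add_mem _ (Submodule.smul_mem _ _ (Submodule.subset_span hD))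
        (Submodule.smul_mem _ _ ?_)
      have hmap : Submodule.map (mulF12ₗ n) (Submodule.span ℂ (intSet ((n : ℤ) - 12))) ≤
          Submodule.span ℂ (intSet n) := by
        rw [Submodule.map_span]
        refine Submodule.span_mono ?_
        rintro _ ⟨x, hx, rfl⟩
        exact mulF12_mem_intSet hx
      exact hmap (Submodule.mem_map_of_mem hmem)

end LevelOne

open LevelOne

/-- **QInt-M3**: level one modular forms are spanned by forms with integral `q`-expansion. -/
theorem levelOne_mem_span_int (k : ℤ) (g : ModularForm 𝒮ℒ k) :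
    g ∈ Submodule.span ℂ {h : ModularForm 𝒮ℒ k | ∀ n, ∃ m : ℤ, (qExpansion 1 h).coeff n = (m : ℂ)} :=
  aux_main (k.toNat + 1) k (by have := Int.self_le_toNat k; push_cast; omega) g

namespace LevelOne

lemma coeff_add_levelOne {k : ℤ} (a b : ModularForm 𝒮ℒ k) (n : ℕ) :
    (qExpansion 1 ⇑(a + b)).coeff n = (qExpansion 1 a).coeff n + (qExpansion 1 b).coeff n := by
  rw [FunLike.coe_add, ModularForm.qExpansion_add one_pos one_mem_strictPeriods_SL, map_add]

lemma coeff_smul_levelOne {k : ℤ} (c : ℂ) (a : ModularForm 𝒮ℒ k) (n : ℕ) :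
    (qExpansion 1 ⇑(c • a)).coeff n = c * (qExpansion 1 a).coeff n := by
  rw [FunLike.coe_smul, ModularForm.qExpansion_smul one_pos one_mem_strictPeriods_SL,
    PowerSeries.coeff_smul, smul_eq_mul]

lemma coeff_zero_levelOne {k : ℤ} (n : ℕ) :
    (qExpansion 1 ⇑(0 : ModularForm 𝒮ℒ k)).coeff n = 0 := by
  rw [FunLike.coe_zero, qExpansion_zero, map_zero]

end LevelOne

/-- Level one forms are stable under applying a `ℚ`-linear map to all `q`-coefficients.
(In particular under ring endomorphisms of `ℂ`.) -/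
theorem levelOne_map (π : ℂ →ₗ[ℚ] ℂ) {k : ℤ} (G : ModularForm 𝒮ℒ k) :
    ∃ G' : ModularForm 𝒮ℒ k, ∀ n, (qExpansion 1 G').coeff n = π ((qExpansion 1 G).coeff n) := by
  refine Submodule.closure_induction
    (p := fun (G : ModularForm 𝒮ℒ k) _ => ∃ G' : ModularForm 𝒮ℒ k,
      ∀ n, (qExpansion 1 G').coeff n = π ((qExpansion 1 G).coeff n))
    ?_ ?_ ?_ (levelOne_mem_span_int k G)
  · exact ⟨0, fun n => by rw [coeff_zero_levelOne, map_zero]⟩
  · rintro x y _ _ ⟨x', hx⟩ ⟨y', hy⟩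
    exact ⟨x' + y', fun n => by rw [coeff_add_levelOne, coeff_add_levelOne, hx, hy, map_add]⟩
  · intro c h hh
    refine ⟨π c • h, fun n => ?_⟩
    obtain ⟨m, hm⟩ := hh n
    rw [coeff_smul_levelOne, coeff_smul_levelOne, hm]
    have : c * (m : ℂ) = (m : ℚ) • c := by
      rw [Rat.smul_def]; push_cast; ring
    rw [this, map_smul, Rat.smul_def]
    push_cast; ring

/-- Ring endomorphism version. -/
theorem levelOne_twist (σ : ℂ →+* ℂ) {k : ℤ} (G : ModularForm 𝒮ℒ k) :
    ∃ G' : ModularForm 𝒮ℒ k, qExpansion 1 G' = (qExpansion 1 G).map σ := by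
  obtain ⟨G', hG'⟩ := levelOne_map (σ.toRatAlgHom.toLinearMap) G
  refine ⟨G', ?_⟩
  ext n
  rw [hG', PowerSeries.coeff_map]
  rfl

/-- Applying a `ℚ`-linear functional `ℂ → ℚ` to all the coefficients of a level one form gives,
up to a nonzero integer factor, a level one form with integral `q`-expansion. -/
theorem levelOne_map_rat (lam : ℂ →ₗ[ℚ] ℚ) {k : ℤ} (G : ModularForm 𝒮ℒ k) :
    ∃ (D : ℕ) (G' : ModularForm 𝒮ℒ k), D ≠ 0 ∧
      (∀ n, ∃ m : ℤ, (qExpansion 1 G').coeff n = (m : ℂ)) ∧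
      ∀ n, (qExpansion 1 G').coeff n = (D : ℂ) * ((lam ((qExpansion 1 G).coeff n) : ℚ) : ℂ) := by
  refine Submodule.closure_induction
    (p := fun (G : ModularForm 𝒮ℒ k) _ => ∃ (D : ℕ) (G' : ModularForm 𝒮ℒ k), D ≠ 0 ∧
      (∀ n, ∃ m : ℤ, (qExpansion 1 G').coeff n = (m : ℂ)) ∧
      ∀ n, (qExpansion 1 G').coeff n = (D : ℂ) * ((lam ((qExpansion 1 G).coeff n) : ℚ) : ℂ))
    ?_ ?_ ?_ (levelOne_mem_span_int k G)
  · exact ⟨1, 0, one_ne_zero, fun n => ⟨0, by rw [coeff_zero_levelOne, Int.cast_zero]⟩,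
      fun n => by rw [coeff_zero_levelOne, map_zero, Rat.cast_zero, mul_zero]⟩
  · rintro x y _ _ ⟨D₁, x', hD₁, hx1, hx2⟩ ⟨D₂, y', hD₂, hy1, hy2⟩
    refine ⟨D₁ * D₂, (D₂ : ℂ) • x' + (D₁ : ℂ) • y', mul_ne_zero hD₁ hD₂, fun n => ?_, fun n => ?_⟩
    · obtain ⟨a, ha⟩ := hx1 n
      obtain ⟨b, hb⟩ := hy1 n
      exact ⟨D₂ * a + D₁ * b, by
        rw [coeff_add_levelOne, coeff_smul_levelOne, coeff_smul_levelOne, ha, hb]; push_cast; ring⟩
    · rw [coeff_add_levelOne, coeff_smul_levelOne, coeff_smul_levelOne, hx2, hy2,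
        coeff_add_levelOne, map_add]
      push_cast; ring
  · intro c h hh
    refine ⟨(lam c).den, ((lam c).num : ℂ) • h, (lam c).den_nz, fun n => ?_, fun n => ?_⟩
    · obtain ⟨m, hm⟩ := hh n
      exact ⟨(lam c).num * m, by rw [coeff_smul_levelOne, hm]; push_cast; ring⟩
    · obtain ⟨m, hm⟩ := hh n
      rw [coeff_smul_levelOne, coeff_smul_levelOne, hm]
      have : c * (m : ℂ) = (m : ℚ) • c := by
        rw [Rat.smul_def]; push_cast; ring
      rw [this, map_smul, smul_eq_mul]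
      have h1 : (((lam c).den : ℚ) : ℂ) * ((lam c : ℚ) : ℂ) = (((lam c).num : ℚ) : ℂ) := by
        rw [← Rat.cast_mul, Rat.den_mul_eq_num]
      push_cast at h1 ⊢
      rw [← h1]; ring

end Fermat.Agent.QInt
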