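import Fermat.Agent.QInt.QMap
import Fermat.Prelude.Def_CuspForm_IntegralStructure

/-!
# QInt: final wiring (hypothesis-parametrised)

`HasIntegralStructure N k` follows from
* `hR`: the cusp forms with rational `q`-coefficients span, and
* `hD`: a cusp form with rational coefficients has a nonzero integer multiple with integer
  coefficients.
-/

set_option autoImplicit false

namespace Fermat.Agent.QInt

open UpperHalfPlane ModularForm CongruenceSubgroup Matrix.SpecialLinearGroup
open scoped MatrixGroups ModularForm Manifold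

theorem qCoeff_smul_cusp {N : ℕ} [NeZero N] {k : ℤ} (c : ℂ) (f : CuspForm (Gamma0 N) k) (n : ℕ) :
    ModularFormClass.qCoeff (c • f : CuspForm (Gamma0 N) k) n
      = c * ModularFormClass.qCoeff f n := by
  have hf : IsQ (f : ℍ → ℂ) := (IsCF.of_form (Γ := Gamma0 N) f).isMF.isQ le_rfl
  unfold ModularFormClass.qCoeff
  have : ((c • f : CuspForm (Gamma0 N) k) : ℍ → ℂ) = c • (f : ℍ → ℂ) := by
    ext z; simp
  rw [this, qExpansion_smul hf.analyticAt]
  simp

theorem hasIntegralStructure_of (N : ℕ) [NeZero N] (k : ℤ)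
    (hR : Submodule.span ℂ {f : CuspForm (Gamma0 N) k |
      ∀ n : ℕ, ∃ r : ℚ, ModularFormClass.qCoeff f n = (r : ℂ)} = ⊤)
    (hD : ∀ f : CuspForm (Gamma0 N) k,
      (∀ n : ℕ, ∃ r : ℚ, ModularFormClass.qCoeff f n = (r : ℂ)) →
      ∃ D : ℤ, D ≠ 0 ∧ ∀ n : ℕ, ∃ m : ℤ, (D : ℂ) * ModularFormClass.qCoeff f n = (m : ℂ)) :
    CuspForm.HasIntegralStructure N k := by
  unfold CuspForm.HasIntegralStructure
  rw [eq_top_iff, ← hR, Submodule.span_le]
  intro f hf
  obtain ⟨D, hD0, hDf⟩ := hD f hf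
  have h1 : ((D : ℂ) • f : CuspForm (Gamma0 N) k) ∈ CuspForm.intLattice N k := by
    apply Submodule.subset_span
    intro n
    obtain ⟨m, hm⟩ := hDf n
    exact ⟨m, by rw [qCoeff_smul_cusp, hm]⟩
  have h2 : f = ((D : ℂ)⁻¹) • ((D : ℂ) • f : CuspForm (Gamma0 N) k) := by
    rw [smul_smul, inv_mul_cancel₀ (by exact_mod_cast hD0), one_smul]
  rw [h2]
  exact Submodule.smul_mem _ _ (Submodule.subset_span h1)

end Fermat.Agent.QInt
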