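import Fermat.Agent.QInt.Basic

/-!
# QInt: the algebra of `1`-periodic holomorphic functions bounded at `i∞`, and the `q`-expansion map
-/

set_option autoImplicit false

namespace Fermat.Agent.QInt

open UpperHalfPlane ModularForm CongruenceSubgroup Matrix.SpecialLinearGroup
open scoped MatrixGroups ModularForm Manifold

/-- `g` is `1`-periodic, holomorphic and bounded at `i∞`. -/
structure IsQ (g : ℍ → ℂ) : Prop where
  periodic : Function.Periodic (g ∘ ofComplex) ((1 : ℝ) : ℂ)
  holo : MDiff g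
  bdd : IsBoundedAtImInfty g

theorem IsQ.analyticAt {g : ℍ → ℂ} (h : IsQ g) : AnalyticAt ℂ (cuspFunction 1 g) 0 :=
  analyticAt_cuspFunction_zero one_pos h.periodic h.holo h.bdd

/-- The subalgebra of functions satisfying `IsQ`. -/
def QH : Subalgebra ℂ (ℍ → ℂ) where
  carrier := {g | IsQ g}
  mul_mem' {a b} ha hb := ⟨fun w => by
      have h1 := ha.periodic w
      have h2 := hb.periodic w
      simp only [Function.comp_apply, Pi.mul_apply] at h1 h2 ⊢
      rw [h1, h2], ha.holo.mul hb.holo, ha.bdd.mul hb.bdd⟩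
  add_mem' {a b} ha hb := ⟨fun w => by
      have h1 := ha.periodic w
      have h2 := hb.periodic w
      simp only [Function.comp_apply, Pi.add_apply] at h1 h2 ⊢
      rw [h1, h2], ha.holo.add hb.holo, ha.bdd.add hb.bdd⟩
  algebraMap_mem' c := ⟨fun w => rfl, mdifferentiable_const, Filter.const_boundedAtFilter _ c⟩

theorem mem_QH {g : ℍ → ℂ} : g ∈ QH ↔ IsQ g := Iff.rfl

/-- The `q`-expansion as an algebra homomorphism. -/
noncomputable def qMap : QH →ₐ[ℂ] PowerSeries ℂ where
  toFun g := qExpansion 1 (g : ℍ → ℂ)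
  map_one' := qExpansion_one 1
  map_mul' a b := qExpansion_mul (IsQ.analyticAt a.2) (IsQ.analyticAt b.2)
  map_zero' := qExpansion_zero 1
  map_add' a b := qExpansion_add (IsQ.analyticAt a.2) (IsQ.analyticAt b.2)
  commutes' c := by
    have h1 : ((algebraMap ℂ QH c : QH) : ℍ → ℂ) = c • (1 : ℍ → ℂ) := by
      ext z; simp [Algebra.algebraMap_eq_smul_one]
    have h2 : IsQ (1 : ℍ → ℂ) := (1 : QH).2
    show qExpansion 1 ((algebraMap ℂ QH c : QH) : ℍ → ℂ) = _
    rw [h1, qExpansion_smul h2.analyticAt, qExpansion_one, Algebra.algebraMap_eq_smul_one]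

@[simp] theorem qMap_apply (g : QH) : qMap g = qExpansion 1 (g : ℍ → ℂ) := rfl

theorem qMap_injective : Function.Injective qMap := by
  rw [injective_iff_map_eq_zero]
  intro g hg
  have := (qExpansion_eq_zero_iff one_pos g.2.periodic g.2.holo g.2.bdd).mp hg
  exact Subtype.ext this

theorem IsMF.isQ {N : ℕ} [NeZero N] {Γ : Subgroup SL(2, ℤ)} (hΓ : Gamma0 N ≤ Γ) {k : ℤ}
    {g : ℍ → ℂ} (h : IsMF Γ k g) : IsQ g where
  periodic := SlashInvariantFormClass.periodic_comp_ofComplex (h.mono hΓ).toForm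
    (CongruenceSubgroup.one_mem_strictPeriods_Gamma0 N)
  holo := h.holo
  bdd := by simpa using h.bdd 1

theorem IsMF.isQ_top {k : ℤ} {g : ℍ → ℂ} (h : IsMF ⊤ k g) : IsQ g :=
  IsMF.isQ (N := 1) le_top h

end Fermat.Agent.QInt
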