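import Mathlib

/-!
# Predicates "is (the function of) a modular / cusp form" and closure lemmas

Part of the `QInt` plan (integral structure on cusp forms, S22 + S23).
-/

set_option autoImplicit false

open UpperHalfPlane ModularForm
open scoped MatrixGroups ModularForm Manifold

namespace Fermat.Agent.QInt.Sym

variable {Γ : Subgroup (GL (Fin 2) ℝ)}

/-- `g` is the underlying function of a modular form of weight `k` and level `Γ`. -/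
def IsMF (Γ : Subgroup (GL (Fin 2) ℝ)) (k : ℤ) (g : ℍ → ℂ) : Prop :=
  ∃ F : ModularForm Γ k, (F : ℍ → ℂ) = g

/-- `g` is the underlying function of a cusp form of weight `k` and level `Γ`. -/
def IsCF (Γ : Subgroup (GL (Fin 2) ℝ)) (k : ℤ) (g : ℍ → ℂ) : Prop :=
  ∃ F : CuspForm Γ k, (F : ℍ → ℂ) = g

theorem isMF_coe {k : ℤ} (F : ModularForm Γ k) : IsMF Γ k F := ⟨F, rfl⟩

theorem isCF_coe {k : ℤ} (F : CuspForm Γ k) : IsCF Γ k F := ⟨F, rfl⟩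

theorem IsCF.isMF {k : ℤ} {g : ℍ → ℂ} (h : IsCF Γ k g) : IsMF Γ k g := by
  obtain ⟨F, rfl⟩ := h
  exact ⟨ModularFormClass.modularForm F, rfl⟩

theorem IsMF.cast {k k' : ℤ} {g : ℍ → ℂ} (h : IsMF Γ k g) (hk : k = k') : IsMF Γ k' g := hk ▸ h

theorem IsCF.cast {k k' : ℤ} {g : ℍ → ℂ} (h : IsCF Γ k g) (hk : k = k') : IsCF Γ k' g := hk ▸ h

theorem IsMF.zero (k : ℤ) : IsMF Γ k 0 := ⟨0, rfl⟩

theorem IsCF.zero (k : ℤ) : IsCF Γ k 0 := ⟨0, rfl⟩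

theorem IsMF.add {k : ℤ} {g h : ℍ → ℂ} (hg : IsMF Γ k g) (hh : IsMF Γ k h) : IsMF Γ k (g + h) := by
  obtain ⟨G, rfl⟩ := hg
  obtain ⟨H, rfl⟩ := hh
  exact ⟨G + H, rfl⟩

theorem IsCF.add {k : ℤ} {g h : ℍ → ℂ} (hg : IsCF Γ k g) (hh : IsCF Γ k h) : IsCF Γ k (g + h) := by
  obtain ⟨G, rfl⟩ := hg
  obtain ⟨H, rfl⟩ := hh
  exact ⟨G + H, rfl⟩

theorem IsMF.neg {k : ℤ} {g : ℍ → ℂ} (hg : IsMF Γ k g) : IsMF Γ k (-g) := by
  obtain ⟨G, rfl⟩ := hg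
  exact ⟨-G, rfl⟩

theorem IsCF.neg {k : ℤ} {g : ℍ → ℂ} (hg : IsCF Γ k g) : IsCF Γ k (-g) := by
  obtain ⟨G, rfl⟩ := hg
  exact ⟨-G, rfl⟩

theorem IsMF.smul [Γ.HasDetOne] {k : ℤ} {g : ℍ → ℂ} (c : ℂ) (hg : IsMF Γ k g) :
    IsMF Γ k (c • g) := by
  obtain ⟨G, rfl⟩ := hg
  exact ⟨c • G, rfl⟩

theorem IsCF.smul [Γ.HasDetOne] {k : ℤ} {g : ℍ → ℂ} (c : ℂ) (hg : IsCF Γ k g) :
    IsCF Γ k (c • g) := by
  obtain ⟨G, rfl⟩ := hg
  exact ⟨c • G, rfl⟩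

theorem IsMF.one [Γ.HasDetPlusMinusOne] : IsMF Γ 0 1 := ⟨1, rfl⟩

theorem IsMF.mul [Γ.HasDetPlusMinusOne] {k l : ℤ} {g h : ℍ → ℂ} (hg : IsMF Γ k g)
    (hh : IsMF Γ l h) : IsMF Γ (k + l) (g * h) := by
  obtain ⟨G, rfl⟩ := hg
  obtain ⟨H, rfl⟩ := hh
  exact ⟨G.mul H, rfl⟩

theorem IsCF.mul_isMF [Γ.HasDetPlusMinusOne] {k l : ℤ} {g h : ℍ → ℂ} (hg : IsCF Γ k g)
    (hh : IsMF Γ l h) : IsCF Γ (k + l) (g * h) := by
  obtain ⟨G, rfl⟩ := hg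
  obtain ⟨H, rfl⟩ := hh
  exact ⟨G.mulModularForm H, rfl⟩

theorem IsMF.mul_isCF [Γ.HasDetPlusMinusOne] {k l : ℤ} {g h : ℍ → ℂ} (hg : IsMF Γ k g)
    (hh : IsCF Γ l h) : IsCF Γ (k + l) (g * h) := by
  rw [mul_comm]
  exact (hh.mul_isMF hg).cast (add_comm _ _)

theorem IsMF.pow [Γ.HasDetPlusMinusOne] {k : ℤ} {g : ℍ → ℂ} (hg : IsMF Γ k g) (n : ℕ) :
    IsMF Γ (n * k) (g ^ n) := by
  obtain ⟨G, rfl⟩ := hg
  exact ⟨G.pow n, ModularForm.coe_pow G n⟩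

theorem IsMF.sum {ι : Type*} {k : ℤ} {g : ι → ℍ → ℂ} (s : Finset ι)
    (hg : ∀ i ∈ s, IsMF Γ k (g i)) : IsMF Γ k (∑ i ∈ s, g i) := by
  classical
  induction s using Finset.induction_on with
  | empty => simpa using IsMF.zero k
  | insert a s ha ih =>
    rw [Finset.sum_insert ha]
    exact (hg a (Finset.mem_insert_self a s)).add
      (ih fun i hi => hg i (Finset.mem_insert_of_mem hi))

theorem IsCF.sum {ι : Type*} {k : ℤ} {g : ι → ℍ → ℂ} (s : Finset ι)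
    (hg : ∀ i ∈ s, IsCF Γ k (g i)) : IsCF Γ k (∑ i ∈ s, g i) := by
  classical
  induction s using Finset.induction_on with
  | empty => simpa using IsCF.zero k
  | insert a s ha ih =>
    rw [Finset.sum_insert ha]
    exact (hg a (Finset.mem_insert_self a s)).add
      (ih fun i hi => hg i (Finset.mem_insert_of_mem hi))

theorem IsMF.prod [Γ.HasDetPlusMinusOne] {ι : Type*} {k : ι → ℤ} {g : ι → ℍ → ℂ} (s : Finset ι)
    (hg : ∀ i ∈ s, IsMF Γ (k i) (g i)) : IsMF Γ (∑ i ∈ s, k i) (∏ i ∈ s, g i) := by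
  classical
  induction s using Finset.induction_on with
  | empty => simpa using IsMF.one
  | insert a s ha ih =>
    rw [Finset.sum_insert ha, Finset.prod_insert ha]
    exact (hg a (Finset.mem_insert_self a s)).mul
      (ih fun i hi => hg i (Finset.mem_insert_of_mem hi))

theorem IsMF.mdiff {k : ℤ} {g : ℍ → ℂ} (hg : IsMF Γ k g) : MDiff g := by
  obtain ⟨G, rfl⟩ := hg
  exact G.holo'

end Fermat.Agent.QInt.Sym
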