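import Mathlib
import Fermat.Agent.QInt.SymPred

/-!
# Conjugates of a modular form and power sums
-/

set_option autoImplicit false

open UpperHalfPlane ModularForm SlashInvariantForm
open scoped MatrixGroups ModularForm Manifold

namespace Fermat.Agent.QInt.Sym

variable {𝒢 ℋ : Subgroup (GL (Fin 2) ℝ)}

local notation "𝒬" => ℋ ⧸ (𝒢.subgroupOf ℋ)

theorem quotientFunc_eq_mul [ℋ.HasDetPlusMinusOne] {F₁ F₂ F₃ : Type*} {k₁ k₂ : ℤ}
    [FunLike F₁ ℍ ℂ] [FunLike F₂ ℍ ℂ] [FunLike F₃ ℍ ℂ]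
    [SlashInvariantFormClass F₁ 𝒢 k₁] [SlashInvariantFormClass F₂ 𝒢 k₂]
    [SlashInvariantFormClass F₃ 𝒢 (k₁ + k₂)] (f₁ : F₁) (f₂ : F₂) (f₃ : F₃)
    (h : (f₃ : ℍ → ℂ) = (f₁ : ℍ → ℂ) * (f₂ : ℍ → ℂ)) (q : 𝒬) :
    quotientFunc f₃ q = quotientFunc f₁ q * quotientFunc f₂ q := by
  induction q using Quotient.inductionOn with
  | h r =>
    have hr : |((Matrix.GeneralLinearGroup.det (r.val⁻¹ : GL (Fin 2) ℝ) : ℝˣ) : ℝ)| = 1 :=
      Subgroup.HasDetPlusMinusOne.abs_det (inv_mem r.2)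
    rw [quotientFunc_mk, quotientFunc_mk, quotientFunc_mk, h, mul_slash, hr, one_smul]

theorem quotientFunc_one_class {F : Type*} {k : ℤ} [FunLike F ℍ ℂ]
    [SlashInvariantFormClass F 𝒢 k] (f : F) :
    quotientFunc f (⟦(1 : ℋ)⟧ : 𝒬) = (f : ℍ → ℂ) := by
  rw [quotientFunc_mk]
  simp

theorem quotientFunc_pow [ℋ.HasDetPlusMinusOne] [𝒢.HasDetPlusMinusOne] {k : ℤ}
    (f : ModularForm 𝒢 k) (n : ℕ) (q : 𝒬) :
    quotientFunc (f.pow n) q = (quotientFunc f q) ^ n := by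
  induction q using Quotient.inductionOn with
  | h r =>
    have hr : |((Matrix.GeneralLinearGroup.det (r.val⁻¹ : GL (Fin 2) ℝ) : ℝˣ) : ℝ)| = 1 :=
      Subgroup.HasDetPlusMinusOne.abs_det (inv_mem r.2)
    rw [quotientFunc_mk, quotientFunc_mk, ModularForm.coe_pow]
    induction n with
    | zero =>
      simp only [pow_zero, Nat.cast_zero, zero_mul]
      ext τ
      have hr' : |(r.val : Matrix (Fin 2) (Fin 2) ℝ).det| = 1 := by
        simpa using Subgroup.HasDetPlusMinusOne.abs_det r.2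
      simp [ModularForm.slash_def, hr']
    | succ n ih =>
      rw [pow_succ, pow_succ, ← ih]
      have : ((n + 1 : ℕ) : ℤ) * k = (n : ℤ) * k + k := by push_cast; ring
      rw [this, mul_slash, hr, one_smul]

end Fermat.Agent.QInt.Sym

namespace Fermat.Agent.QInt.Sym

variable {𝒢 ℋ : Subgroup (GL (Fin 2) ℝ)}

local notation "𝒬" => ℋ ⧸ (𝒢.subgroupOf ℋ)

theorem quotientFunc_congr {F₁ F₂ : Type*} {k : ℤ} [FunLike F₁ ℍ ℂ] [FunLike F₂ ℍ ℂ]
    [SlashInvariantFormClass F₁ 𝒢 k] [SlashInvariantFormClass F₂ 𝒢 k] (f₁ : F₁) (f₂ : F₂)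
    (h : (f₁ : ℍ → ℂ) = (f₂ : ℍ → ℂ)) (q : 𝒬) :
    quotientFunc f₁ q = quotientFunc f₂ q := by
  induction q using Quotient.inductionOn with
  | h r => rw [quotientFunc_mk, quotientFunc_mk, h]

theorem isMF_psum [ℋ.HasDetPlusMinusOne] [𝒢.HasDetPlusMinusOne] [𝒢.IsFiniteRelIndex ℋ]
    [Fintype 𝒬] {k a : ℤ} (f : ModularForm 𝒢 k) (θ : ModularForm 𝒢 a) (j i : ℕ) :
    IsMF ℋ (j * k + i * a) (∑ q : 𝒬, quotientFunc f q ^ j * quotientFunc θ q ^ i) := by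
  refine ⟨ModularForm.trace ℋ ((f.pow j).mul (θ.pow i)), ?_⟩
  rw [ModularForm.coe_trace]
  refine Finset.sum_congr (by ext; simp) fun q _ => ?_
  rw [quotientFunc_eq_mul (f.pow j) (θ.pow i) ((f.pow j).mul (θ.pow i)) rfl, quotientFunc_pow,
    quotientFunc_pow]

theorem isCF_psum [ℋ.HasDetPlusMinusOne] [𝒢.HasDetPlusMinusOne] [𝒢.IsFiniteRelIndex ℋ]
    [Fintype 𝒬] {k a : ℤ} (f : CuspForm 𝒢 k) (θ : ModularForm 𝒢 a) (j i : ℕ) :
    IsCF ℋ (((j + 1 : ℕ) : ℤ) * k + i * a)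
      (∑ q : 𝒬, quotientFunc f q ^ (j + 1) * quotientFunc θ q ^ i) := by
  set F : ModularForm 𝒢 k := ModularFormClass.modularForm f with hF
  have hw : k + (j * k + i * a) = ((j + 1 : ℕ) : ℤ) * k + i * a := by push_cast; ring
  refine IsCF.cast ⟨CuspForm.trace ℋ (f.mulModularForm ((F.pow j).mul (θ.pow i))), ?_⟩ hw
  rw [CuspForm.coe_trace]
  refine Finset.sum_congr (by ext; simp) fun q _ => ?_
  rw [quotientFunc_eq_mul f ((F.pow j).mul (θ.pow i)) (f.mulModularForm ((F.pow j).mul (θ.pow i)))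
    rfl, quotientFunc_eq_mul (F.pow j) (θ.pow i) ((F.pow j).mul (θ.pow i)) rfl, quotientFunc_pow,
    quotientFunc_pow, quotientFunc_congr F f rfl, pow_succ]
  ring

end Fermat.Agent.QInt.Sym
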