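import Mathlib
import Fermat.Agent.QInt.SymConj

/-!
# (A2) The discriminant trick: `D * f = ∑ y_m θ^m`
-/

set_option autoImplicit false

open UpperHalfPlane ModularForm SlashInvariantForm Matrix
open scoped MatrixGroups ModularForm Manifold

namespace Fermat.Agent.QInt.Sym

section Algebra

variable {R : Type*} [CommRing R] {n : ℕ}

/-- Pure linear algebra: `V * cramer (Vᵀ V) (Vᵀ F) = det (Vᵀ V) • F`. -/
theorem mulVec_cramer_transpose_mul (V : Matrix (Fin n) (Fin n) R) (F : Fin n → R) :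
    V *ᵥ ((Vᵀ * V).cramer (Vᵀ *ᵥ F)) = (Vᵀ * V).det • F := by
  rw [Matrix.cramer_eq_adjugate_mulVec, Matrix.adjugate_mul_distrib, Matrix.mulVec_mulVec,
    Matrix.mulVec_mulVec, ← Matrix.mul_assoc, Matrix.mul_adjugate,
    Matrix.mul_assoc, Matrix.adjugate_mul, Matrix.det_mul, Matrix.smul_mul, Matrix.one_mul,
    smul_smul, Matrix.smul_mulVec, Matrix.one_mulVec, mul_comm]

end Algebra

theorem IsMF.units_smul {Γ : Subgroup (GL (Fin 2) ℝ)} {k : ℤ} {g : ℍ → ℂ} (u : ℤˣ)
    (hg : IsMF Γ k g) : IsMF Γ k (u • g) := by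
  rcases Int.units_eq_one_or u with rfl | rfl
  · simpa using hg
  · simpa using hg.neg

/-- determinant of a matrix of modular forms whose `(i,j)` entry has weight `r i + c j`. -/
theorem isMF_det {Γ : Subgroup (GL (Fin 2) ℝ)} [Γ.HasDetPlusMinusOne] {n : ℕ}
    (M : Matrix (Fin n) (Fin n) (ℍ → ℂ)) (r c : Fin n → ℤ)
    (hM : ∀ i j, IsMF Γ (r i + c j) (M i j)) : IsMF Γ (∑ i, r i + ∑ j, c j) M.det := by
  rw [Matrix.det_apply]
  refine IsMF.sum _ fun π _ => IsMF.units_smul _ ?_
  refine (IsMF.prod Finset.univ fun i _ => hM (π i) i).cast ?_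
  rw [Finset.sum_add_distrib, Equiv.sum_comp π r]

variable {𝒢 ℋ : Subgroup (GL (Fin 2) ℝ)}

local notation "𝒬" => ℋ ⧸ (𝒢.subgroupOf ℋ)

theorem mdiff_quotientFunc {k : ℤ} (f : ModularForm 𝒢 k) (q : 𝒬) : MDiff (quotientFunc f q) := by
  induction q using Quotient.inductionOn with
  | h r => exact (ModularForm.translate f r.val⁻¹).holo'

theorem det_vandermonde_ne_zero {n : ℕ} (t : Fin n → ℍ → ℂ) (ht : ∀ i, MDiff (t i))
    (hinj : Function.Injective t) : (Matrix.vandermonde t).det ≠ 0 := by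
  rw [Matrix.det_vandermonde]
  intro h
  rw [UpperHalfPlane.prod_eq_zero_iff] at h
  · obtain ⟨i, -, hi⟩ := h
    rw [UpperHalfPlane.prod_eq_zero_iff] at hi
    · obtain ⟨j, hj, hij⟩ := hi
      rw [Finset.mem_Ioi] at hj
      exact hj.ne' (hinj (sub_eq_zero.mp hij))
    · exact fun j _ => (ht j).sub (ht i)
  · exact fun i _ => MDifferentiable.prod fun j _ => (ht j).sub (ht i)

/-- **(A2)** the discriminant trick. If the conjugates of `θ` are pairwise distinct then there is
a nonzero modular form `D` of level `ℋ` such that for every `f` of level `𝒢`, `D * f` is a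
polynomial in `θ` of degree `< μ` with coefficients modular forms of level `ℋ`. -/
theorem exists_discriminant_relation [ℋ.HasDetOne] [𝒢.HasDetPlusMinusOne] [𝒢.IsFiniteRelIndex ℋ]
    {a : ℤ} (θ : ModularForm 𝒢 a)
    (hθ : Function.Injective (fun q : 𝒬 => quotientFunc θ q)) :
    ∃ (w : ℤ) (D : ℍ → ℂ), IsMF ℋ w D ∧ D ≠ 0 ∧
      ∀ {k : ℤ} (f : ModularForm 𝒢 k), ∃ y : ℕ → ℍ → ℂ,
        (∀ m : ℕ, IsMF ℋ (k + w - m * a) (y m)) ∧
        D * (f : ℍ → ℂ) = ∑ m ∈ Finset.range (Nat.card 𝒬), y m * (θ : ℍ → ℂ) ^ m := by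
  classical
  let _ := Fintype.ofFinite 𝒬
  set μ := Fintype.card 𝒬 with hμ
  let e : 𝒬 ≃ Fin μ := Fintype.equivFin 𝒬
  set t : Fin μ → ℍ → ℂ := fun i => quotientFunc θ (e.symm i) with ht
  set V : Matrix (Fin μ) (Fin μ) (ℍ → ℂ) := Matrix.vandermonde t with hV
  set H : Matrix (Fin μ) (Fin μ) (ℍ → ℂ) := Vᵀ * V with hH
  set r : Fin μ → ℤ := fun i => ((i : ℕ) : ℤ) * a with hr
  have hHij : ∀ i j, IsMF ℋ (r i + r j) (H i j) := by
    intro i j
    have h1 := isMF_psum (ℋ := ℋ) θ θ i j
    have h2 : H i j = ∑ q : 𝒬, quotientFunc θ q ^ (i : ℕ) * quotientFunc θ q ^ (j : ℕ) := by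
      rw [hH, Matrix.mul_apply, ← Equiv.sum_comp e.symm]
      rfl
    rw [h2]
    exact h1
  have hVdet : V.det ≠ 0 :=
    det_vandermonde_ne_zero t (fun i => mdiff_quotientFunc θ _)
      (fun i j hij => e.symm.injective (hθ hij))
  have hVmd : MDiff V.det := by
    rw [hV, Matrix.det_vandermonde]
    exact MDifferentiable.prod fun i _ => MDifferentiable.prod fun j _ =>
      (mdiff_quotientFunc θ _).sub (mdiff_quotientFunc θ _)
  refine ⟨∑ i, r i + ∑ j, r j, H.det, isMF_det H r r hHij, ?_, ?_⟩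
  · rw [hH, Matrix.det_mul, Matrix.det_transpose]
    intro h
    rcases (UpperHalfPlane.mul_eq_zero_iff hVmd hVmd).mp h with h | h <;> exact hVdet h
  · intro k f
    set Fv : Fin μ → ℍ → ℂ := fun i => quotientFunc f (e.symm i) with hFv
    set b : Fin μ → ℍ → ℂ := Vᵀ *ᵥ Fv with hb
    have hbi : ∀ i, IsMF ℋ (r i + k) (b i) := by
      intro i
      have h1 := isMF_psum (ℋ := ℋ) f θ 1 i
      have h2 : b i = ∑ q : 𝒬, quotientFunc f q ^ 1 * quotientFunc θ q ^ (i : ℕ) := by
        rw [hb, Matrix.mulVec, dotProduct, ← Equiv.sum_comp e.symm]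
        refine Finset.sum_congr rfl fun x _ => ?_
        rw [pow_one, mul_comm]
        rfl
      rw [h2]
      exact h1.cast (by rw [hr]; push_cast; ring)
    set y : Fin μ → ℍ → ℂ := H.cramer b with hy
    have hym : ∀ m : Fin μ, IsMF ℋ (k + (∑ i, r i + ∑ j, r j) - ((m : ℕ) : ℤ) * a) (y m) := by
      intro m
      rw [hy, Matrix.cramer_apply]
      refine (isMF_det (H.updateCol m b) r (Function.update r m k) ?_).cast ?_
      · intro i j
        by_cases hj : j = m
        · subst hj
          rw [Matrix.updateCol_self, Function.update_self]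
          exact hbi i
        · rw [Matrix.updateCol_ne hj, Function.update_of_ne hj]
          exact hHij i j
      · have : ∀ j, Function.update r m k j = r j + (if j = m then k - r m else 0) := by
          intro j
          by_cases hj : j = m
          · subst hj; simp
          · simp [hj]
        rw [Finset.sum_congr rfl fun j _ => this j, Finset.sum_add_distrib,
          Finset.sum_ite_eq' Finset.univ m, if_pos (Finset.mem_univ m)]
        simp only [hr]
        ring
    refine ⟨fun m => if h : m < μ then y ⟨m, h⟩ else 0, fun m => ?_, ?_⟩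
    · by_cases h : m < μ
      · simp only [dif_pos h]
        exact hym ⟨m, h⟩
      · simp only [dif_neg h]
        exact IsMF.zero _
    · have key := congrFun (mulVec_cramer_transpose_mul V Fv) (e ⟦(1 : ℋ)⟧)
      rw [Pi.smul_apply, smul_eq_mul] at key
      have hF1 : Fv (e ⟦(1 : ℋ)⟧) = (f : ℍ → ℂ) := by
        rw [hFv]
        simp only [Equiv.symm_apply_apply]
        exact quotientFunc_one_class f
      have ht1 : t (e ⟦(1 : ℋ)⟧) = (θ : ℍ → ℂ) := by
        rw [ht]
        simp only [Equiv.symm_apply_apply]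
        exact quotientFunc_one_class θ
      rw [hF1] at key
      rw [← key, Nat.card_eq_fintype_card, Finset.sum_range, Matrix.mulVec, dotProduct]
      refine Finset.sum_congr rfl fun m _ => ?_
      simp only [dif_pos m.2]
      rw [hV, Matrix.vandermonde_apply, ht1, mul_comm]

end Fermat.Agent.QInt.Sym
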