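import Mathlib
import Fermat.Agent.QInt.SymConj

/-!
# (A1) A modular form of level `𝒢` is integral over the modular forms of level `ℋ`
-/

set_option autoImplicit false

open UpperHalfPlane ModularForm SlashInvariantForm
open scoped MatrixGroups ModularForm Manifold

namespace Fermat.Agent.QInt.Sym

variable {𝒢 ℋ : Subgroup (GL (Fin 2) ℝ)}

local notation "𝒬" => ℋ ⧸ (𝒢.subgroupOf ℋ)

/-- Elementary symmetric functions of a finite family in the ring `ℍ → ℂ`. -/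
noncomputable def esymmFun {σ : Type*} [Fintype σ] (x : σ → ℍ → ℂ) (l : ℕ) : ℍ → ℂ :=
  MvPolynomial.aeval x (MvPolynomial.esymm σ ℂ l)

theorem esymmFun_zero {σ : Type*} [Fintype σ] (x : σ → ℍ → ℂ) : esymmFun x 0 = 1 := by
  simp [esymmFun]

theorem esymmFun_newton {σ : Type*} [Fintype σ] (x : σ → ℍ → ℂ) (l : ℕ) :
    (l : ℍ → ℂ) * esymmFun x l = (-1) ^ (l + 1) *
      ∑ a ∈ Finset.HasAntidiagonal.antidiagonal l with a.1 < l,
        (-1) ^ a.1 * esymmFun x a.1 * ∑ q, x q ^ a.2 := by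
  have h := congrArg (MvPolynomial.aeval x) (MvPolynomial.mul_esymm_eq_sum σ ℂ l)
  simpa [esymmFun, MvPolynomial.psum, map_sum, map_mul, map_pow] using h

theorem prod_sub_eq_sum_esymmFun {σ : Type*} [Fintype σ] (x : σ → ℍ → ℂ) (g : ℍ → ℂ) :
    ∏ q, (g - x q) = ∑ j ∈ Finset.range (Fintype.card σ + 1),
      (-1) ^ j * esymmFun x j * g ^ (Fintype.card σ - j) := by
  have h := congrArg (Polynomial.eval g)
    (Multiset.prod_X_sub_X_eq_sum_esymm (Multiset.map x Finset.univ.val))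
  rw [Polynomial.eval_multiset_prod, Polynomial.eval_finsetSum] at h
  simp only [Multiset.map_map, Function.comp_def, Polynomial.eval_sub, Polynomial.eval_X,
    Polynomial.eval_C, Multiset.card_map, Finset.card_val, Finset.card_univ, Polynomial.eval_mul,
    Polynomial.eval_pow, Polynomial.eval_neg, Polynomial.eval_one] at h
  rw [Finset.prod_eq_multiset_prod, h]
  refine Finset.sum_congr rfl fun j _ => ?_
  rw [esymmFun, MvPolynomial.aeval_esymm_eq_multiset_esymm, mul_assoc]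

theorem neg_one_pow_mul_eq_smul (n : ℕ) (g : ℍ → ℂ) : (-1) ^ n * g = ((-1 : ℂ) ^ n) • g := by
  ext τ
  simp

/-- If all power sums are modular forms, so are the elementary symmetric functions. -/
theorem isMF_esymmFun [ℋ.HasDetOne] {σ : Type*} [Fintype σ] (x : σ → ℍ → ℂ) {k : ℤ}
    (hp : ∀ j : ℕ, IsMF ℋ (j * k) (∑ q, x q ^ j)) (l : ℕ) : IsMF ℋ (l * k) (esymmFun x l) := by
  induction l using Nat.strong_induction_on with
  | _ l ih =>
    rcases Nat.eq_zero_or_pos l with rfl | hl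
    · rw [esymmFun_zero]
      exact IsMF.one.cast (by simp)
    · have hl' : (l : ℂ) ≠ 0 := by exact_mod_cast hl.ne'
      have key : esymmFun x l = ((l : ℂ)⁻¹) • ((l : ℍ → ℂ) * esymmFun x l) := by
        ext τ
        simp [hl']
      rw [key, esymmFun_newton, neg_one_pow_mul_eq_smul]
      refine IsMF.smul _ (IsMF.smul _ (IsMF.sum _ fun a ha => ?_))
      rw [Finset.mem_filter, Finset.HasAntidiagonal.mem_antidiagonal] at ha
      rw [mul_assoc, neg_one_pow_mul_eq_smul]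
      refine IsMF.smul _ (((ih a.1 ha.2).mul (hp a.2)).cast ?_)
      rw [← ha.1]
      push_cast
      ring

/-- Cuspidal variant. -/
theorem isCF_esymmFun [ℋ.HasDetOne] {σ : Type*} [Fintype σ] (x : σ → ℍ → ℂ) {k : ℤ}
    (hp : ∀ j : ℕ, IsCF ℋ (((j + 1 : ℕ) : ℤ) * k) (∑ q, x q ^ (j + 1))) (l : ℕ) :
    IsCF ℋ (((l + 1 : ℕ) : ℤ) * k) (esymmFun x (l + 1)) := by
  have hp' : ∀ j : ℕ, IsMF ℋ (j * k) (∑ q, x q ^ j) := by
    intro j
    rcases j with _ | j
    · have : (∑ q : σ, x q ^ 0) = ((Fintype.card σ : ℂ)) • (1 : ℍ → ℂ) := by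
        ext τ
        simp
      rw [this]
      exact (IsMF.smul _ IsMF.one).cast (by simp)
    · exact (hp j).isMF
  have hl' : ((l + 1 : ℕ) : ℂ) ≠ 0 := by exact_mod_cast (Nat.succ_ne_zero l)
  have key : esymmFun x (l + 1) =
      (((l + 1 : ℕ) : ℂ)⁻¹) • (((l + 1 : ℕ) : ℍ → ℂ) * esymmFun x (l + 1)) := by
    ext τ
    simp only [Pi.smul_apply, Pi.mul_apply, Pi.natCast_apply, smul_eq_mul]
    rw [← mul_assoc, inv_mul_cancel₀ hl', one_mul]
  rw [key, esymmFun_newton, neg_one_pow_mul_eq_smul]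
  refine IsCF.smul _ (IsCF.smul _ (IsCF.sum _ fun a ha => ?_))
  rw [Finset.mem_filter, Finset.HasAntidiagonal.mem_antidiagonal] at ha
  rw [mul_assoc, neg_one_pow_mul_eq_smul]
  obtain ⟨a1, a2⟩ := a
  simp only at ha
  obtain ⟨b, rfl⟩ : ∃ b, a2 = b + 1 := ⟨a2 - 1, by omega⟩
  refine IsCF.smul _ (((isMF_esymmFun x hp' a1).mul_isCF (hp b)).cast ?_)
  rw [← ha.1]
  push_cast
  ring

/-- **(A1)** a modular form `f` of level `𝒢` is a root of a monic polynomial of degree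
`μ = [ℋ : 𝒢 ⊓ ℋ]` whose coefficient of `X ^ (μ - l)` is a modular form of level `ℋ` and
weight `l * k`. -/
theorem exists_monic_relation [ℋ.HasDetOne] [𝒢.HasDetPlusMinusOne] [𝒢.IsFiniteRelIndex ℋ]
    {k : ℤ} (f : ModularForm 𝒢 k) :
    ∃ c : ℕ → ℍ → ℂ, c 0 = 1 ∧ (∀ l : ℕ, IsMF ℋ (l * k) (c l)) ∧
      ∑ l ∈ Finset.range (Nat.card 𝒬 + 1), c l * (f : ℍ → ℂ) ^ (Nat.card 𝒬 - l) = 0 := by
  classical
  let _ := Fintype.ofFinite 𝒬
  set x : 𝒬 → ℍ → ℂ := fun q => quotientFunc f q with hx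
  have hp : ∀ j : ℕ, IsMF ℋ (j * k) (∑ q, x q ^ j) := by
    intro j
    have := isMF_psum (ℋ := ℋ) f f j 0
    simpa using this
  refine ⟨fun l => (-1) ^ l * esymmFun x l, by simp [esymmFun_zero], fun l => ?_, ?_⟩
  · simp only
    rw [neg_one_pow_mul_eq_smul]
    exact IsMF.smul _ (isMF_esymmFun x hp l)
  · rw [Nat.card_eq_fintype_card, ← prod_sub_eq_sum_esymmFun x f]
    refine Finset.prod_eq_zero (Finset.mem_univ (⟦(1 : ℋ)⟧ : 𝒬)) ?_
    rw [hx]
    simp only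
    rw [quotientFunc_one_class, sub_self]

/-- **(A1)**, cuspidal version: the lower coefficients are cusp forms. -/
theorem exists_monic_relation_cusp [ℋ.HasDetOne] [𝒢.HasDetPlusMinusOne] [𝒢.IsFiniteRelIndex ℋ]
    {k : ℤ} (f : CuspForm 𝒢 k) :
    ∃ c : ℕ → ℍ → ℂ, c 0 = 1 ∧ (∀ l : ℕ, IsMF ℋ (l * k) (c l)) ∧
      (∀ l : ℕ, IsCF ℋ (((l + 1 : ℕ) : ℤ) * k) (c (l + 1))) ∧
      ∑ l ∈ Finset.range (Nat.card 𝒬 + 1), c l * (f : ℍ → ℂ) ^ (Nat.card 𝒬 - l) = 0 := by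
  classical
  let _ := Fintype.ofFinite 𝒬
  set x : 𝒬 → ℍ → ℂ := fun q => quotientFunc f q with hx
  set F : ModularForm 𝒢 k := ModularFormClass.modularForm f with hF
  have hp : ∀ j : ℕ, IsCF ℋ (((j + 1 : ℕ) : ℤ) * k) (∑ q, x q ^ (j + 1)) := by
    intro j
    have := isCF_psum (ℋ := ℋ) f F j 0
    simpa using this
  have hc : ∀ l, IsCF ℋ (((l + 1 : ℕ) : ℤ) * k) ((-1) ^ (l + 1) * esymmFun x (l + 1)) := by
    intro l
    rw [neg_one_pow_mul_eq_smul]
    exact IsCF.smul _ (isCF_esymmFun x hp l)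
  refine ⟨fun l => (-1) ^ l * esymmFun x l, by simp [esymmFun_zero], fun l => ?_, hc, ?_⟩
  · rcases l with _ | l
    · have h0 : ((-1 : ℍ → ℂ) ^ 0 * esymmFun x 0) = 1 := by rw [pow_zero, one_mul, esymmFun_zero]
      show IsMF ℋ _ ((-1 : ℍ → ℂ) ^ 0 * esymmFun x 0)
      rw [h0]
      exact IsMF.one.cast (by simp)
    · exact (hc l).isMF
  · rw [Nat.card_eq_fintype_card, ← prod_sub_eq_sum_esymmFun x f]
    refine Finset.prod_eq_zero (Finset.mem_univ (⟦(1 : ℋ)⟧ : 𝒬)) ?_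
    rw [hx]
    simp only
    rw [quotientFunc_one_class, sub_self]

end Fermat.Agent.QInt.Sym
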