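import Mathlib
import Fermat.Agent.QInt.SymIntegrality
import Fermat.Agent.QInt.SymDiscriminant

/-!
# (A1) and (A2) specialised to `Γ₀(N) ⊆ SL₂(ℤ)`
-/

set_option autoImplicit false

open UpperHalfPlane ModularForm SlashInvariantForm Matrix CongruenceSubgroup
open scoped MatrixGroups ModularForm Manifold

namespace Fermat.Agent.QInt.Sym

section General

variable {𝒢 ℋ : Subgroup (GL (Fin 2) ℝ)}

local notation "𝒬" => ℋ ⧸ (𝒢.subgroupOf ℋ)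

theorem injective_quotientFunc_of_stabilizer {a : ℤ} (θ : ModularForm 𝒢 a)
    (h : ∀ g ∈ ℋ, (θ : ℍ → ℂ) ∣[a] g = (θ : ℍ → ℂ) → g ∈ 𝒢) :
    Function.Injective (fun q : 𝒬 => quotientFunc θ q) := by
  intro q q'
  induction q using Quotient.inductionOn with
  | h r =>
    induction q' using Quotient.inductionOn with
    | h r' =>
      intro hqq
      simp only [quotientFunc_mk] at hqq
      have h1 : (θ : ℍ → ℂ) ∣[a] (r.val⁻¹ * r'.val) = (θ : ℍ → ℂ) := by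
        rw [SlashAction.slash_mul, hqq, ← SlashAction.slash_mul, inv_mul_cancel,
          SlashAction.slash_one]
      have h2 := h _ (mul_mem (inv_mem r.2) r'.2) h1
      exact QuotientGroup.eq.mpr (by simpa [Subgroup.mem_subgroupOf] using h2)

end General

/-- index of `Γ₀(N)` in `SL₂(ℤ)` (as subgroups of `GL₂(ℝ)`). -/
noncomputable def idx (N : ℕ) : ℕ :=
  Nat.card (𝒮ℒ ⧸ ((Gamma0 N).map (Matrix.SpecialLinearGroup.mapGL ℝ)).subgroupOf 𝒮ℒ)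

/-- **(A1)** for `Γ₀(N)`. -/
theorem gamma0_monic_relation (N : ℕ) [NeZero N] {k : ℤ} (f : ModularForm (Gamma0 N) k) :
    ∃ c : ℕ → ℍ → ℂ, c 0 = 1 ∧ (∀ l : ℕ, IsMF 𝒮ℒ (l * k) (c l)) ∧
      ∑ l ∈ Finset.range (idx N + 1), c l * (f : ℍ → ℂ) ^ (idx N - l) = 0 :=
  exists_monic_relation (ℋ := 𝒮ℒ) f

/-- **(A1)** for `Γ₀(N)`, cuspidal version. -/
theorem gamma0_monic_relation_cusp (N : ℕ) [NeZero N] {k : ℤ} (f : CuspForm (Gamma0 N) k) :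
    ∃ c : ℕ → ℍ → ℂ, c 0 = 1 ∧ (∀ l : ℕ, IsMF 𝒮ℒ (l * k) (c l)) ∧
      (∀ l : ℕ, IsCF 𝒮ℒ (((l + 1 : ℕ) : ℤ) * k) (c (l + 1))) ∧
      ∑ l ∈ Finset.range (idx N + 1), c l * (f : ℍ → ℂ) ^ (idx N - l) = 0 :=
  exists_monic_relation_cusp (ℋ := 𝒮ℒ) f

/-- **(A2)** for `Γ₀(N)`. -/
theorem gamma0_discriminant_relation (N : ℕ) [NeZero N] {a : ℤ} (θ : ModularForm (Gamma0 N) a)
    (hθ : ∀ γ : SL(2, ℤ), (θ : ℍ → ℂ) ∣[a] γ = (θ : ℍ → ℂ) → γ ∈ Gamma0 N) :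
    ∃ (w : ℤ) (D : ℍ → ℂ), IsMF 𝒮ℒ w D ∧ D ≠ 0 ∧
      ∀ {k : ℤ} (f : ModularForm (Gamma0 N) k), ∃ y : ℕ → ℍ → ℂ,
        (∀ m : ℕ, IsMF 𝒮ℒ (k + w - m * a) (y m)) ∧
        D * (f : ℍ → ℂ) = ∑ m ∈ Finset.range (idx N), y m * (θ : ℍ → ℂ) ^ m := by
  refine exists_discriminant_relation (ℋ := 𝒮ℒ) θ
    (injective_quotientFunc_of_stabilizer θ ?_)
  rintro _ ⟨γ, rfl⟩ hγ
  exact ⟨γ, hθ γ hγ, rfl⟩

end Fermat.Agent.QInt.Sym
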