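import Fermat.Agent.QInt.QMap

/-!
# QInt M8: stability of `S_k(Γ₀(N))` under coefficientwise ring endomorphisms of `ℂ`

The statements of the modules M3 (level one), M4 (theta), M5 (integrality), M6 (expansion) and
M7 (quotient) are recorded here as `Prop`-valued definitions and used as hypotheses.
-/

set_option autoImplicit false

namespace Fermat.Agent.QInt

open UpperHalfPlane ModularForm CongruenceSubgroup Matrix.SpecialLinearGroup
open scoped MatrixGroups ModularForm Manifold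

/-- Statement of M5 (integrality over level one). -/
def StmtIntegrality (Γ : Subgroup SL(2, ℤ)) : Prop :=
  ∀ (k : ℤ) (f : ℍ → ℂ), IsMF Γ k f → ∃ (μ : ℕ) (c : ℕ → ℍ → ℂ),
    (∀ l : ℕ, IsMF ⊤ (k * l) (c l)) ∧ c 0 = 1 ∧
    (∀ z, ∑ l ∈ Finset.range (μ + 1), c l z * f z ^ (μ - l) = 0) ∧
    (IsCF Γ k f → ∀ l : ℕ, 1 ≤ l → IsCF ⊤ (k * l) (c l))

/-- Statement of M6 (expansion in powers of a primitive element). -/
def StmtExpansion (Γ : Subgroup SL(2, ℤ)) (w₀ : ℤ) (θ : ℍ → ℂ) : Prop :=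
  ∃ (μ : ℕ) (w : ℤ) (D : ℍ → ℂ), IsMF ⊤ w D ∧ D ≠ 0 ∧
    ∀ (k : ℤ) (f : ℍ → ℂ), IsMF Γ k f → ∃ y : ℕ → ℍ → ℂ,
      (∀ m : ℕ, IsMF ⊤ (w + k - w₀ * m) (y m)) ∧
      ∀ z, D z * f z = ∑ m ∈ Finset.range μ, y m z * θ z ^ m

/-- Statement of M7 (the analytic quotient lemma). -/
def StmtQuotient (Γ : Subgroup SL(2, ℤ)) : Prop :=
  ∀ (k w : ℤ) (μ : ℕ) (u D : ℍ → ℂ) (c : ℕ → ℍ → ℂ), IsMF Γ (k + w) u → IsMF ⊤ w D → D ≠ 0 →
    (∀ l : ℕ, IsMF ⊤ (k * l) (c l)) → c 0 = 1 →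
    (∀ z, ∑ l ∈ Finset.range (μ + 1), c l z * D z ^ l * u z ^ (μ - l) = 0) →
    ∃ F, IsMF Γ k F ∧ (∀ z, F z * D z = u z) ∧
      ((∀ l : ℕ, 1 ≤ l → IsCF ⊤ (k * l) (c l)) → IsCF Γ k F)

/-- Statement needed from M3: level one forms can be twisted by `σ`. -/
def StmtLevelOneTwist (σ : ℂ →+* ℂ) : Prop :=
  ∀ (k : ℤ) (g : ℍ → ℂ), IsMF ⊤ k g →
    ∃ g', IsMF ⊤ k g' ∧ qExpansion 1 g' = (qExpansion 1 g).map σ

/-- A level one form with vanishing constant term is a cusp form. -/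
theorem IsMF.isCF_top_of_coeff_zero {k : ℤ} {g : ℍ → ℂ} (h : IsMF ⊤ k g)
    (h0 : (qExpansion 1 g).coeff 0 = 0) : IsCF ⊤ k g :=
  IsCF.of_levelOne (ModularForm.toCuspForm h.toLevelOne h0)

theorem IsCF.coeff_zero_top {k : ℤ} {g : ℍ → ℂ} (h : IsCF ⊤ k g) :
    (qExpansion 1 g).coeff 0 = 0 :=
  CuspFormClass.qExpansion_coeff_zero h.toLevelOne one_pos one_mem_strictPeriods_SL

section

variable {N : ℕ} [NeZero N]

theorem exists_twist_fun (σ : ℂ →+* ℂ) (hL1 : StmtLevelOneTwist σ)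
    (hInt : StmtIntegrality (Gamma0 N)) (hQuot : StmtQuotient (Gamma0 N))
    {w₀ : ℤ} {θ : ℍ → ℂ} (hθ : IsMF (Gamma0 N) w₀ θ)
    (hθσ : (qExpansion 1 θ).map σ = qExpansion 1 θ)
    (hExp : StmtExpansion (Gamma0 N) w₀ θ)
    {k : ℤ} {f : ℍ → ℂ} (hf : IsCF (Gamma0 N) k f) :
    ∃ F, IsCF (Gamma0 N) k F ∧ qExpansion 1 F = (qExpansion 1 f).map σ := by
  classical
  obtain ⟨μ, c, hc, hc0, hrel, hcc⟩ := hInt k f hf.isMF
  obtain ⟨μ', w, D, hD, hD0, hy⟩ := hExp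
  obtain ⟨y, hyw, hyrel⟩ := hy k f hf.isMF
  -- the twisted level one forms
  choose c' hc' hc'q using fun l => hL1 _ _ (hc l)
  obtain ⟨D', hD', hD'q⟩ := hL1 _ _ hD
  choose y' hy' hy'q using fun m => hL1 _ _ (hyw m)
  -- elements of `QH`
  let Fq : QH := ⟨f, hf.isMF.isQ le_rfl⟩
  let Θ : QH := ⟨θ, hθ.isQ le_rfl⟩
  let C : ℕ → QH := fun l => ⟨c l, (hc l).isQ_top⟩
  let C' : ℕ → QH := fun l => ⟨c' l, (hc' l).isQ_top⟩
  let Dq : QH := ⟨D, hD.isQ_top⟩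
  let Dq' : QH := ⟨D', hD'.isQ_top⟩
  let Y : ℕ → QH := fun m => ⟨y m, (hyw m).isQ_top⟩
  let Y' : ℕ → QH := fun m => ⟨y' m, (hy' m).isQ_top⟩
  let U : QH := ∑ m ∈ Finset.range μ', Y' m * Θ ^ m
  let S : PowerSeries ℂ →+* PowerSeries ℂ := PowerSeries.map σ
  have hSinj : Function.Injective S := PowerSeries.map_injective σ σ.injective
  have hC' : ∀ l, qMap (C' l) = S (qMap (C l)) := hc'q
  have hDq' : qMap Dq' = S (qMap Dq) := hD'q
  have hY' : ∀ m, qMap (Y' m) = S (qMap (Y m)) := hy'q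
  have hΘ : S (qMap Θ) = qMap Θ := hθσ
  -- identities in `QH`
  have hDF : Dq * Fq = ∑ m ∈ Finset.range μ', Y m * Θ ^ m := by
    apply Subtype.ext
    funext z
    simpa [Dq, Fq, Y, Θ, Finset.sum_apply] using hyrel z
  have hU : qMap U = S (qMap (Dq * Fq)) := by
    rw [hDF]
    simp only [U, map_sum, map_mul, map_pow, hY', hΘ]
  have hrelQ : ∑ l ∈ Finset.range (μ + 1), C l * Dq ^ l * (Dq * Fq) ^ (μ - l) = 0 := by
    have h1 : ∀ l ∈ Finset.range (μ + 1),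
        C l * Dq ^ l * (Dq * Fq) ^ (μ - l) = Dq ^ μ * (C l * Fq ^ (μ - l)) := by
      intro l hl
      have hl' : l ≤ μ := Nat.lt_succ_iff.mp (Finset.mem_range.mp hl)
      have : Dq ^ μ = Dq ^ l * Dq ^ (μ - l) := by rw [← pow_add, Nat.add_sub_cancel' hl']
      rw [this, mul_pow]; ring
    rw [Finset.sum_congr rfl h1, ← Finset.mul_sum]
    have h2 : ∑ l ∈ Finset.range (μ + 1), C l * Fq ^ (μ - l) = 0 := by
      apply Subtype.ext
      funext z
      simpa [C, Fq, Finset.sum_apply] using hrel z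
    rw [h2, mul_zero]
  have hrelQ' : ∑ l ∈ Finset.range (μ + 1), C' l * Dq' ^ l * U ^ (μ - l) = 0 := by
    apply qMap_injective
    have := congrArg (fun x => S (qMap x)) hrelQ
    simp only [map_sum, map_mul, map_pow, map_zero] at this ⊢
    simp only [hC', hDq', hU, map_mul]
    exact this
  have hC'0 : c' 0 = 1 := by
    have : C' 0 = 1 := by
      apply qMap_injective
      have h1 : C 0 = 1 := Subtype.ext hc0
      rw [hC', h1, map_one, map_one]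
    exact congrArg Subtype.val this
  have hDq0 : Dq ≠ 0 := fun h => hD0 (congrArg Subtype.val h)
  have hqD' : qMap Dq' ≠ 0 := by
    rw [hDq']
    intro h
    exact hDq0 (qMap_injective (hSinj (by rw [h, map_zero, map_zero])))
  have hD'0 : D' ≠ 0 := by
    intro h
    apply hqD'
    have : Dq' = 0 := Subtype.ext h
    rw [this, map_zero]
  have hUfun : (U : ℍ → ℂ) = ∑ m ∈ Finset.range μ', y' m * θ ^ m := by
    simp [U, Y', Θ]
  have hUMF : IsMF (Gamma0 N) (k + w) (U : ℍ → ℂ) := by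
    rw [hUfun]
    apply IsMF.sum
    intro m _
    exact (((hy' m).mono le_top).mul (hθ.pow m)).congr_weight (by ring)
  obtain ⟨F, hF, hFD, hFc⟩ := hQuot k w μ (U : ℍ → ℂ) D' c' hUMF hD' hD'0 hc' hC'0 (by
    intro z
    have := congrArg (fun x : QH => (x : ℍ → ℂ) z) hrelQ'
    simpa [C', Dq', Finset.sum_apply] using this)
  have hFcusp : IsCF (Gamma0 N) k F := by
    apply hFc
    intro l hl
    apply (hc' l).isCF_top_of_coeff_zero
    rw [hc'q l, PowerSeries.coeff_map, (hcc hf l hl).coeff_zero_top, map_zero]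
  refine ⟨F, hFcusp, ?_⟩
  let FF : QH := ⟨F, hF.isQ le_rfl⟩
  have h3 : FF * Dq' = U := by
    apply Subtype.ext
    funext z
    exact hFD z
  have h4 : qMap FF * qMap Dq' = S (qMap Fq) * qMap Dq' := by
    rw [← map_mul, h3, hU, map_mul, map_mul, hDq', mul_comm]
  exact mul_right_cancel₀ hqD' h4

/-- M8: `S_k(Γ₀(N))` is stable under coefficientwise application of `σ`. -/
theorem exists_twist_of (σ : ℂ →+* ℂ) (hL1 : StmtLevelOneTwist σ)
    (hInt : StmtIntegrality (Gamma0 N)) (hQuot : StmtQuotient (Gamma0 N))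
    {w₀ : ℤ} {θ : ℍ → ℂ} (hθ : IsMF (Gamma0 N) w₀ θ)
    (hθint : ∀ n, ∃ m : ℤ, (qExpansion 1 θ).coeff n = m)
    (hExp : StmtExpansion (Gamma0 N) w₀ θ)
    {k : ℤ} (f : CuspForm (Gamma0 N) k) :
    ∃ F : CuspForm (Gamma0 N) k, ∀ n, ModularFormClass.qCoeff F n = σ (ModularFormClass.qCoeff f n) := by
  have hθσ : (qExpansion 1 θ).map σ = qExpansion 1 θ := by
    ext n
    obtain ⟨m, hm⟩ := hθint n
    rw [PowerSeries.coeff_map, hm, map_intCast]
  obtain ⟨F, hF, hFq⟩ := exists_twist_fun σ hL1 hInt hQuot hθ hθσ hExp (IsCF.of_form f)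
  refine ⟨hF.toForm, fun n => ?_⟩
  show (qExpansion 1 F).coeff n = σ ((qExpansion 1 f).coeff n)
  rw [hFq, PowerSeries.coeff_map]

end

end Fermat.Agent.QInt
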