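import Fermat.Agent.QInt.Twist
import Fermat.Agent.QInt.Integrality
import Fermat.Agent.QInt.Expansion
import Fermat.Agent.QInt.Theta
import Fermat.Agent.QInt.Quotient
import Fermat.Agent.QInt.LevelOne

/-!
# QInt M10a: unconditional `σ`-stability of `S_k(Γ₀(N))`
-/

set_option autoImplicit false

namespace Fermat.Agent.QInt

open UpperHalfPlane ModularForm CongruenceSubgroup Matrix.SpecialLinearGroup
open scoped MatrixGroups ModularForm Manifold

theorem stmtIntegrality (Γ : Subgroup SL(2, ℤ)) [Γ.FiniteIndex] : StmtIntegrality Γ :=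
  fun _ _ hf => exists_integrality hf

theorem stmtQuotient (Γ : Subgroup SL(2, ℤ)) : StmtQuotient Γ :=
  fun _ _ _ _ _ _ hu hD hD0 hc hc0 hrel => exists_quotient hu hD hD0 hc hc0 hrel

theorem stmtLevelOneTwist (σ : ℂ →+* ℂ) : StmtLevelOneTwist σ := fun _ _ hg => by
  obtain ⟨G', hG'⟩ := levelOne_twist σ hg.toLevelOne
  exact ⟨G', IsMF.of_levelOne G', hG'⟩

theorem exists_twist {N : ℕ} [NeZero N] (σ : ℂ →+* ℂ) {k : ℤ} (f : CuspForm (Gamma0 N) k) :
    ∃ F : CuspForm (Gamma0 N) k,
      ∀ n, ModularFormClass.qCoeff F n = σ (ModularFormClass.qCoeff f n) := by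
  obtain ⟨θ, hθint, hstab⟩ := exists_theta N
  exact exists_twist_of σ (stmtLevelOneTwist σ) (stmtIntegrality _) (stmtQuotient _)
    (IsMF.of_form θ) hθint (exists_expansion (IsMF.of_form θ) hstab) f

end Fermat.Agent.QInt
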